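import Fermat.Agent.PT.Defs
import Fermat.Agent.PT.Delta

/-!
Parcel F: invariants of modules additive in short exact sequences.
-/

set_option autoImplicit false
set_option linter.style.haveILetI false

noncomputable section

open CategoryTheory groupCohomology

namespace FLTAgent.PT

variable {p : ℕ} [Fact p.Prime] {Γ : Type} [AddCommGroup Γ]

/-- additive in short exact sequences of finite smooth modules -/
def IsAdditive (Φ : Rep.{0} (ZMod p) GQ → Γ) : Prop :=
  ∀ (A B C : Rep.{0} (ZMod p) GQ), SES (MonoidHom.id GQ) A B C →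
    IsAdm (MonoidHom.id GQ) A → IsAdm (MonoidHom.id GQ) C → Φ B = Φ A + Φ C

variable {Φ : Rep.{0} (ZMod p) GQ → Γ}

theorem isAdm_of_injective {A B : Rep.{0} (ZMod p) GQ} (hB : IsAdm (MonoidHom.id GQ) B)
    (i : A →ₗ[ZMod p] B) (hi : ∀ g a, i (A.ρ g a) = B.ρ g (i a)) (hinj : Function.Injective i) :
    IsAdm (MonoidHom.id GQ) A := by
  haveI := hB.finite
  obtain ⟨F, hF, hρ⟩ := hB.level
  exact ⟨Module.Finite.of_injective i hinj, F, hF, fun g hg => LinearMap.ext fun a => hinj (by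
    rw [hi, hρ g hg]; rfl)⟩

theorem IsAdditive.subsingleton (hΦ : IsAdditive Φ) {M : Rep.{0} (ZMod p) GQ}
    (hM : IsAdm (MonoidHom.id GQ) M) (h : Subsingleton M) : Φ M = 0 := by
  have := hΦ M M M
    { i := LinearMap.id
      pr := LinearMap.id
      i_eqv := fun _ _ => rfl
      pr_eqv := fun _ _ => rfl
      inj := fun _ _ h => h
      surj := fun x => ⟨x, rfl⟩
      exact := fun x => ⟨fun _ => ⟨x, rfl⟩, fun _ => Subsingleton.elim _ _⟩
      adm := hM } hM hM
  exact left_eq_add.mp this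

theorem IsAdditive.congr (hΦ : IsAdditive Φ) {A B : Rep.{0} (ZMod p) GQ} (e : A ≃ₗ[ZMod p] B)
    (he : ∀ g a, e (A.ρ g a) = B.ρ g (e a)) (hB : IsAdm (MonoidHom.id GQ) B) : Φ A = Φ B := by
  let Z : Rep.{0} (ZMod p) GQ := Rep.of (Representation.trivial (ZMod p) GQ PUnit)
  have hZ : IsAdm (MonoidHom.id GQ) Z := ⟨inferInstance, ⊥, inferInstance, fun g _ => rfl⟩
  have := hΦ A B Z
    { i := e.toLinearMap
      pr := 0
      i_eqv := he
      pr_eqv := fun _ _ => rfl
      inj := e.injective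
      surj := fun x => ⟨0, Subsingleton.elim (α := PUnit) _ _⟩
      exact := fun b => ⟨fun _ => ⟨e.symm b, e.apply_symm_apply b⟩,
        fun _ => Subsingleton.elim (α := PUnit) _ _⟩
      adm := hB } (isAdm_of_injective hB e.toLinearMap he e.injective) hZ
  rw [hΦ.subsingleton hZ (inferInstanceAs (Subsingleton PUnit)), add_zero] at this
  exact this.symm

/-- a map with kernel and surjection -/
theorem IsAdditive.of_surjective (hΦ : IsAdditive Φ) {A B C : Rep.{0} (ZMod p) GQ}
    (hB : IsAdm (MonoidHom.id GQ) B) (i : A →ₗ[ZMod p] B) (pr : B →ₗ[ZMod p] C)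
    (hi : ∀ g a, i (A.ρ g a) = B.ρ g (i a)) (hpr : ∀ g b, pr (B.ρ g b) = C.ρ g (pr b))
    (hinj : Function.Injective i) (hs : Function.Surjective pr) (hex : Function.Exact i pr) :
    Φ B = Φ A + Φ C := by
  refine hΦ A B C ⟨i, pr, hi, hpr, hinj, hs, hex, hB⟩ (isAdm_of_injective hB i hi hinj) ?_
  haveI := hB.finite
  obtain ⟨F, hF, hρ⟩ := hB.level
  refine ⟨Module.Finite.of_surjective pr hs, F, hF, fun g hg => LinearMap.ext fun c => ?_⟩
  obtain ⟨b, rfl⟩ := hs c
  rw [← hpr, hρ g hg]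
  rfl

end FLTAgent.PT

end
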