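import Fermat.Agent.PT.Euler.Base

/-!
Parcel F: the invariants of complex conjugation on a module and on its dual.
-/

set_option autoImplicit false
set_option linter.style.haveILetI false

noncomputable section

open CategoryTheory groupCohomology

namespace FLTAgent.PT

variable {p : ℕ} [Fact p.Prime]

theorem two_ne_zero_zmod (hp2 : p ≠ 2) : (2 : ZMod p) ≠ 0 := fun h => hp2
  ((Nat.prime_dvd_prime_iff_eq (Fact.out : p.Prime) Nat.prime_two).mp
    ((ZMod.natCast_eq_zero_iff 2 p).mp (by exact_mod_cast h)))

theorem cycloChar_complexConjugation :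
    (ExtCitation.cycloChar p complexConjugation : ZMod p) = -1 := by
  have hp : p.Prime := Fact.out
  haveI : NeZero p := ⟨hp.ne_zero⟩
  refine (modularCyclotomicCharacter.unique (AlgebraicClosure ℚ)
    (g := (complexConjugation : AlgebraicClosure ℚ ≃+* AlgebraicClosure ℚ))
    (ExtCitation.card_rootsOfUnity_eq_self p) (c := -1) fun t ht => ?_).symm
  show complexConjugation (t : AlgebraicClosure ℚ) = _
  have hz : (t : AlgebraicClosure ℚ) ^ p = 1 := by
    exact_mod_cast (mem_rootsOfUnity' p t).1 ht
  have h1 : complexConjugation (t : AlgebraicClosure ℚ) = (t : AlgebraicClosure ℚ)⁻¹ := by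
    refine complexEmbedding.injective ?_
    show complexEmbedding _ = complexEmbedding _
    rw [complexEmbedding_complexConjugation, map_inv₀]
    have hn : ‖complexEmbedding (t : AlgebraicClosure ℚ)‖ = 1 :=
      Complex.norm_eq_one_of_pow_eq_one (by rw [← map_pow, hz, map_one]) hp.ne_zero
    rw [Complex.inv_def, Complex.normSq_eq_norm_sq, hn]
    simp
  rw [h1]
  refine inv_eq_of_mul_eq_one_right ?_
  rcases eq_or_ne p 2 with h2 | h2
  · subst h2
    rw [← pow_succ']
    exact hz
  rw [← pow_succ', ZMod.neg_val, if_neg one_ne_zero, ZMod.val_one, Nat.sub_add_cancel hp.one_le, hz]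

theorem mem_h0inf {M : Rep.{0} (ZMod p) GQ} {m : M} :
    m ∈ h0inf M ↔ M.ρ complexConjugation m = m := by
  refine ⟨fun h => h ExtCitation.archimedeanGen, fun h g => ?_⟩
  let S : Subgroup GQ :=
    { carrier := {s | M.ρ s m = m}
      one_mem' := by simp
      mul_mem' := fun {x y} hx hy => by
        show M.ρ (x * y) m = m
        rw [map_mul, Module.End.mul_apply]
        exact (congrArg (M.ρ x) hy).trans hx
      inv_mem' := fun {x} hx => by
        show M.ρ x⁻¹ m = m
        conv_lhs => rw [← (show M.ρ x m = m from hx)]
        exact Representation.inv_self_apply _ _ _ }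
  exact (Subgroup.zpowers_le.mpr (show complexConjugation ∈ S from h)) g.2

theorem finrank_h0inf_dual (hp2 : p ≠ 2) {M : Rep.{0} (ZMod p) GQ}
    (hM : IsAdm (MonoidHom.id GQ) M) :
    Module.finrank (ZMod p) (h0inf (dual' M)) + Module.finrank (ZMod p) (h0inf M) =
      Module.finrank (ZMod p) M := by
  haveI := hM.finite
  have hc := cycloChar_complexConjugation (p := p)
  set σ : M →ₗ[ZMod p] M := M.ρ complexConjugation with hσ
  have hσσ : ∀ m, σ (σ m) = m := fun m => by
    rw [hσ, ← Module.End.mul_apply, ← map_mul, complexConjugation_mul_self, map_one,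
      Module.End.one_apply]
  have h1 : h0inf (dual' M) = (h0inf M).dualAnnihilator := by
    ext f
    rw [mem_h0inf, Submodule.mem_dualAnnihilator]
    constructor
    · intro h m hm
      have h' := LinearMap.congr_fun h m
      rw [dual'_apply, hc, complexConjugation_inv, mem_h0inf.mp hm, neg_one_mul] at h'
      refine (mul_eq_zero.mp ?_).resolve_left (two_ne_zero_zmod hp2)
      linear_combination -h'
    · intro h
      refine LinearMap.ext fun m => ?_
      rw [dual'_apply, hc, complexConjugation_inv, neg_one_mul]
      have h' := h (m + σ m) (mem_h0inf.mpr (by rw [← hσ, map_add, hσσ, add_comm]))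
      rw [map_add] at h'
      linear_combination -h'
  rw [h1, add_comm]
  exact Subspace.finrank_add_finrank_dualAnnihilator_eq _

end FLTAgent.PT

end
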