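import Mathlib

/-!
Parcel F: Artin's induction theorem for permutation characters, as a vanishing criterion.
-/

set_option autoImplicit false
set_option linter.style.haveILetI false

noncomputable section

namespace FLTAgent.PT.Artin

variable {Δ : Type} [Group Δ]

/-- the number of fixed points -/
def fixCount (X : Type) [MulAction Δ X] (g : Δ) : ℤ := Nat.card {x : X // g • x = x}

/-- points with the trivial action -/
def Pts (_Δ : Type) (N : ℕ) : Type := Fin N

instance (N : ℕ) : MulAction Δ (Pts Δ N) where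
  smul _ x := x
  one_smul _ := rfl
  mul_smul _ _ _ := rfl

instance (N : ℕ) : Finite (Pts Δ N) := inferInstanceAs (Finite (Fin N))

theorem fixCount_pts (N : ℕ) (g : Δ) : fixCount (Pts Δ N) g = N := by
  rw [fixCount, Nat.card_congr (Equiv.subtypeUnivEquiv (p := fun x : Pts Δ N => g • x = x) fun _ => rfl)]
  show ((Nat.card (Fin N) : ℕ) : ℤ) = N
  rw [Nat.card_fin]

theorem fixCount_sum (X Y : Type) [MulAction Δ X] [MulAction Δ Y] [Finite X] [Finite Y] (g : Δ) :
    fixCount (X ⊕ Y) g = fixCount X g + fixCount Y g := by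
  rw [fixCount, fixCount, fixCount, Nat.card_congr (Equiv.subtypeSum (p := fun z => g • z = z)),
    Nat.card_sum, Nat.cast_add]
  congr 2 <;>
    exact Nat.card_congr (Equiv.subtypeEquivRight fun x => by
      simp only [Sum.smul_inl, Sum.smul_inr, Sum.inl.injEq, Sum.inr.injEq])

theorem fixCount_conj (X : Type) [MulAction Δ X] (a g : Δ) :
    fixCount X (a * g * a⁻¹) = fixCount X g := by
  refine congrArg Nat.cast (Nat.card_congr (Equiv.subtypeEquiv (MulAction.toPerm a⁻¹) fun x => ?_))
  simp only [MulAction.toPerm_apply]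
  constructor
  · intro h
    have h' := congrArg (a⁻¹ • ·) h
    simpa [mul_smul] using h'
  · intro h
    rw [mul_smul, mul_smul, h, smul_inv_smul]

theorem fixCount_zpowers (X : Type) [MulAction Δ X] {g h : Δ}
    (he : Subgroup.zpowers g = Subgroup.zpowers h) : fixCount X g = fixCount X h := by
  refine congrArg Nat.cast (Nat.card_congr (Equiv.subtypeEquivRight fun x => ?_))
  have key : ∀ {u v : Δ}, u ∈ Subgroup.zpowers v → v • x = x → u • x = x := fun hu hv =>
    MulAction.mem_stabilizer_iff.mp (Subgroup.zpowers_le.mpr (MulAction.mem_stabilizer_iff.mpr hv) hu)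
  exact ⟨key (he ▸ Subgroup.mem_zpowers h), key (he.symm ▸ Subgroup.mem_zpowers g)⟩

variable [Finite Δ] {Γ : Type} [AddCommGroup Γ] (ψ : ∀ (X : Type), MulAction Δ X → Γ)
  (hsum : ∀ (X Y : Type) (iX : MulAction Δ X) (iY : MulAction Δ Y), Finite X → Finite Y →
    ψ (X ⊕ Y) inferInstance = ψ X iX + ψ Y iY)
  (hcount : ∀ (X Y : Type) (iX : MulAction Δ X) (iY : MulAction Δ Y), Finite X → Finite Y →
    (∀ g : Δ, @fixCount Δ _ X iX g = @fixCount Δ _ Y iY g) → ψ X iX = ψ Y iY)
  (hcyc : ∀ c : Δ, ψ (Δ ⧸ Subgroup.zpowers c) inferInstance = 0)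

include hsum hcount in
theorem pts_nsmul (N : ℕ) : ψ (Pts Δ N) inferInstance = N • ψ (Pts Δ 1) inferInstance := by
  induction N with
  | zero =>
    have h := hsum (Pts Δ 0) (Pts Δ 0) inferInstance inferInstance inferInstance inferInstance
    rw [← hcount (Pts Δ 0) (Pts Δ 0 ⊕ Pts Δ 0) inferInstance inferInstance inferInstance
      inferInstance fun g => by rw [fixCount_sum, fixCount_pts]; simp] at h
    rw [zero_smul]
    exact left_eq_add.mp h
  | succ N ih =>
    rw [hcount (Pts Δ (N + 1)) (Pts Δ N ⊕ Pts Δ 1) inferInstance inferInstance inferInstance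
      inferInstance (fun g => by rw [fixCount_sum, fixCount_pts, fixCount_pts, fixCount_pts]; simp),
      hsum _ _ inferInstance inferInstance inferInstance inferInstance, ih, succ_nsmul]

/-- the differences of fixed point counts of sets killed by `ψ` -/
def realised : AddSubgroup (Δ → ℤ) :=
  AddSubgroup.closure {φ | ∃ c : Δ, φ = fixCount (Δ ⧸ Subgroup.zpowers c)}

include hsum hcount hcyc in
theorem exists_of_realised {φ : Δ → ℤ} (hφ : φ ∈ realised (Δ := Δ)) :
    ∃ (X Y : Type) (iX : MulAction Δ X) (iY : MulAction Δ Y), Finite X ∧ Finite Y ∧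
      (∀ g, φ g = @fixCount Δ _ X iX g - @fixCount Δ _ Y iY g) ∧ ψ X iX = 0 ∧ ψ Y iY = 0 := by
  have h0 : ψ (Pts Δ 0) inferInstance = 0 := by rw [pts_nsmul ψ hsum hcount 0, zero_smul]
  induction hφ using AddSubgroup.closure_induction with
  | mem φ h =>
    obtain ⟨c, rfl⟩ := h
    exact ⟨_, Pts Δ 0, inferInstance, inferInstance, inferInstance, inferInstance,
      fun g => by rw [fixCount_pts]; simp, hcyc c, h0⟩
  | zero =>
    exact ⟨Pts Δ 0, Pts Δ 0, inferInstance, inferInstance, inferInstance, inferInstance,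
      fun g => by simp, h0, h0⟩
  | add φ φ' _ _ h h' =>
    obtain ⟨X, Y, iX, iY, fX, fY, e, hX, hY⟩ := h
    obtain ⟨X', Y', iX', iY', fX', fY', e', hX', hY'⟩ := h'
    refine ⟨X ⊕ X', Y ⊕ Y', inferInstance, inferInstance, inferInstance, inferInstance,
      fun g => ?_, ?_, ?_⟩
    · rw [Pi.add_apply, e, e', fixCount_sum, fixCount_sum]; ring
    · rw [hsum X X' iX iX' fX fX', hX, hX', add_zero]
    · rw [hsum Y Y' iY iY' fY fY', hY, hY', add_zero]
  | neg φ _ h =>
    obtain ⟨X, Y, iX, iY, fX, fY, e, hX, hY⟩ := h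
    exact ⟨Y, X, iY, iX, fY, fX, fun g => by rw [Pi.neg_apply, e, neg_sub], hY, hX⟩

theorem exists_multiple_realised (n : ℕ) : ∀ φ : Δ → ℤ, (∀ a g, φ (a * g * a⁻¹) = φ g) →
    (∀ g h, Subgroup.zpowers g = Subgroup.zpowers h → φ g = φ h) →
    (∀ g, φ g ≠ 0 → orderOf g ≤ n) → ∃ K : ℤ, K ≠ 0 ∧ K • φ ∈ realised (Δ := Δ) := by
  classical
  induction n with
  | zero =>
    intro φ _ _ hs
    refine ⟨1, one_ne_zero, ?_⟩
    rw [show (1 : ℤ) • φ = 0 from funext fun g => by
      by_contra h
      have h' : φ g ≠ 0 := fun h0 => h (by simp [h0])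
      exact absurd (hs g h') (by simp [(orderOf_pos g).ne'])]
    exact zero_mem _
  | succ n ih =>
    intro φ hc hz hs
    haveI := Fintype.ofFinite Δ
    set S := (Finset.univ : Finset Δ).filter fun g => orderOf g = n + 1 with hS
    set c : Δ → ℤ := fun x => ∑ k ∈ S, fixCount (Δ ⧸ Subgroup.zpowers k) x with hcdef
    have hpos : ∀ x ∈ S, 0 < c x := fun x hx => by
      refine Finset.sum_pos' (fun k _ => Nat.cast_nonneg _) ⟨x, hx, ?_⟩
      haveI : Nonempty {y : Δ ⧸ Subgroup.zpowers x // x • y = y} :=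
        ⟨⟨((1 : Δ) : Δ ⧸ Subgroup.zpowers x), by
          rw [MulAction.Quotient.smul_mk, smul_eq_mul, mul_one, QuotientGroup.eq, mul_one]
          exact inv_mem (Subgroup.mem_zpowers x)⟩⟩
      exact Int.natCast_pos.mpr (Nat.card_pos (α := {y : Δ ⧸ Subgroup.zpowers x // x • y = y}))
    set P : ℤ := ∏ g ∈ S, c g with hP
    set w : Δ → ℤ := fun g => φ g * ∏ k ∈ S.erase g, c k with hw
    have hwc : ∀ g ∈ S, w g * c g = φ g * P := fun g hg => by
      rw [hw, hP, mul_assoc, Finset.prod_erase_mul _ _ hg]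
    have hconj : ∀ g ∈ S, ∀ x ∈ S, fixCount (Δ ⧸ Subgroup.zpowers g) x ≠ 0 →
        φ x = φ g ∧ c x = c g := by
      intro g hg x hx hne
      have hne' : Nonempty {y : Δ ⧸ Subgroup.zpowers g // x • y = y} := by
        by_contra h
        rw [not_nonempty_iff] at h
        exact hne (by simp [fixCount, Nat.card_of_isEmpty])
      obtain ⟨⟨y, hy⟩⟩ := hne'
      induction y using QuotientGroup.induction_on with
      | H a =>
        rw [MulAction.Quotient.smul_mk, QuotientGroup.eq, smul_eq_mul, mul_inv_rev] at hy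
        have hmem : a⁻¹ * x * a ∈ Subgroup.zpowers g := by
          have := inv_mem hy
          simpa [mul_assoc] using this
        have hz' : Subgroup.zpowers (a⁻¹ * x * a) = Subgroup.zpowers g := by
          refine Subgroup.eq_of_le_of_card_ge (Subgroup.zpowers_le.mpr hmem) ?_
          rw [Nat.card_zpowers, Nat.card_zpowers]
          have h1 : orderOf (a⁻¹ * x * a) = orderOf x := by
            simpa using orderOf_injective (MulAut.conj a⁻¹).toMonoidHom (MulAut.conj a⁻¹).injective x
          rw [h1, (Finset.mem_filter.mp hg).2, (Finset.mem_filter.mp hx).2]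
        have e1 : x = a * (a⁻¹ * x * a) * a⁻¹ := by group
        refine ⟨?_, ?_⟩
        · rw [e1, hc, hz _ _ hz']
        · simp only [hcdef]
          refine Finset.sum_congr rfl fun k _ => ?_
          rw [e1, fixCount_conj, fixCount_zpowers _ hz']
    set φ' : Δ → ℤ := P • φ - ∑ g ∈ S, w g • fixCount (Δ ⧸ Subgroup.zpowers g) with hφ'
    have happ : ∀ x, φ' x = P * φ x - ∑ g ∈ S, w g * fixCount (Δ ⧸ Subgroup.zpowers g) x := by
      intro x
      simp [hφ', Finset.sum_apply]
    obtain ⟨K, hK, hKφ⟩ := ih φ' (fun a g => by simp only [happ, hc, fixCount_conj])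
      (fun g h he => by simp only [happ, hz g h he, fixCount_zpowers _ he]) fun x hx => by
      by_contra hlt
      push Not at hlt
      apply hx
      rw [happ]
      by_cases hxS : x ∈ S
      · rw [sub_eq_zero]
        refine mul_right_cancel₀ (hpos x hxS).ne' ?_
        rw [Finset.sum_mul, show P * φ x * c x =
          ∑ g ∈ S, φ x * P * fixCount (Δ ⧸ Subgroup.zpowers g) x by
            rw [← Finset.mul_sum]; simp only [hcdef]; ring]
        refine Finset.sum_congr rfl fun g hg => ?_
        by_cases h0 : fixCount (Δ ⧸ Subgroup.zpowers g) x = 0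
        · rw [h0]; ring
        · obtain ⟨e1, e2⟩ := hconj g hg x hxS h0
          rw [e1, e2, ← hwc g hg]; ring
      · have hgt : n + 1 < orderOf x := lt_of_le_of_ne hlt fun h =>
          hxS (Finset.mem_filter.mpr ⟨Finset.mem_univ _, h.symm⟩)
        have h1 : φ x = 0 := by
          by_contra h
          exact absurd (hs x h) (not_le.mpr hgt)
        rw [h1, mul_zero, zero_sub, neg_eq_zero]
        refine Finset.sum_eq_zero fun g hg => ?_
        have h2 : fixCount (Δ ⧸ Subgroup.zpowers g) x = 0 := by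
          haveI : IsEmpty {y : Δ ⧸ Subgroup.zpowers g // x • y = y} := ⟨fun ⟨y, hy⟩ => by
            induction y using QuotientGroup.induction_on with
            | H a =>
              rw [MulAction.Quotient.smul_mk, QuotientGroup.eq, smul_eq_mul, mul_inv_rev] at hy
              have hd := orderOf_dvd_of_mem_zpowers (inv_mem hy)
              rw [show ((a⁻¹ * x⁻¹) * a)⁻¹ = MulAut.conj a⁻¹ x by simp [mul_assoc],
                show orderOf (MulAut.conj a⁻¹ x) = orderOf x from orderOf_injective
                  (MulAut.conj a⁻¹).toMonoidHom (MulAut.conj a⁻¹).injective x,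
                (Finset.mem_filter.mp hg).2] at hd
              exact absurd (Nat.le_of_dvd n.succ_pos hd) (not_le.mpr hgt)⟩
          simp [fixCount, Nat.card_of_isEmpty]
        rw [h2, mul_zero]
    refine ⟨K * P, mul_ne_zero hK (Finset.prod_ne_zero_iff.mpr fun g hg => (hpos g hg).ne'), ?_⟩
    have hsum' : K • ∑ g ∈ S, w g • fixCount (Δ ⧸ Subgroup.zpowers g) ∈ realised (Δ := Δ) :=
      zsmul_mem (sum_mem fun g _ => zsmul_mem
        (show fixCount (Δ ⧸ Subgroup.zpowers g) ∈ realised (Δ := Δ) from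
          AddSubgroup.subset_closure ⟨g, rfl⟩) _) _
    have h3 := add_mem hKφ hsum'
    rwa [← smul_add, hφ', sub_add_cancel, smul_smul] at h3

include hsum hcount hcyc in
/-- vanishing on the cyclic permutation sets implies vanishing on the point -/
theorem pts_one_eq_zero (htor : ∀ (N : ℕ) (x : Γ), N ≠ 0 → N • x = 0 → x = 0) :
    ψ (Pts Δ 1) inferInstance = 0 := by
  obtain ⟨K, hK, hφ⟩ := exists_multiple_realised (Δ := Δ) (Nat.card Δ) (fun _ => 1)
    (fun _ _ => rfl) (fun _ _ _ => rfl) (fun g _ => orderOf_le_card)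
  obtain ⟨N, hN, hmem⟩ : ∃ N : ℕ, N ≠ 0 ∧ ((fun _ : Δ => (N : ℤ)) ∈ realised (Δ := Δ)) := by
    refine ⟨K.natAbs, Int.natAbs_ne_zero.mpr hK, ?_⟩
    rcases Int.natAbs_eq K with h | h
    · convert hφ using 1
      funext g
      simp [← h]
    · convert neg_mem hφ using 1
      funext g
      simp only [Pi.neg_apply, Pi.smul_apply, smul_eq_mul, mul_one]
      omega
  obtain ⟨X, Y, iX, iY, fX, fY, e, hX, hY⟩ := exists_of_realised ψ hsum hcount hcyc hmem
  have h1 := hcount X (Y ⊕ Pts Δ N) iX inferInstance fX inferInstance fun g => by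
    rw [fixCount_sum, fixCount_pts]
    have := e g
    omega
  rw [hsum Y (Pts Δ N) iY inferInstance fY inferInstance, hX, hY, zero_add,
    pts_nsmul ψ hsum hcount N] at h1
  exact htor N _ hN h1.symm

end FLTAgent.PT.Artin

end
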