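import Fermat.Agent.PT.DualityAPI

/-!
Parcel F: the terms of the global Euler characteristic.
-/

set_option autoImplicit false
set_option linter.style.haveILetI false

noncomputable section

open CategoryTheory groupCohomology

namespace FLTAgent.PT

variable {p : ℕ} [Fact p.Prime]

/-- equivariant isomorphisms preserve the dimension of the invariants -/
theorem finrank_inv_congr {G : Type} [Group G] {A B : Rep.{0} (ZMod p) G} (e : A ≃ₗ[ZMod p] B)
    (he : ∀ g a, e (A.ρ g a) = B.ρ g (e a)) :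
    Module.finrank (ZMod p) A.ρ.invariants = Module.finrank (ZMod p) B.ρ.invariants := by
  have h : A.ρ.invariants.map (e : A →ₗ[ZMod p] B) = B.ρ.invariants := by
    apply le_antisymm
    · rintro _ ⟨a, ha, rfl⟩ g
      show B.ρ g (e a) = e a
      rw [← he, ha g]
    · intro b hb
      refine ⟨e.symm b, fun g => e.injective ?_, e.apply_symm_apply b⟩
      rw [he, e.apply_symm_apply, hb g]
  rw [← h]
  exact (e.submoduleMap A.ρ.invariants).finrank_eq

section Push

variable {A B : Rep.{0} (ZMod p) GQ} (φ : A →ₗ[ZMod p] B)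
  (hφ : ∀ g a, φ (A.ρ g a) = B.ρ g (φ a))

theorem res2_h2push (q : Nat.Primes) (c : cH2 (MonoidHom.id GQ) A) :
    res2 q B (h2push (MonoidHom.id GQ) φ hφ c) =
      h2push (loc q) (A := Rep.res (loc q) A) (B := Rep.res (loc q) B) φ
        (fun g a => hφ (loc q g) a) (res2 q A c) := by
  obtain ⟨z, rfl⟩ := Submodule.mkQ_surjective _ c
  rfl

theorem h2push_push {G : Type} [Group G] (r : G →* GQ) {A B C : Rep.{0} (ZMod p) G}
    (φ : A →ₗ[ZMod p] B) (hφ : ∀ g a, φ (A.ρ g a) = B.ρ g (φ a))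
    (ψ : B →ₗ[ZMod p] C) (hψ : ∀ g a, ψ (B.ρ g a) = C.ρ g (ψ a))
    (χ : A →ₗ[ZMod p] C) (hχ : ∀ g a, χ (A.ρ g a) = C.ρ g (χ a)) (h : ∀ a, ψ (φ a) = χ a)
    (c : cH2 r A) : h2push r ψ hψ (h2push r φ hφ c) = h2push r χ hχ c := by
  obtain ⟨z, rfl⟩ := Submodule.mkQ_surjective _ c
  show h2mk r C _ = h2mk r C _
  exact congrArg _ (Subtype.ext (funext fun g => h _))

theorem h2push_id {G : Type} [Group G] (r : G →* GQ) {A : Rep.{0} (ZMod p) G} (c : cH2 r A) :
    h2push r (LinearMap.id : A →ₗ[ZMod p] A) (fun _ _ => rfl) c = c := by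
  obtain ⟨z, rfl⟩ := Submodule.mkQ_surjective _ c
  rfl

include hφ in
theorem h2push_mem_sha2g {c : cH2 (MonoidHom.id GQ) A} (hc : c ∈ sha2g A) :
    h2push (MonoidHom.id GQ) φ hφ c ∈ sha2g B := by
  simp only [sha2g, Submodule.mem_iInf, LinearMap.mem_ker] at hc ⊢
  intro q
  rw [res2_h2push, hc q, map_zero]

end Push

variable (M : Rep.{0} (ZMod p) GQ)

theorem dual'_apply (g : GQ) (f : dual' M) (m : M) :
    ((dual' M).ρ g f : Module.Dual (ZMod p) M) m =
      (ExtCitation.cycloChar p g : ZMod p) * (f : Module.Dual (ZMod p) M) (M.ρ g⁻¹ m) := rfl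

variable {M}

/-- `M'' ≅ M` -/
def bidual (hM : IsAdm (MonoidHom.id GQ) M) : M ≃ₗ[ZMod p] dual' (dual' M) :=
  haveI := hM.finite
  Module.evalEquiv (ZMod p) M

theorem bidual_eqv (hM : IsAdm (MonoidHom.id GQ) M) (g : GQ) (m : M) :
    bidual hM (M.ρ g m) = (dual' (dual' M)).ρ g (bidual hM m) := by
  haveI := hM.finite
  refine LinearMap.ext fun f => ?_
  rw [dual'_apply]
  show f (M.ρ g m) = (ExtCitation.cycloChar p g : ZMod p) * ((dual' M).ρ g⁻¹ f) m
  rw [dual'_apply, inv_inv, ← mul_assoc, ← Units.val_mul, ← map_mul, mul_inv_cancel, map_one,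
    Units.val_one, one_mul]

theorem finrank_cH0_bidual (hM : IsAdm (MonoidHom.id GQ) M) :
    Module.finrank (ZMod p) (cH0 (dual' (dual' M))) = Module.finrank (ZMod p) (cH0 M) :=
  (finrank_inv_congr (bidual hM) (bidual_eqv hM)).symm

theorem finrank_lH0_bidual (hM : IsAdm (MonoidHom.id GQ) M) (q : Nat.Primes) :
    Module.finrank (ZMod p) (lH0 q (dual' (dual' M))) = Module.finrank (ZMod p) (lH0 q M) :=
  (finrank_inv_congr (A := Rep.res (loc q) M) (B := Rep.res (loc q) (dual' (dual' M)))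
    (bidual hM) (fun g => bidual_eqv hM (loc q g))).symm

/-- `Ш² M ≅ Ш² M''` -/
theorem sha2g_bidual (hM : IsAdm (MonoidHom.id GQ) M) :
    Nonempty (sha2g M ≃ₗ[ZMod p] sha2g (dual' (dual' M))) := by
  set e := bidual hM
  have h₁ : ∀ g m, e.toLinearMap (M.ρ g m) = (dual' (dual' M)).ρ g (e.toLinearMap m) :=
    bidual_eqv hM
  have h₂ : ∀ g m, e.symm.toLinearMap ((dual' (dual' M)).ρ g m) = M.ρ g (e.symm.toLinearMap m) :=
    fun g m => e.injective (by
      show e (e.symm _) = e (M.ρ g (e.symm m))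
      rw [e.apply_symm_apply, bidual_eqv, e.apply_symm_apply])
  exact ⟨LinearEquiv.ofLinear
    ((h2push (MonoidHom.id GQ) _ h₁).restrict fun c hc => h2push_mem_sha2g _ h₁ hc)
    ((h2push (MonoidHom.id GQ) _ h₂).restrict fun c hc => h2push_mem_sha2g _ h₂ hc)
    (LinearMap.ext fun c => Subtype.ext ((h2push_push _ _ h₂ _ h₁ LinearMap.id (fun _ _ => rfl)
      (fun m => e.apply_symm_apply m) c.1).trans (h2push_id _ c.1)))
    (LinearMap.ext fun c => Subtype.ext ((h2push_push _ _ h₁ _ h₂ LinearMap.id (fun _ _ => rfl)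
      (fun m => e.symm_apply_apply m) c.1).trans (h2push_id _ c.1)))⟩

theorem sha2g_finite (hp2 : p ≠ 2) (hM : IsAdm (MonoidHom.id GQ) M) :
    Module.Finite (ZMod p) (sha2g M) ∧
      Module.finrank (ZMod p) (sha2g M) = Module.finrank (ZMod p) (sha1g (dual' M)) := by
  obtain ⟨e⟩ := sha2g_bidual hM
  obtain ⟨h, h'⟩ := finrank_sha1g_eq_sha2g hp2 (isAdm_dual hM)
  haveI := h
  exact ⟨Module.Finite.equiv e.symm, e.finrank_eq.trans h'.symm⟩

/-- the classes of degree 2 trivial outside `T` -/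
def H2T (T : Finset Nat.Primes) (M : Rep.{0} (ZMod p) GQ) :
    Submodule (ZMod p) (cH2 (MonoidHom.id GQ) M) :=
  ⨅ (q : Nat.Primes) (_ : q ∉ T), LinearMap.ker (res2 q M)

theorem mem_H2T {T : Finset Nat.Primes} {c : cH2 (MonoidHom.id GQ) M} :
    c ∈ H2T T M ↔ ∀ q ∉ T, res2 q M c = 0 := by
  simp [H2T]

/-- the classes of degree 2 trivial outside `T` restricted to `T` -/
def resT (T : Finset Nat.Primes) (M : Rep.{0} (ZMod p) GQ) :
    H2T T M →ₗ[ZMod p] (∀ q : T, lH2 q.1 M) :=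
  LinearMap.pi fun q => (res2 q.1 M).comp (H2T T M).subtype

/-- the sum of the local pairings with the invariants of the dual -/
def pairT (R : Recip p) (T : Finset Nat.Primes) (M : Rep.{0} (ZMod p) GQ) :
    (∀ q : T, lH2 q.1 M) →ₗ[ZMod p] Module.Dual (ZMod p) (cH0 (dual' M)) :=
  ∑ q : T, (LinearMap.llcomp (ZMod p) _ _ _ (R.inv q.1).toLinearMap).comp
    ((pair02 q.1 M).comp (LinearMap.codRestrict (lH0 q.1 (dual' M)) (cH0 (dual' M)).subtype
      fun n g => n.2 (loc q.1 g))).flip ∘ₗ LinearMap.proj q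

theorem pairT_apply (R : Recip p) (T : Finset Nat.Primes) (b : ∀ q : T, lH2 q.1 M)
    (n : cH0 (dual' M)) :
    pairT R T M b n = ∑ q : T, R.inv q.1 (pair02 q.1 M ⟨n.1, fun g => n.2 (loc q.1 g)⟩ (b q)) := by
  simp only [pairT, LinearMap.coe_sum, Finset.sum_apply]
  rfl

theorem pairT_surjective (R : Recip p) (hM : IsAdm (MonoidHom.id GQ) M) {T : Finset Nat.Primes}
    {q₀ : Nat.Primes} (hq₀ : q₀ ∈ T) : Function.Surjective (pairT R T M) := by
  classical
  intro φ
  haveI := (isAdm_dual hM).finite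
  set ι : cH0 (dual' M) →ₗ[ZMod p] lH0 q₀ (dual' M) :=
    LinearMap.codRestrict (lH0 q₀ (dual' M)) (cH0 (dual' M)).subtype fun n g => n.2 (loc q₀ g)
  have hι : Function.Injective ι := fun a b h =>
    Subtype.ext (congrArg Subtype.val h :)
  obtain ⟨ψ, hψ⟩ := LinearMap.dualMap_surjective_of_injective hι φ
  obtain ⟨b, hb⟩ := ((pair02_bijective q₀ hM).2).2 ((R.inv q₀).symm.toLinearMap.comp ψ)
  refine ⟨Pi.single (⟨q₀, hq₀⟩ : T) b, LinearMap.ext fun n => ?_⟩
  rw [pairT_apply, Finset.sum_eq_single (⟨q₀, hq₀⟩ : T)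
    (fun q _ hq => by rw [Pi.single_eq_of_ne hq]; simp) (fun h => absurd (Finset.mem_univ _) h),
    Pi.single_eq_same, ← hψ]
  have h := LinearMap.congr_fun hb (ι n)
  exact (congrArg (R.inv q₀) h).trans ((R.inv q₀).apply_symm_apply _)

theorem range_resT (hp2 : p ≠ 2) (R : Recip p) (hM : IsAdm (MonoidHom.id GQ) M)
    (T : Finset Nat.Primes) :
    LinearMap.range (resT T M) = LinearMap.ker (pairT R T M) := by
  classical
  let ext0 : (∀ q : T, lH2 q.1 M) → ∀ q, lH2 q M := fun b q => if h : q ∈ T then b ⟨q, h⟩ else 0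
  have key : ∀ b n, ∑ᶠ q, R.inv q (pair02 q M ⟨n.1, fun g => n.2 (loc q g)⟩ (ext0 b q))
      = pairT R T M b n := by
    intro b n
    rw [finsum_eq_sum_of_support_subset (s := T), pairT_apply, ← Finset.sum_coe_sort]
    · exact Finset.sum_congr rfl fun q _ => by simp [ext0]
    · intro q hq
      by_contra hqT
      exact hq (by simp [ext0, Finset.mem_coe.not.mp hqT])
  have hfin : ∀ b, {q | ext0 b q ≠ 0}.Finite := fun b => T.finite_toSet.subset fun q hq => by
    by_contra h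
    exact hq (dif_neg h)
  ext b
  rw [LinearMap.mem_ker]
  constructor
  · rintro ⟨c, rfl⟩
    refine LinearMap.ext fun n => (key _ n).symm.trans ?_
    refine (exists_cH2_iff hp2 R hM (ext0 _) (hfin _)).mp ⟨c.1, fun q => ?_⟩ n
    by_cases h : q ∈ T
    · simp [ext0, h, resT]
    · simp only [ext0, dif_neg h]; exact mem_H2T.mp c.2 q h
  · intro hb
    obtain ⟨c, hc⟩ := (exists_cH2_iff hp2 R hM (ext0 b) (hfin b)).mpr fun n => by
      rw [key, hb]; rfl
    refine ⟨⟨c, mem_H2T.mpr fun q h => by rw [hc q]; exact dif_neg h⟩, funext fun q => ?_⟩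
    show res2 q.1 M c = b q
    rw [hc]
    simp [ext0]

theorem finrank_ker_resT (T : Finset Nat.Primes) :
    Nonempty (LinearMap.ker (resT T M) ≃ₗ[ZMod p] sha2g M) := by
  have hle : sha2g M ≤ H2T T M := fun c hc => mem_H2T.mpr fun q _ => by
    simp only [sha2g, Submodule.mem_iInf, LinearMap.mem_ker] at hc
    exact hc q
  have h : LinearMap.ker (resT T M) = (sha2g M).comap (H2T T M).subtype := by
    ext c
    simp only [LinearMap.mem_ker, resT, Submodule.mem_comap, sha2g, Submodule.mem_iInf, funext_iff,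
      LinearMap.pi_apply, LinearMap.comp_apply, Submodule.subtype_apply, Pi.zero_apply]
    refine ⟨fun h q => ?_, fun h q => h q.1⟩
    by_cases hq : q ∈ T
    · exact h ⟨q, hq⟩
    · exact mem_H2T.mp c.2 q hq
  exact ⟨(LinearEquiv.ofEq _ _ h).trans (Submodule.comapSubtypeEquivOfLe hle)⟩

theorem finite_and_finrank {ι V D : Type} [Fintype ι] {W : ι → Type}
    [∀ i, AddCommGroup (W i)] [∀ i, Module (ZMod p) (W i)] [∀ i, Module.Finite (ZMod p) (W i)]
    [AddCommGroup V] [Module (ZMod p) V] [AddCommGroup D] [Module (ZMod p) D]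
    (f : V →ₗ[ZMod p] ∀ i, W i) (π : (∀ i, W i) →ₗ[ZMod p] D) (hπ : Function.Surjective π)
    (h : LinearMap.range f = LinearMap.ker π) [Module.Finite (ZMod p) (LinearMap.ker f)] :
    Module.Finite (ZMod p) V ∧
      Module.finrank (ZMod p) V + Module.finrank (ZMod p) D =
        Module.finrank (ZMod p) (LinearMap.ker f) + ∑ i, Module.finrank (ZMod p) (W i) := by
  haveI : Module.Finite (ZMod p) (V ⧸ LinearMap.ker f) :=
    Module.Finite.equiv f.quotKerEquivRange.symm
  haveI hV : Module.Finite (ZMod p) V := Module.Finite.of_submodule_quotient (LinearMap.ker f)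
  refine ⟨hV, ?_⟩
  have h1 := LinearMap.finrank_range_add_finrank_ker f
  have h2 := LinearMap.finrank_range_add_finrank_ker π
  rw [LinearMap.range_eq_top.mpr hπ, finrank_top, ← h, Module.finrank_pi_fintype] at h2
  omega

set_option maxHeartbeats 1000000 in
theorem finrank_H2T (hp2 : p ≠ 2) (R : Recip p) (hM : IsAdm (MonoidHom.id GQ) M)
    {T : Finset Nat.Primes} {q₀ : Nat.Primes} (hq₀ : q₀ ∈ T) :
    Module.Finite (ZMod p) (H2T T M) ∧
      Module.finrank (ZMod p) (H2T T M) + Module.finrank (ZMod p) (cH0 (dual' M)) =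
        Module.finrank (ZMod p) (sha2g M) + ∑ q ∈ T, Module.finrank (ZMod p) (lH2 q M) := by
  haveI : ∀ q : T, Module.Finite (ZMod p) (lH2 q.1 M) := fun q => finite_lH2 q.1 hM
  obtain ⟨e⟩ := finrank_ker_resT (M := M) T
  haveI := (sha2g_finite hp2 hM).1
  haveI : Module.Finite (ZMod p) (LinearMap.ker (resT T M)) := Module.Finite.equiv e.symm
  obtain ⟨h1, h2⟩ := finite_and_finrank (V := ↥(H2T T M)) (W := fun q : T => lH2 q.1 M)
    (D := Module.Dual (ZMod p) (cH0 (dual' M))) (resT T M) (pairT R T M)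
    (pairT_surjective R hM hq₀) (range_resT hp2 R hM T)
  refine ⟨h1, ?_⟩
  rw [Subspace.dual_finrank_eq, e.finrank_eq] at h2
  rw [h2, Finset.sum_coe_sort T (fun q => Module.finrank (ZMod p) (lH2 q M))]

end FLTAgent.PT

end
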