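import Mathlib

/-!
Parcel F: the rank of a spectral projection read off the characteristic polynomial.
-/

set_option autoImplicit false
set_option linter.style.haveILetI false

noncomputable section

open Polynomial

namespace FLTAgent.PT

variable {F : Type} [Field F]

/-- the number of roots, with multiplicity, of `P` that are roots of `f` -/
def rootCount (f P : F[X]) : ℕ :=
  by classical exact ((P.aroots (AlgebraicClosure F)).filter fun r => aeval r f = 0).card

theorem rootCount_mul (f : F[X]) {P Q : F[X]} (hP : P ≠ 0) (hQ : Q ≠ 0) :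
    rootCount f (P * Q) = rootCount f P + rootCount f Q := by
  rw [rootCount, rootCount, rootCount, aroots_mul (mul_ne_zero hP hQ), Multiset.filter_add,
    Multiset.card_add]

theorem rootCount_prod {ι : Type} (f : F[X]) (s : Finset ι) (P : ι → F[X])
    (hP : ∀ i ∈ s, (P i).Monic) :
    rootCount f (∏ i ∈ s, P i) = ∑ i ∈ s, rootCount f (P i) := by
  classical
  induction s using Finset.induction_on with
  | empty => simp [rootCount]
  | insert a s ha ih =>
    rw [Finset.prod_insert ha, Finset.sum_insert ha,
      rootCount_mul f (hP a (Finset.mem_insert_self _ _)).ne_zero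
        (monic_prod_of_monic _ _ fun i hi => hP i (Finset.mem_insert_of_mem hi)).ne_zero,
      ih fun i hi => hP i (Finset.mem_insert_of_mem hi)]

variable {V W : Type} [AddCommGroup V] [Module F V] [AddCommGroup W] [Module F W]
  [Module.Finite F W]

theorem root_of_aeval_eq_zero [Module.Finite F V] (T : Module.End F V) {g : F[X]}
    (hg : aeval T g = 0) {r : AlgebraicClosure F}
    (hr : r ∈ (LinearMap.charpoly T).aroots (AlgebraicClosure F)) : aeval r g = 0 := by
  classical
  let b := Module.finBasis F V
  set A := (LinearMap.toMatrix b b T).map (algebraMap F (AlgebraicClosure F)) with hA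
  have hroot : A.charpoly.IsRoot r := by
    rw [mem_aroots] at hr
    rw [hA, Matrix.charpoly_map, LinearMap.charpoly_toMatrix, IsRoot, eval_map, ← aeval_def]
    exact hr.2
  have hne : Nonempty (Fin (Module.finrank F V)) := by
    by_contra hn
    rw [not_nonempty_iff] at hn
    rw [IsRoot, Matrix.charpoly, Matrix.det_isEmpty, eval_one] at hroot
    exact one_ne_zero hroot
  have hAg : aeval A (g.map (algebraMap F (AlgebraicClosure F))) = 0 := by
    rw [aeval_map_algebraMap]
    have h1 : A = Matrix.map (LinearMap.toMatrixAlgEquiv b T) (algebraMap F (AlgebraicClosure F)) := rfl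
    have h2 := (Algebra.ofId F (AlgebraicClosure F)).mapMatrix (m := Fin (Module.finrank F V))
    rw [show A = ((Algebra.ofId F (AlgebraicClosure F)).mapMatrix.comp (LinearMap.toMatrixAlgEquiv b).toAlgHom) T from rfl,
      aeval_algHom_apply, hg, map_zero]
  have h3 := spectrum.subset_polynomial_aeval A (g.map (algebraMap F (AlgebraicClosure F)))
    ⟨r, Matrix.mem_spectrum_iff_isRoot_charpoly.mpr hroot, rfl⟩
  simp only [hAg, spectrum.zero_eq, Set.mem_singleton_iff] at h3
  rw [eval_map, ← aeval_def] at h3
  exact h3

/-- the kernel of a coprime factor -/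
theorem finrank_ker_eq_rootCount (T : Module.End F W) {f h : F[X]} (hcop : IsCoprime f h)
    (hfh : aeval T (f * h) = 0) :
    Module.finrank F (LinearMap.ker (aeval T f)) = rootCount f (LinearMap.charpoly T) := by
  classical
  set S₁ := LinearMap.ker (aeval T f)
  set S₂ := LinearMap.ker (aeval T h)
  have hc : IsCompl S₁ S₂ := by
    refine ⟨disjoint_ker_aeval_of_isCoprime T hcop, ?_⟩
    rw [codisjoint_iff, sup_ker_aeval_eq_ker_aeval_mul_of_coprime T hcop, hfh, LinearMap.ker_zero]
  have hst : ∀ g : F[X], ∀ w ∈ LinearMap.ker (aeval T g), T w ∈ LinearMap.ker (aeval T g) := by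
    intro g w hw
    rw [LinearMap.mem_ker] at hw ⊢
    have : aeval T g * T = T * aeval T g := by
      conv_lhs => arg 2; rw [← aeval_X (R := F) T]
      rw [← map_mul, mul_comm, map_mul, aeval_X]
    rw [← Module.End.mul_apply, this, Module.End.mul_apply, hw, map_zero]
  set T₁ := T.restrict (hst f)
  set T₂ := T.restrict (hst h)
  have hconj : (Submodule.prodEquivOfIsCompl S₁ S₂ hc).conj (T₁.prodMap T₂) = T := by
    refine LinearMap.ext fun w => ?_
    obtain ⟨u, rfl⟩ := (Submodule.prodEquivOfIsCompl S₁ S₂ hc).surjective w
    rw [LinearEquiv.conj_apply_apply, LinearEquiv.symm_apply_apply]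
    simp only [LinearMap.prodMap_apply, Submodule.coe_prodEquivOfIsCompl', map_add]
    rfl
  have hann : ∀ (g : F[X]), aeval (T.restrict (hst g)) g = 0 := by
    intro g
    refine LinearMap.ext fun w => Subtype.ext ?_
    have key : ∀ (q : F[X]) (x : LinearMap.ker (aeval T g)),
        ((aeval (T.restrict (hst g)) q x : LinearMap.ker (aeval T g)) : W) = aeval T q x.1 := by
      intro q
      induction q using Polynomial.induction_on' with
      | add a b ha hb => intro x; simp [ha x, hb x]
      | monomial i a =>
        intro x
        simp only [aeval_monomial, ← Algebra.smul_def, LinearMap.smul_apply, Submodule.coe_smul]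
        congr 1
        induction i generalizing x with
        | zero => rfl
        | succ i ih =>
          rw [pow_succ, pow_succ, Module.End.mul_apply, Module.End.mul_apply, ih]
          rfl
    rw [key]
    exact w.2
  have hsplit : rootCount f (LinearMap.charpoly T) =
      rootCount f (LinearMap.charpoly T₁) + rootCount f (LinearMap.charpoly T₂) := by
    rw [← rootCount_mul f (LinearMap.charpoly_monic T₁).ne_zero (LinearMap.charpoly_monic T₂).ne_zero,
      ← LinearMap.charpoly_prodMap]
    refine congrArg (rootCount f) ?_
    rw [← LinearEquiv.charpoly_conj (Submodule.prodEquivOfIsCompl S₁ S₂ hc) (T₁.prodMap T₂), hconj]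
  have h1 : rootCount f (LinearMap.charpoly T₁) = Module.finrank F S₁ := by
    rw [rootCount, Multiset.filter_eq_self.mpr fun r hr => root_of_aeval_eq_zero T₁ (hann f) hr,
      IsAlgClosed.card_aroots_eq_natDegree, LinearMap.charpoly_natDegree]
  have h2 : rootCount f (LinearMap.charpoly T₂) = 0 := by
    rw [rootCount, Multiset.card_eq_zero, Multiset.filter_eq_nil]
    intro r hr hfr
    obtain ⟨u, v, huv⟩ := hcop
    have h4 := congrArg (aeval r) huv
    rw [map_add, map_mul, map_mul, hfr, root_of_aeval_eq_zero T₂ (hann h) hr, mul_zero, mul_zero,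
      add_zero, map_one] at h4
    exact zero_ne_one h4
  omega

/-- a summand cut out by a spectral projection -/
theorem finrank_summand (T : Module.End F W) {f h u v : F[X]}
    (huv : u * h + v * f = 1) (hfh : aeval T (f * h) = 0) (a : V →ₗ[F] W) (b : W →ₗ[F] V)
    (hba : ∀ x, b (a x) = x) (hab : ∀ y, a (b y) = aeval T (u * h) y) :
    Module.finrank F V = rootCount f (LinearMap.charpoly T) := by
  rw [← finrank_ker_eq_rootCount T ⟨v, u, by rw [← huv]; ring⟩ hfh]
  have hinj : Function.Injective a := Function.LeftInverse.injective hba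
  have hr : LinearMap.range a = LinearMap.ker (aeval T f) := by
    apply le_antisymm
    · rintro _ ⟨x, rfl⟩
      rw [LinearMap.mem_ker, ← hba x, hab, ← Module.End.mul_apply, ← map_mul,
        show f * (u * h) = u * (f * h) by ring, map_mul, hfh, mul_zero, LinearMap.zero_apply]
    · intro y hy
      refine ⟨b y, ?_⟩
      rw [hab, show u * h = 1 - v * f from eq_sub_of_add_eq huv, map_sub, map_one, map_mul,
        LinearMap.sub_apply, Module.End.one_apply, Module.End.mul_apply, LinearMap.mem_ker.mp hy,
        map_zero, sub_zero]
  rw [← hr, LinearMap.finrank_range_of_inj hinj]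

/-- a permutation and its inverse have the same characteristic polynomial -/
theorem charpoly_funLeft_symm {Q : Type} [Finite Q] (e : Q ≃ Q) :
    LinearMap.charpoly (LinearMap.funLeft F F e.symm) =
      LinearMap.charpoly (LinearMap.funLeft F F e) := by
  classical
  haveI := Fintype.ofFinite Q
  rw [← LinearMap.charpoly_toMatrix (LinearMap.funLeft F F e.symm) (Pi.basisFun F Q),
    ← LinearMap.charpoly_toMatrix (LinearMap.funLeft F F e) (Pi.basisFun F Q),
    ← Matrix.charpoly_transpose ((LinearMap.toMatrix _ _) (LinearMap.funLeft F F e))]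
  congr 1
  ext x y
  simp only [Matrix.transpose_apply, LinearMap.toMatrix_apply, Pi.basisFun_apply, Pi.basisFun_repr,
    LinearMap.funLeft_apply, Pi.single_apply]
  rw [Equiv.symm_apply_eq]
  simp only [eq_comm]

end FLTAgent.PT

end
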