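import Fermat.Agent.PT.Euler.Lattice

/-!
Parcel F: modules induced from a cyclic subgroup are built from the eigenspaces of a right
translation on the functions on the group.
-/

set_option autoImplicit false
set_option linter.style.haveILetI false

noncomputable section

open CategoryTheory Polynomial

namespace FLTAgent.PT

variable {p : ℕ} [Fact p.Prime] {Δ : Type} [Group Δ]

/-- a representation of a finite quotient as a Galois module -/
abbrev infl (π : GQ →* Δ) {V : Type} [AddCommGroup V] [Module (ZMod p) V]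
    (σ : Representation (ZMod p) Δ V) : Rep.{0} (ZMod p) GQ :=
  Rep.of (σ.comp π)

theorem isAdm_infl {π : GQ →* Δ}
    (hπ : ∃ F : IntermediateField ℚ (AlgebraicClosure ℚ), FiniteDimensional ℚ F ∧
      ∀ g ∈ F.fixingSubgroup, π g = 1) {V : Type} [AddCommGroup V] [Module (ZMod p) V]
    [Module.Finite (ZMod p) V] (σ : Representation (ZMod p) Δ V) :
    IsAdm (MonoidHom.id GQ) (infl π σ) := by
  obtain ⟨F, hF, hπ⟩ := hπ
  refine ⟨inferInstanceAs (Module.Finite (ZMod p) V), F, hF, fun g hg => ?_⟩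
  show σ (π g) = 1
  rw [hπ g hg, map_one]

/-- functions with twisted left translation -/
def chiRep (χ : Δ →* (ZMod p)ˣ) : Representation (ZMod p) Δ (Δ → ZMod p) where
  toFun g := (χ g : ZMod p) • LinearMap.funLeft (ZMod p) (ZMod p) fun x => g⁻¹ * x
  map_one' := LinearMap.ext fun f => funext fun x => by simp
  map_mul' g h := LinearMap.ext fun f => funext fun x => by
    simp [mul_assoc]
    ring

theorem chiRep_apply (χ : Δ →* (ZMod p)ˣ) (g : Δ) (f : Δ → ZMod p) (x : Δ) :
    chiRep χ g f x = (χ g : ZMod p) * f (g⁻¹ * x) := rfl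

/-- right translation -/
def rtrans (c : Δ) : Module.End (ZMod p) (Δ → ZMod p) :=
  LinearMap.funLeft (ZMod p) (ZMod p) fun x => x * c

theorem rtrans_pow (c : Δ) (n : ℕ) (f : Δ → ZMod p) (x : Δ) :
    (rtrans c ^ n) f x = f (x * c ^ n) := by
  induction n generalizing x with
  | zero => simp
  | succ n ih =>
    rw [pow_succ', Module.End.mul_apply]
    show ((rtrans c ^ n) f) (x * c) = _
    rw [ih, mul_assoc, pow_succ']

theorem aeval_rtrans (c : Δ) (P : (ZMod p)[X]) (f : Δ → ZMod p) (x : Δ) :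
    aeval (rtrans c) P f x = ∑ i ∈ Finset.range (P.natDegree + 1), P.coeff i * f (x * c ^ i) := by
  rw [aeval_eq_sum_range, LinearMap.coe_sum, Finset.sum_apply, Finset.sum_apply]
  refine Finset.sum_congr rfl fun i _ => ?_
  rw [LinearMap.smul_apply, Pi.smul_apply, rtrans_pow, smul_eq_mul]

/-- the kernel of a polynomial in a right translation -/
def eigen (c : Δ) (P : (ZMod p)[X]) : Submodule (ZMod p) (Δ → ZMod p) :=
  LinearMap.ker (aeval (rtrans c) P)

theorem rtrans_comm (χ : Δ →* (ZMod p)ˣ) (c g : Δ) :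
    chiRep χ g * rtrans c = rtrans c * chiRep χ g := by
  refine LinearMap.ext fun f => funext fun x => ?_
  show (χ g : ZMod p) * f (g⁻¹ * x * c) = (χ g : ZMod p) * f (g⁻¹ * (x * c))
  rw [mul_assoc]

theorem aeval_comm (χ : Δ →* (ZMod p)ˣ) (c g : Δ) (P : (ZMod p)[X]) :
    chiRep χ g * aeval (rtrans c) P = aeval (rtrans c) P * chiRep χ g := by
  exact Algebra.commute_of_mem_adjoin_singleton_of_commute (R := ZMod p)
    (aeval_mem_adjoin_singleton (ZMod p) (rtrans c)) (rtrans_comm χ c g)

theorem eigen_stable (χ : Δ →* (ZMod p)ˣ) (c : Δ) (P : (ZMod p)[X]) (g : Δ) (f : Δ → ZMod p)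
    (hf : f ∈ eigen c P) : chiRep χ g f ∈ eigen c P := by
  rw [eigen, LinearMap.mem_ker, ← Module.End.mul_apply, ← aeval_comm, Module.End.mul_apply,
    LinearMap.mem_ker.mp hf, map_zero]

/-- the eigenspace as a representation -/
abbrev eigenRep (χ : Δ →* (ZMod p)ˣ) (c : Δ) (P : (ZMod p)[X]) :
    Representation (ZMod p) Δ (eigen c P) :=
  subRep (chiRep χ) (eigen c P) (eigen_stable χ c P)

theorem out_mul_pow (c : Δ) [Finite Δ] (x : Δ) :
    ∃ i : ℕ, x = (x : Δ ⧸ Subgroup.zpowers c).out * c ^ i := by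
  obtain ⟨⟨u, hu⟩, h⟩ := QuotientGroup.mk_out_eq_mul (Subgroup.zpowers c) x
  obtain ⟨i, hi⟩ := mem_powers_iff_mem_zpowers.mpr (inv_mem hu)
  exact ⟨i, by rw [show c ^ i = u⁻¹ from hi, h, mul_inv_cancel_right]⟩

/-- the kernel of a monic polynomial of degree `d` has dimension at most `d [Δ : ⟨c⟩]` -/
theorem finrank_eigen_le [Finite Δ] (c : Δ) {P : (ZMod p)[X]} (hP : P.Monic) :
    Module.finrank (ZMod p) (eigen c P) ≤ (Subgroup.zpowers c).index * P.natDegree := by
  classical
  haveI := Fintype.ofFinite (Δ ⧸ Subgroup.zpowers c)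
  let θ : eigen c P →ₗ[ZMod p] ((Δ ⧸ Subgroup.zpowers c) × Fin P.natDegree → ZMod p) :=
    { toFun := fun f yi => f.1 (yi.1.out * c ^ (yi.2 : ℕ))
      map_add' := fun f f' => rfl
      map_smul' := fun a f => rfl }
  have hinj : Function.Injective θ := by
    refine (injective_iff_map_eq_zero θ).mpr fun f hf => Subtype.ext (funext fun x => ?_)
    have key : ∀ n (y : Δ ⧸ Subgroup.zpowers c), f.1 (y.out * c ^ n) = 0 := by
      intro n
      induction n using Nat.strong_induction_on with
      | _ n ih =>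
        intro y
        rcases lt_or_ge n P.natDegree with hn | hn
        · exact congrFun hf (y, ⟨n, hn⟩)
        · have h1 := congrFun (show aeval (rtrans c) P f.1 = 0 from f.2)
            (y.out * c ^ (n - P.natDegree))
          rw [aeval_rtrans, Finset.sum_range_succ, Finset.sum_eq_zero, zero_add,
            hP.coeff_natDegree, one_mul, mul_assoc, ← pow_add, Nat.sub_add_cancel hn] at h1
          · exact h1
          · intro i hi
            rw [Finset.mem_range] at hi
            rw [mul_assoc, ← pow_add, ih _ (by omega), mul_zero]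
    obtain ⟨i, hi⟩ := out_mul_pow c x
    rw [hi]
    exact key i _
  refine (LinearMap.finrank_le_finrank_of_injective hinj).trans (le_of_eq ?_)
  rw [Module.finrank_fintype_fun_eq_card, Fintype.card_prod, Fintype.card_fin,
    Subgroup.index_eq_card, Nat.card_eq_fintype_card]

variable {π : GQ →* Δ} {M : Rep.{0} (ZMod p) GQ} {Γ : Type} [AddCommGroup Γ]
  {Φ : Rep.{0} (ZMod p) GQ → Γ}

theorem infl_exact (hΦ : IsAdditive Φ)
    (hπ : ∃ F : IntermediateField ℚ (AlgebraicClosure ℚ), FiniteDimensional ℚ F ∧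
      ∀ g ∈ F.fixingSubgroup, π g = 1)
    {A B C : Type} [AddCommGroup A] [Module (ZMod p) A] [AddCommGroup B] [Module (ZMod p) B]
    [Module.Finite (ZMod p) B] [AddCommGroup C] [Module (ZMod p) C]
    (a : Representation (ZMod p) Δ A) (b : Representation (ZMod p) Δ B)
    (c : Representation (ZMod p) Δ C) (i : A →ₗ[ZMod p] B) (pr : B →ₗ[ZMod p] C)
    (hi : ∀ g x, i (a g x) = b g (i x)) (hpr : ∀ g x, pr (b g x) = c g (pr x))
    (hinj : Function.Injective i) (hs : Function.Surjective pr) (hex : Function.Exact i pr) :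
    Φ (infl π b) = Φ (infl π a) + Φ (infl π c) :=
  hΦ.of_surjective (isAdm_infl hπ b) i pr (fun g x => hi (π g) x) (fun g x => hpr (π g) x) hinj hs
    hex

/-- all pieces of a translation vanish once the primary parts vanish -/
theorem infl_eigen_irreducible [Finite Δ] (hΦ : IsAdditive Φ)
    (hπ : ∃ F : IntermediateField ℚ (AlgebraicClosure ℚ), FiniteDimensional ℚ F ∧
      ∀ g ∈ F.fixingSubgroup, π g = 1)
    (htor : ∀ (N : ℕ) (x : Γ), N ≠ 0 → N • x = 0 → x = 0) (χ : Δ →* (ZMod p)ˣ) (c : Δ)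
    (hV : ∀ P h : (ZMod p)[X], IsCoprime P h → P * h = X ^ orderOf c - 1 →
      Φ (infl π (eigenRep χ c P)) = 0)
    {Q : (ZMod p)[X]} (hQ : Irreducible Q) (hQm : Q.Monic) (hdvd : Q ∣ X ^ orderOf c - 1) :
    Φ (infl π (eigenRep χ c Q)) = 0 ∧
      Module.finrank (ZMod p) (eigen c Q) = (Subgroup.zpowers c).index * Q.natDegree := by
  classical
  set m := orderOf c
  set D := (Subgroup.zpowers c).index * Q.natDegree with hD
  have hm : 0 < m := orderOf_pos c
  have hne : (X ^ m - 1 : (ZMod p)[X]) ≠ 0 := (monic_X_pow_sub_C (1 : ZMod p) hm.ne').ne_zero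
  obtain ⟨h, hnd, hab⟩ := (FiniteMultiplicity.of_prime_left hQ.prime hne).exists_eq_pow_mul_and_not_dvd
  set a := multiplicity Q (X ^ m - 1 : (ZMod p)[X])
  rw [show (X ^ m - 1 : (ZMod p)[X]) = Q ^ a * h from hnd] at hdvd
  have ha : 0 < a := Nat.pos_of_ne_zero fun h0 => hab (by rwa [h0, pow_zero, one_mul] at hdvd)
  have hcop : IsCoprime (Q ^ a) h := ((hQ.coprime_iff_not_dvd).mpr hab).pow_left
  have hhm : h.Monic := (hQm.pow a).of_mul_monic_left (by
    rw [← hnd]; exact monic_X_pow_sub_C (1 : ZMod p) hm.ne')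
  have hdeg : m = a * Q.natDegree + h.natDegree := by
    have h1 := congrArg natDegree hnd
    rw [show (X ^ m - 1 : (ZMod p)[X]) = X ^ m - C 1 by rw [C_1], natDegree_X_pow_sub_C,
      (hQm.pow a).natDegree_mul hhm, hQm.natDegree_pow] at h1
    exact h1
  -- the whole space
  have hzero : aeval (rtrans (p := p) c) (Q ^ a * h) = 0 := by
    rw [← hnd, map_sub, map_pow, aeval_X, map_one, sub_eq_zero]
    refine LinearMap.ext fun f => funext fun x => ?_
    rw [rtrans_pow, pow_orderOf_eq_one, mul_one]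
    rfl
  have hle : ∀ i, Module.finrank (ZMod p) (eigen c (Q ^ i)) ≤ i * D := fun i => by
    refine (finrank_eigen_le c (hQm.pow i)).trans (le_of_eq ?_)
    rw [hQm.natDegree_pow, hD]; ring
  have htot : a * D ≤ Module.finrank (ZMod p) (eigen c (Q ^ a)) := by
    haveI := Fintype.ofFinite Δ
    have hsup : (eigen c (Q ^ a) : Submodule (ZMod p) (Δ → ZMod p)) ⊔ eigen c h = ⊤ := by
      rw [eigen, eigen, sup_ker_aeval_eq_ker_aeval_mul_of_coprime _ hcop, hzero, LinearMap.ker_zero]
    have h1 := Submodule.finrank_add_le_finrank_add_finrank (eigen (p := p) c (Q ^ a)) (eigen (p := p) c h)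
    rw [hsup, finrank_top, Module.finrank_fintype_fun_eq_card] at h1
    have h2 := finrank_eigen_le (p := p) c hhm
    have h3 : Fintype.card Δ = (Subgroup.zpowers c).index * m := by
      rw [← Nat.card_eq_fintype_card, ← (Subgroup.zpowers c).index_mul_card, Nat.card_zpowers]
    rw [h3, hdeg, mul_add] at h1
    have h4 : (Subgroup.zpowers c).index * (a * Q.natDegree) = a * D := by rw [hD]; ring
    omega
  -- multiplication by `Q ^ i`
  let θ : ∀ i : ℕ, eigen (p := p) c (Q ^ (i + 1)) →ₗ[ZMod p] eigen c Q := fun i =>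
    (aeval (rtrans c) (Q ^ i)).restrict fun f hf => by
      rw [eigen, LinearMap.mem_ker, ← Module.End.mul_apply, ← map_mul, ← pow_succ']
      exact hf
  have hker : ∀ i, ∀ f : eigen (p := p) c (Q ^ (i + 1)), θ i f = 0 ↔ f.1 ∈ eigen c (Q ^ i) :=
    fun i f => ⟨fun h0 => congrArg Subtype.val h0, fun h0 => Subtype.ext h0⟩
  have hsub : ∀ i, (eigen c (Q ^ i) : Submodule (ZMod p) (Δ → ZMod p)) ≤ eigen c (Q ^ (i + 1)) :=
    fun i f hf => by
      rw [eigen, LinearMap.mem_ker, pow_succ', map_mul, Module.End.mul_apply,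
        LinearMap.mem_ker.mp hf, map_zero]
  have hrk : ∀ i, Module.finrank (ZMod p) (LinearMap.range (θ i)) +
      Module.finrank (ZMod p) (eigen (p := p) c (Q ^ i)) =
        Module.finrank (ZMod p) (eigen (p := p) c (Q ^ (i + 1))) := by
    intro i
    rw [← LinearMap.finrank_range_add_finrank_ker (θ i), show LinearMap.ker (θ i) =
      (eigen c (Q ^ i)).comap (eigen c (Q ^ (i + 1))).subtype from
        Submodule.ext fun f => (hker i f), (Submodule.comapSubtypeEquivOfLe (hsub i)).finrank_eq]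
  have hQle : Module.finrank (ZMod p) (eigen (p := p) c Q) ≤ D := finrank_eigen_le c hQm
  have hstep : ∀ i, Module.finrank (ZMod p) (eigen (p := p) c (Q ^ (i + 1))) ≤
      D + Module.finrank (ZMod p) (eigen (p := p) c (Q ^ i)) := fun i => by
    have := Submodule.finrank_le (LinearMap.range (θ i))
    have := hrk i
    omega
  have hexact : ∀ k, k ≤ a → a * D ≤
      Module.finrank (ZMod p) (eigen (p := p) c (Q ^ (a - k))) + k * D := by
    intro k
    induction k with
    | zero => intro; simpa using htot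
    | succ k ih =>
      intro hk
      have h1 := hstep (a - (k + 1))
      rw [show a - (k + 1) + 1 = a - k by omega] at h1
      have := ih (by omega)
      rw [add_mul, one_mul]
      omega
  have heq : ∀ i ≤ a, Module.finrank (ZMod p) (eigen (p := p) c (Q ^ i)) = i * D := fun i hi => by
    have h1 := hexact (a - i) (by omega)
    rw [show a - (a - i) = i by omega] at h1
    have h2 : a * D = i * D + (a - i) * D := by rw [← add_mul]; congr 1; omega
    have := hle i
    omega
  have hQeq : Module.finrank (ZMod p) (eigen (p := p) c Q) = D := by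
    have := heq 1 ha
    rw [pow_one, one_mul] at this
    exact this
  have hsurj : ∀ i, i < a → Function.Surjective (θ i) := fun i hi => by
    rw [← LinearMap.range_eq_top]
    refine Submodule.eq_top_of_finrank_eq ?_
    have h1 := hrk i
    rw [heq i hi.le, heq (i + 1) hi, add_mul, one_mul] at h1
    omega
  have hΦi : ∀ i ≤ a, Φ (infl π (eigenRep χ c (Q ^ i))) = i • Φ (infl π (eigenRep χ c Q)) := by
    intro i
    induction i with
    | zero =>
      intro
      rw [zero_smul]
      haveI : Subsingleton (eigen (p := p) c (Q ^ 0)) := Submodule.subsingleton_iff_eq_bot.mpr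
        (by rw [eigen, pow_zero, map_one, Module.End.one_eq_id, LinearMap.ker_id])
      exact hΦ.subsingleton (isAdm_infl hπ _) (inferInstanceAs (Subsingleton (eigen c (Q ^ 0))))
    | succ i ih =>
      intro hi
      rw [infl_exact hΦ hπ (eigenRep χ c (Q ^ i)) (eigenRep χ c (Q ^ (i + 1))) (eigenRep χ c Q)
        (Submodule.inclusion (hsub i)) (θ i) (fun g x => rfl)
        (fun g x => Subtype.ext (DFunLike.congr_fun (aeval_comm χ c g (Q ^ i)) x.1).symm)
        (Submodule.inclusion_injective _) (hsurj i hi) (fun f => by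
          rw [hker]
          exact ⟨fun h0 => ⟨⟨f.1, h0⟩, rfl⟩, by rintro ⟨u, rfl⟩; exact u.2⟩),
        ih (by omega), succ_nsmul]
  refine ⟨htor a _ ha.ne' ?_, hQeq⟩
  rw [← hΦi a le_rfl]
  exact hV _ h hcop hnd.symm

/-- `h : Δ → M` with `h (x u) = u⁻¹ h (x)` on the cyclic group of `c` and values in `W` -/
def twisted {V : Type} [AddCommGroup V] [Module (ZMod p) V] (ρ : Representation (ZMod p) Δ V)
    (c : Δ) (W : Submodule (ZMod p) V) : Submodule (ZMod p) (Δ → V) where
  carrier := {h | (∀ x, h x ∈ W) ∧ ∀ x, ∀ u ∈ Subgroup.zpowers c, h (x * u) = ρ u⁻¹ (h x)}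
  add_mem' ha hb := ⟨fun x => add_mem (ha.1 x) (hb.1 x), fun x u hu => by
    simp only [Pi.add_apply, map_add, ha.2 x u hu, hb.2 x u hu]⟩
  zero_mem' := ⟨fun _ => zero_mem _, fun _ _ _ => by simp⟩
  smul_mem' a f hf := ⟨fun x => W.smul_mem a (hf.1 x), fun x u hu => by
    simp only [Pi.smul_apply, map_smul, hf.2 x u hu]⟩

/-- translation on them -/
def twistedRep {V : Type} [AddCommGroup V] [Module (ZMod p) V] (ρ : Representation (ZMod p) Δ V)
    (c : Δ) (W : Submodule (ZMod p) V) : Representation (ZMod p) Δ (twisted ρ c W) where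
  toFun g := (LinearMap.funLeft (ZMod p) V fun x => g⁻¹ * x).restrict fun h hh =>
    ⟨fun x => hh.1 _, fun x u hu => by
      show h (g⁻¹ * (x * u)) = ρ u⁻¹ (h (g⁻¹ * x))
      rw [← mul_assoc, hh.2 _ u hu]⟩
  map_one' := LinearMap.ext fun h => Subtype.ext (funext fun x => by simp)
  map_mul' g g' := LinearMap.ext fun h => Subtype.ext (funext fun x => by
    show h.1 ((g * g')⁻¹ * x) = h.1 (g'⁻¹ * (g⁻¹ * x))
    rw [mul_inv_rev, mul_assoc])

theorem twistedRep_apply {V : Type} [AddCommGroup V] [Module (ZMod p) V]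
    (ρ : Representation (ZMod p) Δ V) (c : Δ) (W : Submodule (ZMod p) V) (g x : Δ)
    (h : twisted ρ c W) : ((twistedRep ρ c W g h : twisted ρ c W) : Δ → V) x = h.1 (g⁻¹ * x) := rfl

theorem stable_zpowers [Finite Δ] {V : Type} [AddCommGroup V] [Module (ZMod p) V]
    (ρ : Representation (ZMod p) Δ V) (c : Δ) {W : Submodule (ZMod p) V}
    (hW : ∀ w ∈ W, ρ c⁻¹ w ∈ W) {u : Δ} (hu : u ∈ Subgroup.zpowers c) {w : V} (hw : w ∈ W) :
    ρ u w ∈ W := by
  rw [← Subgroup.zpowers_inv] at hu
  obtain ⟨n, rfl⟩ := mem_powers_iff_mem_zpowers.mpr hu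
  show ρ (c⁻¹ ^ n) w ∈ W
  induction n with
  | zero => simpa using hw
  | succ n ih => rw [pow_succ', map_mul]; exact hW _ (ih (Subgroup.npow_mem_zpowers _ _))

/-- the values at representatives -/
def twistedEquiv [Finite Δ] {V : Type} [AddCommGroup V] [Module (ZMod p) V]
    (ρ : Representation (ZMod p) Δ V) (c : Δ) {W : Submodule (ZMod p) V}
    (hW : ∀ w ∈ W, ρ c⁻¹ w ∈ W) : twisted ρ c W ≃ₗ[ZMod p] (Δ ⧸ Subgroup.zpowers c → W) where
  toFun h y := ⟨h.1 y.out, h.2.1 _⟩
  map_add' h h' := rfl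
  map_smul' a h := rfl
  invFun f := ⟨fun x => ρ (x⁻¹ * (x : Δ ⧸ Subgroup.zpowers c).out) (f x),
    fun x => stable_zpowers ρ c hW (QuotientGroup.eq.mp (QuotientGroup.out_eq' _).symm) (f x).2,
    fun x u hu => by
      have e : ((x * u : Δ) : Δ ⧸ Subgroup.zpowers c) = x :=
        QuotientGroup.eq.mpr (by simpa using inv_mem hu)
      dsimp only
      rw [e, mul_inv_rev, mul_assoc, map_mul]
      rfl⟩
  left_inv h := by
    refine Subtype.ext (funext fun x => ?_)
    obtain ⟨⟨u, hu⟩, hxu⟩ := QuotientGroup.mk_out_eq_mul (Subgroup.zpowers c) x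
    show ρ (x⁻¹ * (x : Δ ⧸ Subgroup.zpowers c).out) (h.1 (x : Δ ⧸ Subgroup.zpowers c).out) = h.1 x
    rw [hxu, inv_mul_cancel_left, h.2.2 x u hu, ← Module.End.mul_apply, ← map_mul, mul_inv_cancel,
      map_one, Module.End.one_apply]
  right_inv f := funext fun y => Subtype.ext (by
    show ρ (y.out⁻¹ * (y.out : Δ ⧸ Subgroup.zpowers c).out) _ = _
    rw [QuotientGroup.out_eq', inv_mul_cancel, map_one]
    rfl)

/-- the filtration step -/
theorem infl_twisted_zero [Finite Δ] (hΦ : IsAdditive Φ)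
    (hπ : ∃ F : IntermediateField ℚ (AlgebraicClosure ℚ), FiniteDimensional ℚ F ∧
      ∀ g ∈ F.fixingSubgroup, π g = 1)
    (htor : ∀ (N : ℕ) (x : Γ), N ≠ 0 → N • x = 0 → x = 0) (χ : Δ →* (ZMod p)ˣ) (c : Δ)
    (hV : ∀ P h : (ZMod p)[X], IsCoprime P h → P * h = X ^ orderOf c - 1 →
      Φ (infl π (eigenRep χ c P)) = 0)
    {V : Type} [AddCommGroup V] [Module (ZMod p) V] [Module.Finite (ZMod p) V]
    (ρ : Representation (ZMod p) Δ V) :
    ∀ (n : ℕ) (W : Submodule (ZMod p) V), (∀ w ∈ W, ρ c⁻¹ w ∈ W) →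
      Module.finrank (ZMod p) W ≤ n → Φ (infl π (twistedRep ρ c W)) = 0 := by
  classical
  intro n
  induction n with
  | zero =>
    intro W _ h0
    refine hΦ.subsingleton (isAdm_infl hπ _) ⟨fun f f' => Subtype.ext (funext fun x => ?_)⟩
    have hW0 : W = ⊥ := Submodule.finrank_eq_zero.mp (Nat.le_zero.mp h0)
    rw [(Submodule.mem_bot (ZMod p)).mp (hW0.le (f.2.1 x)),
      (Submodule.mem_bot (ZMod p)).mp (hW0.le (f'.2.1 x))]
  | succ n ih =>
    intro W hW hn
    by_cases hWb : W = ⊥
    · exact ih W hW (by rw [hWb, finrank_bot]; omega)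
    -- a maximal stable subspace
    set A : Module.End (ZMod p) V := ρ c⁻¹ with hA
    obtain ⟨W₀, ⟨hle, hne, hW₀⟩, hmax⟩ : ∃ W₀ : Submodule (ZMod p) V,
        (W₀ ≤ W ∧ W₀ ≠ W ∧ ∀ w ∈ W₀, A w ∈ W₀) ∧ ∀ S : Submodule (ZMod p) V,
          S ≤ W → S ≠ W → (∀ w ∈ S, A w ∈ S) →
            Module.finrank (ZMod p) S ≤ Module.finrank (ZMod p) W₀ := by
      have hbot : (⊥ : Submodule (ZMod p) V) ≤ W ∧ ⊥ ≠ W ∧
          ∀ w ∈ (⊥ : Submodule (ZMod p) V), A w ∈ (⊥ : Submodule (ZMod p) V) :=
        ⟨bot_le, Ne.symm hWb, fun w hw => by rw [(Submodule.mem_bot _).mp hw, map_zero]; exact zero_mem _⟩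
      let s : Set ℕ := {k | ∃ S : Submodule (ZMod p) V,
        (S ≤ W ∧ S ≠ W ∧ ∀ w ∈ S, A w ∈ S) ∧ Module.finrank (ZMod p) S = k}
      have hb : BddAbove s := ⟨Module.finrank (ZMod p) V, fun k ⟨S, _, hk⟩ => hk ▸ S.finrank_le⟩
      obtain ⟨S, hS, hk⟩ := Nat.sSup_mem (s := s) ⟨0, ⊥, hbot, finrank_bot _ _⟩ hb
      exact ⟨S, hS, fun S' h1 h2 h3 => hk ▸ le_csSup hb ⟨S', ⟨h1, h2, h3⟩, rfl⟩⟩
    have hmax' : ∀ S : Submodule (ZMod p) V, W₀ ≤ S → S ≤ W → (∀ w ∈ S, A w ∈ S) →
        S = W₀ ∨ S = W := fun S h1 h2 h3 => by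
      by_cases h : S = W
      · exact Or.inr h
      · exact Or.inl (Submodule.eq_of_le_of_finrank_le h1 (hmax S h2 h h3)).symm
    obtain ⟨v, hvW, hv⟩ : ∃ v ∈ W, v ∉ W₀ := SetLike.exists_of_lt (lt_of_le_of_ne hle hne)
    -- the twisted endomorphism and its annihilator modulo `W₀`
    set T : Module.End (ZMod p) V := (χ c : ZMod p) • A with hT
    have hTW : ∀ {S : Submodule (ZMod p) V}, (∀ w ∈ S, A w ∈ S) → ∀ w ∈ S, T w ∈ S :=
      fun hS w hw => Submodule.smul_mem _ _ (hS w hw)
    have haevalS : ∀ {S : Submodule (ZMod p) V}, (∀ w ∈ S, A w ∈ S) → ∀ (P : (ZMod p)[X]),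
        ∀ w ∈ S, aeval T P w ∈ S := by
      intro S hS P w hw
      induction P using Polynomial.induction_on' with
      | add P P' h h' => rw [map_add]; exact add_mem h h'
      | monomial i a =>
        rw [aeval_monomial, ← Algebra.smul_def, LinearMap.smul_apply]
        refine S.smul_mem _ ?_
        clear! a
        induction i with
        | zero => simpa using hw
        | succ i ih => rw [pow_succ', Module.End.mul_apply]; exact hTW hS _ ih
    let φ : (ZMod p)[X] →ₗ[ZMod p] V ⧸ W₀ :=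
      W₀.mkQ.comp ((LinearMap.applyₗ v).comp (aeval T).toLinearMap)
    have hφ : ∀ P, φ P = 0 ↔ aeval T P v ∈ W₀ := fun P => Submodule.Quotient.mk_eq_zero W₀
    -- everything above `W₀` in `W` is generated by `v`
    have hgen : ∀ u ∈ W, u ∉ W₀ → ∀ w ∈ W, ∃ P : (ZMod p)[X], w - aeval T P u ∈ W₀ := by
      intro u hu hu' w hw
      let S : Submodule (ZMod p) V :=
        { carrier := {w | ∃ P : (ZMod p)[X], w - aeval T P u ∈ W₀}
          add_mem' := by
            rintro a b ⟨P, hP⟩ ⟨P', hP'⟩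
            refine ⟨P + P', ?_⟩
            rw [map_add, LinearMap.add_apply, add_sub_add_comm]
            exact add_mem hP hP'
          zero_mem' := ⟨0, by simp⟩
          smul_mem' := by
            rintro a b ⟨P, hP⟩
            refine ⟨a • P, ?_⟩
            rw [map_smul, LinearMap.smul_apply, ← smul_sub]
            exact W₀.smul_mem a hP }
      have hSW : S ≤ W := by
        rintro a ⟨P, hP⟩
        have := add_mem (hle hP) (haevalS hW P u hu)
        rwa [sub_add_cancel] at this
      have hSA : ∀ a ∈ S, A a ∈ S := by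
        rintro a ⟨P, hP⟩
        have hc : (χ c : ZMod p) ≠ 0 := (χ c).ne_zero
        refine ⟨C (χ c : ZMod p)⁻¹ * X * P, ?_⟩
        rw [map_mul, map_mul, aeval_C, aeval_X, Module.End.mul_apply, Module.End.mul_apply,
          Module.algebraMap_end_apply, hT, LinearMap.smul_apply, smul_smul, inv_mul_cancel₀ hc,
          one_smul, ← map_sub]
        exact hW₀ _ hP
      rcases hmax' S (fun a ha => ⟨0, by simpa using ha⟩) hSW hSA with h | h
      · exact absurd (h ▸ (⟨1, by simp⟩ : u ∈ S)) hu'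
      · exact (h ▸ hw : w ∈ S)
    set I : Ideal (ZMod p)[X] :=
      { carrier := {P : (ZMod p)[X] | aeval T P v ∈ W₀}
        add_mem' := fun {a b} ha hb => by
          simp only [Set.mem_setOf_eq, map_add, LinearMap.add_apply] at *
          exact add_mem ha hb
        zero_mem' := by simp
        smul_mem' := fun a b hb => by
          simp only [Set.mem_setOf_eq, smul_eq_mul, map_mul, Module.End.mul_apply]
          exact haevalS hW₀ a _ hb } with hI
    have hImax : I.IsMaximal := by
      refine Ideal.isMaximal_iff.mpr ⟨fun h1 => hv (by simpa [hI] using h1), fun J P hIJ hP hPJ => ?_⟩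
      obtain ⟨U, hU⟩ := hgen _ (haevalS hW P v hvW) hP v hvW
      have h1 : 1 - U * P ∈ I := by
        show aeval T (1 - U * P) v ∈ W₀
        simpa using hU
      have := add_mem (hIJ h1) (Ideal.mul_mem_left J U hPJ)
      rwa [sub_add_cancel] at this
    have hXm : (X ^ orderOf c - 1 : (ZMod p)[X]) ∈ I := by
      show aeval T (X ^ orderOf c - 1) v ∈ W₀
      rw [map_sub, map_pow, aeval_X, map_one, hT, _root_.smul_pow, ← Units.val_pow_eq_pow_val, ← map_pow χ,
        pow_orderOf_eq_one, map_one, Units.val_one, one_smul, hA, ← map_pow, inv_pow,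
        pow_orderOf_eq_one, inv_one, map_one, sub_self]
      exact zero_mem _
    obtain ⟨Q, hIQ, hQm, hQirr⟩ : ∃ Q : (ZMod p)[X],
        I = Ideal.span {Q} ∧ Q.Monic ∧ Irreducible Q := by
      obtain ⟨G, hG⟩ := IsPrincipalIdealRing.principal I
      have hG0 : G ≠ 0 := fun h0 => by
        rw [hG, h0, show Submodule.span (ZMod p)[X] {(0 : (ZMod p)[X])} = ⊥ from
          Submodule.span_singleton_eq_bot.mpr rfl] at hXm
        exact (monic_X_pow_sub_C (1 : ZMod p) (orderOf_pos c).ne').ne_zero hXm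
      have hspan : I = Ideal.span {G * C G.leadingCoeff⁻¹} := by
        rw [Ideal.span_singleton_mul_right_unit
          (isUnit_C.mpr (inv_ne_zero (leadingCoeff_ne_zero.mpr hG0)).isUnit)]
        exact hG
      refine ⟨_, hspan, monic_mul_leadingCoeff_inv hG0, ?_⟩
      have hpr := hImax.isPrime
      rw [hspan] at hpr
      exact ((Ideal.span_singleton_prime (monic_mul_leadingCoeff_inv hG0).ne_zero).mp hpr).irreducible
    have hQI : Q ∈ I := hIQ ▸ Ideal.mem_span_singleton_self Q
    have hQdvd : Q ∣ X ^ orderOf c - 1 := Ideal.mem_span_singleton.mp (hIQ ▸ hXm)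
    obtain ⟨hΦQ, hQdim⟩ := infl_eigen_irreducible hΦ hπ htor χ c hV hQirr hQm hQdvd
    -- the dimension of the quotient
    have hdimW : Module.finrank (ZMod p) W = Module.finrank (ZMod p) W₀ + Q.natDegree := by
      let φ' : W →ₗ[ZMod p] V ⧸ W₀ := W₀.mkQ.comp W.subtype
      have h1 : LinearMap.range φ = LinearMap.range φ' := by
        apply le_antisymm
        · rintro _ ⟨P, rfl⟩
          exact ⟨⟨_, haevalS hW P v hvW⟩, rfl⟩
        · rintro _ ⟨⟨w, hw⟩, rfl⟩
          obtain ⟨P, hP⟩ := hgen v hvW hv w hw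
          exact ⟨P, ((Submodule.Quotient.eq W₀).mpr hP).symm⟩
      have h2 := LinearMap.finrank_range_add_finrank_ker φ'
      rw [← h1, LinearMap.ker_comp, Submodule.ker_mkQ,
        (Submodule.comapSubtypeEquivOfLe hle).finrank_eq] at h2
      have h3 : Module.finrank (ZMod p) (LinearMap.range φ) = Q.natDegree := by
        rw [← finrank_quotient_span_eq_natDegree (f := Q), ← hIQ]
        have hk : LinearMap.ker φ = I.restrictScalars (ZMod p) := Submodule.ext fun P => hφ P
        exact (φ.quotKerEquivRange.symm.trans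
          ((Submodule.quotEquivOfEq _ _ hk).trans
            (Submodule.Quotient.restrictScalarsEquiv (ZMod p) I))).finrank_eq
      omega
    -- a functional
    obtain ⟨lam, hlv, hlW⟩ := Submodule.exists_dual_map_eq_bot_of_notMem hv inferInstance
    have hl0 : ∀ w ∈ W₀, lam w = 0 := fun w hw => LinearMap.le_ker_iff_map.mpr hlW hw
    let Ψ : twisted ρ c W →ₗ[ZMod p] (Δ → ZMod p) :=
      { toFun := fun f x => (χ x : ZMod p) * lam (f.1 x)
        map_add' := fun f f' => funext fun x => by simp [mul_add]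
        map_smul' := fun a f => funext fun x => by simp [mul_left_comm] }
    have hΨR : ∀ (f : twisted ρ c W) (P : (ZMod p)[X]) (x : Δ),
        aeval (rtrans c) P (Ψ f) x = (χ x : ZMod p) * lam (aeval T P (f.1 x)) := by
      intro f P
      induction P using Polynomial.induction_on' with
      | add P P' h h' => intro x; simp [h x, h' x, mul_add]
      | monomial i a =>
        intro x
        rw [aeval_monomial, aeval_monomial, ← Algebra.smul_def, ← Algebra.smul_def,
          LinearMap.smul_apply, LinearMap.smul_apply, Pi.smul_apply, rtrans_pow, map_smul,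
          smul_eq_mul, smul_eq_mul]
        show a * ((χ (x * c ^ i) : ZMod p) * lam (f.1 (x * c ^ i))) = _
        rw [f.2.2 x (c ^ i) (Subgroup.npow_mem_zpowers _ _), hT, hA, _root_.smul_pow, ← map_pow ρ,
          inv_pow, LinearMap.smul_apply, map_smul, smul_eq_mul, map_mul χ, map_pow χ,
          Units.val_mul, Units.val_pow_eq_pow_val]
        ring
    have hQW : ∀ w ∈ W, aeval T Q w ∈ W₀ := fun w hw => by
      obtain ⟨P, hP⟩ := hgen v hvW hv w hw
      have h1 : aeval T (Q * P) v ∈ W₀ := by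
        show Q * P ∈ I
        exact I.mul_mem_right _ hQI
      rw [map_mul, Module.End.mul_apply] at h1
      have h2 := add_mem (haevalS hW₀ Q _ hP) h1
      rwa [← map_add, sub_add_cancel] at h2
    let Ψ' : twisted ρ c W →ₗ[ZMod p] eigen c Q := Ψ.codRestrict _ fun f => by
      rw [eigen, LinearMap.mem_ker]
      refine funext fun x => ?_
      rw [hΨR, hl0 _ (hQW _ (f.2.1 x)), mul_zero]
      rfl
    have hkerΨ : ∀ f : twisted ρ c W, Ψ' f = 0 ↔ ∀ x, f.1 x ∈ W₀ := by
      intro f
      constructor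
      · intro h0 x
        let S : Submodule (ZMod p) V :=
          { carrier := {w | w ∈ W ∧ ∀ i : ℕ, lam ((A ^ i) w) = 0}
            add_mem' := fun ha hb => ⟨add_mem ha.1 hb.1, fun i => by
              rw [map_add, map_add, ha.2 i, hb.2 i, add_zero]⟩
            zero_mem' := ⟨zero_mem _, fun i => by simp⟩
            smul_mem' := fun a w hw => ⟨W.smul_mem a hw.1, fun i => by
              rw [map_smul, map_smul, hw.2 i, smul_zero]⟩ }
        have hpow : ∀ i : ℕ, ∀ w ∈ W₀, (A ^ i) w ∈ W₀ := fun i => by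
          induction i with
          | zero => intro w hw; simpa using hw
          | succ i ih => intro w hw; rw [pow_succ, Module.End.mul_apply]; exact ih _ (hW₀ w hw)
        rcases hmax' S (fun w hw => ⟨hle hw, fun i => hl0 _ (hpow i w hw)⟩) (fun w hw => hw.1)
          (fun w hw => ⟨hW w hw.1, fun i => by
            rw [← Module.End.mul_apply, ← pow_succ]; exact hw.2 (i + 1)⟩) with h | h
        · rw [← h]
          refine ⟨f.2.1 x, fun i => ?_⟩
          have h1 := congrFun (congrArg Subtype.val h0) (x * c ^ i)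
          change (χ (x * c ^ i) : ZMod p) * lam (f.1 (x * c ^ i)) = 0 at h1
          rw [f.2.2 x (c ^ i) (Subgroup.npow_mem_zpowers _ _), ← inv_pow, map_pow ρ] at h1
          exact (mul_eq_zero.mp h1).resolve_left (χ (x * c ^ i)).ne_zero
        · have h1 := (h.symm ▸ hvW : v ∈ S).2 0
          rw [pow_zero, Module.End.one_apply] at h1
          exact absurd h1 hlv
      · intro h0
        refine Subtype.ext (funext fun x => ?_)
        show (χ x : ZMod p) * lam (f.1 x) = 0
        rw [hl0 _ (h0 x), mul_zero]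
    let ι : twisted ρ c W₀ →ₗ[ZMod p] twisted ρ c W :=
      Submodule.inclusion fun f hf => ⟨fun x => hle (hf.1 x), hf.2⟩
    have hexι : Function.Exact ι Ψ' := fun f => by
      rw [hkerΨ]
      exact ⟨fun h0 => ⟨⟨f.1, h0, f.2.2⟩, rfl⟩, by rintro ⟨u, rfl⟩; exact u.2.1⟩
    have hdim : ∀ {S : Submodule (ZMod p) V}, (∀ w ∈ S, ρ c⁻¹ w ∈ S) →
        Module.finrank (ZMod p) (twisted ρ c S) =
          (Subgroup.zpowers c).index * Module.finrank (ZMod p) S := fun hS => by
      haveI := Fintype.ofFinite (Δ ⧸ Subgroup.zpowers c)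
      rw [(twistedEquiv ρ c hS).finrank_eq, Module.finrank_pi_fintype, Finset.sum_const,
        Finset.card_univ, smul_eq_mul, Subgroup.index_eq_card, Nat.card_eq_fintype_card]
    have hsurjΨ : Function.Surjective Ψ' := by
      rw [← LinearMap.range_eq_top]
      refine Submodule.eq_top_of_finrank_eq ?_
      have h1 := LinearMap.finrank_range_add_finrank_ker Ψ'
      rw [hexι.linearMap_ker_eq, show Module.finrank (ZMod p) (LinearMap.range ι) = Module.finrank (ZMod p) (twisted ρ c W₀) from LinearMap.finrank_range_of_inj (Submodule.inclusion_injective _),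
        hdim hW, hdim hW₀, hdimW, mul_add] at h1
      omega
    rw [infl_exact hΦ hπ (twistedRep ρ c W₀) (twistedRep ρ c W) (eigenRep χ c Q) ι Ψ'
      (fun g x => rfl)
      (fun g f => Subtype.ext (funext fun x => by
        show (χ x : ZMod p) * lam (f.1 (g⁻¹ * x)) =
          (χ g : ZMod p) * ((χ (g⁻¹ * x) : ZMod p) * lam (f.1 (g⁻¹ * x)))
        rw [← mul_assoc, ← Units.val_mul, ← map_mul, mul_inv_cancel_left]))
      (Submodule.inclusion_injective _) hsurjΨ hexι,
      hΦQ, add_zero]
    exact ih W₀ hW₀ (by have := hQirr.natDegree_pos; omega)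

end FLTAgent.PT

end
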