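import Fermat.Agent.PT.Euler.Base

/-!
Parcel F: the sequence of the classes unramified outside a large set `T` attached to a short exact
sequence, and the additivity of the Euler characteristic.
-/

set_option autoImplicit false
set_option linter.style.haveILetI false

noncomputable section

open CategoryTheory groupCohomology

namespace FLTAgent.PT

variable {p : ℕ} [Fact p.Prime] {A B C : Rep.{0} (ZMod p) GQ} (E : SES (MonoidHom.id GQ) A B C)

include E in
theorem SES.isUnrAt_left {q : Nat.Primes} (h : IsUnrAt q B) : IsUnrAt q A := fun g hg =>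
  LinearMap.ext fun a => E.inj (by rw [E.i_eqv, h g hg]; rfl)

include E in
theorem SES.isUnrAt_right {q : Nat.Primes} (h : IsUnrAt q B) : IsUnrAt q C := fun g hg =>
  LinearMap.ext fun c => by
    obtain ⟨b, rfl⟩ := E.surj c
    rw [← E.pr_eqv, h g hg]
    rfl

/-- the sequence restricted to a local group -/
abbrev SES.atPrime (q : Nat.Primes) :
    SES (loc q) (Rep.res (loc q) A) (Rep.res (loc q) B) (Rep.res (loc q) C) :=
  E.res (loc q) (loc q) fun _ => rfl

theorem res1_h1push {A B : Rep.{0} (ZMod p) GQ} (φ : A →ₗ[ZMod p] B)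
    (hφ : ∀ g a, φ (A.ρ g a) = B.ρ g (φ a)) (q : Nat.Primes) (x : cH1 (MonoidHom.id GQ) A) :
    res1 q B (h1push (MonoidHom.id GQ) φ hφ x) =
      h1push (loc q) (A := Rep.res (loc q) A) (B := Rep.res (loc q) B) φ
        (fun g a => hφ (loc q g) a) (res1 q A x) := by
  obtain ⟨z, rfl⟩ := Submodule.mkQ_surjective _ x
  rfl

theorem unr1_h1push {A B : Rep.{0} (ZMod p) GQ} (φ : A →ₗ[ZMod p] B)
    (hφ : ∀ g a, φ (A.ρ g a) = B.ρ g (φ a)) (q : Nat.Primes) {x : lH1 q A} (hx : x ∈ unr1 q A) :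
    h1push (loc q) (A := Rep.res (loc q) A) (B := Rep.res (loc q) B) φ
      (fun g a => hφ (loc q g) a) x ∈ unr1 q B := by
  obtain ⟨z, hz, rfl⟩ := Submodule.mem_map.mp hx
  refine Submodule.mem_map.mpr ⟨_, fun s hs => ?_, (h1map_mk _ _ _ _ _ z).symm⟩
  show φ (z.1 s) = 0
  rw [hz s hs, map_zero]

theorem SES.unr1_reflect {q : Nat.Primes} (h : IsUnrAt q B) {x : lH1 q A}
    (hx : h1push (loc q) (E.atPrime q).i (E.atPrime q).i_eqv x ∈ unr1 q B) : x ∈ unr1 q A := by
  obtain ⟨z, rfl⟩ := Submodule.mkQ_surjective _ x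
  refine (mem_unr1_iff (E.isUnrAt_left h) z).mpr fun s hs => E.inj ?_
  rw [map_zero]
  exact (mem_unr1_iff h _).mp hx s hs

/-- unramified classes lift to unramified classes -/
theorem SES.unr1_lift (hA : IsAdm (MonoidHom.id GQ) A) {q : Nat.Primes} (h : IsUnrAt q B)
    {x : lH1 q C} (hx : x ∈ unr1 q C) :
    ∃ b ∈ unr1 q B, h1push (loc q) (E.atPrime q).pr (E.atPrime q).pr_eqv b = x := by
  classical
  haveI := inert_normal q
  obtain ⟨z, hz, rfl⟩ := Submodule.mem_map.mp hx
  let El := E.atPrime q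
  have hzc := (mem_cocycles₁_iff _).mp z.2.1
  have hinv : ∀ g s, s ∈ inert q → z.1 (g * s) = z.1 g := fun g s hs => by
    rw [hzc, hz s hs, map_zero, zero_add]
  set f : Gam q → B := El.sec ∘ z.1 with hf
  have hfi : ∀ g s, s ∈ inert q → f (g * s) = f g := fun g s hs => congrArg El.sec (hinv g s hs)
  have hρ : ∀ g s, s ∈ inert q → (Rep.res (loc q) B).ρ (g * s) = (Rep.res (loc q) B).ρ g := by
    intro g s hs
    rw [map_mul]
    show _ * B.ρ (loc q s) = _
    rw [h s hs, mul_one]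
  have hc : ∀ g g' s s', s ∈ inert q → s' ∈ inert q →
      (El.del1Z z).1 (g * s, g' * s') = (El.del1Z z).1 (g, g') := by
    intro g g' s s' hs hs'
    refine El.inj ?_
    rw [El.i_del1Z, El.i_del1Z, d₁₂_hom_apply, d₁₂_hom_apply]
    show (Rep.res (loc q) B).ρ (g * s) (f (g' * s')) - f (g * s * (g' * s')) + f (g * s) = _
    rw [hρ g s hs, hfi g' s' hs', hfi g s hs,
      show g * s * (g' * s') = g * g' * ((g'⁻¹ * s * g') * s') by group,
      hfi _ _ (mul_mem (by simpa using (inert_normal q).conj_mem s hs g'⁻¹) hs')]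
  obtain ⟨y, hy, hyi, hyd⟩ := exists_unr_trivialisation hA (E.isUnrAt_left h) (El.del1Z z) hc
  have hfl : IsLevelConstant₁ (loc q) f := IsLevelConstant₁.comp z.2.2 _
  set w : Gam q → B := fun g => f g - E.i (y g) with hw
  have hwl : IsLevelConstant₁ (loc q) w := by
    have : w = f + (fun g => -E.i (y g)) := funext fun g => by simp [hw, sub_eq_add_neg]
    rw [this]
    exact hfl.add (hy.comp fun a => -E.i a)
  have hwc : ∀ g g', w (g * g') = (Rep.res (loc q) B).ρ g (w g') + w g := by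
    intro g g'
    have h1 := El.i_del1Z z (g, g')
    rw [← hyd, d₁₂_hom_apply, d₁₂_hom_apply] at h1
    change E.i ((A.ρ (loc q g)) (y g') - y (g * g') + y g) =
      B.ρ (loc q g) (f g') - f (g * g') + f g at h1
    rw [map_add, map_sub, E.i_eqv] at h1
    show f (g * g') - E.i (y (g * g')) = B.ρ (loc q g) (f g' - E.i (y g')) + (f g - E.i (y g))
    rw [map_sub]
    linear_combination (norm := module) h1
  have hwZ : w ∈ Z1 (loc q) (Rep.res (loc q) B) :=
    ⟨(mem_cocycles₁_iff (A := Rep.res (loc q) B) w).mpr hwc, hwl⟩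
  refine ⟨h1mk _ _ ⟨w, hwZ⟩, Submodule.mem_map.mpr ⟨_, fun s hs => ?_, rfl⟩, ?_⟩
  · have h1 : w 1 = 0 := cocycles₁_map_one (A := Rep.res (loc q) B) ⟨w, hwZ.1⟩
    have h2 : w (1 * s) = w 1 := by simp only [hw]; rw [hfi 1 s hs, hyi 1 s hs]
    rwa [one_mul, h1] at h2
  · refine congrArg (h1mk _ _) (Subtype.ext (funext fun g => ?_))
    show E.pr (f g - E.i (y g)) = z.1 g
    rw [map_sub, E.pr_i, sub_zero]
    exact El.pr_sec (z.1 g)

/-- the Euler characteristic defect -/
def eulerE (T : Finset Nat.Primes) (M : Rep.{0} (ZMod p) GQ) : ℤ :=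
  (Module.finrank (ZMod p) (cH0 M) : ℤ) - Module.finrank (ZMod p) (H1T T M) +
    Module.finrank (ZMod p) (H2T T M) + Module.finrank (ZMod p) M -
    Module.finrank (ZMod p) (h0inf M)

/-- `T` is large enough for the dual of `M` -/
def IsBig (T : Finset Nat.Primes) (M : Rep.{0} (ZMod p) GQ) : Prop :=
  ∀ y : cH1 (MonoidHom.id GQ) (dual' M), y ∈ H1T T (dual' M) →
    (∀ q ∈ T, res1 q (dual' M) y = 0) → y ∈ sha1g (dual' M)

theorem res1_sub_unr {M : Rep.{0} (ZMod p) GQ} {T U : Finset Nat.Primes}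
    {a : cH1 (MonoidHom.id GQ) M} (ha : a ∈ H1T (T ∪ U) M) {q : Nat.Primes} (hqT : q ∉ T)
    (hqU : q ∉ U) : res1 q M a ∈ unr1 q M :=
  mem_H1T_iff.mp ha q (by simp [hqT, hqU])

/-- exactness at the middle of the classes unramified outside `T` of degree one -/
theorem SES.pr_H1T {T : Finset Nat.Primes} {b : cH1 (MonoidHom.id GQ) B} (hb : b ∈ H1T T B) :
    h1push (MonoidHom.id GQ) E.pr E.pr_eqv b ∈ H1T T C :=
  mem_H1T_iff.mpr fun q hq => by
    rw [res1_h1push]; exact unr1_h1push _ _ q (mem_H1T_iff.mp hb q hq)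

theorem SES.i_H1T {T : Finset Nat.Primes} {a : cH1 (MonoidHom.id GQ) A} (ha : a ∈ H1T T A) :
    h1push (MonoidHom.id GQ) E.i E.i_eqv a ∈ H1T T B :=
  mem_H1T_iff.mpr fun q hq => by
    rw [res1_h1push]; exact unr1_h1push _ _ q (mem_H1T_iff.mp ha q hq)

variable {T : Finset Nat.Primes}

theorem SES.del0_H1T (hB : IsUnrOutside T B) (x : cH0 C) : E.del0 x ∈ H1T T A :=
  mem_H1T_iff.mpr fun q hq => by
    show res1 q A (h1mk _ _ (E.del0Z x)) ∈ unr1 q A
    rw [res1, h1map_mk]
    refine Submodule.mem_map.mpr ⟨_, fun s hs => E.inj ?_, rfl⟩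
    show E.i ((E.del0Z x).1 (loc q s)) = E.i 0
    rw [E.i_del0Z, hB q hq s hs, map_zero, Module.End.one_apply, sub_self]

theorem SES.res2_del1 (q : Nat.Primes) (x : cH1 (MonoidHom.id GQ) C) :
    res2 q A (E.del1 x) = (E.atPrime q).del1 (res1 q C x) :=
  E.del1_natural (loc q) (loc q) (fun _ => rfl) x

theorem SES.del1_unr (hA : IsAdm (MonoidHom.id GQ) A) {q : Nat.Primes} (h : IsUnrAt q B)
    {x : lH1 q C} (hx : x ∈ unr1 q C) : (E.atPrime q).del1 x = 0 := by
  obtain ⟨b, -, rfl⟩ := E.unr1_lift hA h hx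
  exact LinearMap.mem_ker.mp ((E.atPrime q).ker_del1.symm ▸ LinearMap.mem_range_self _ b)

theorem SES.del1_H2T (hA : IsAdm (MonoidHom.id GQ) A) (hB : IsUnrOutside T B)
    {x : cH1 (MonoidHom.id GQ) C} (hx : x ∈ H1T T C) : E.del1 x ∈ H2T T A :=
  mem_H2T.mpr fun q hq => by
    rw [E.res2_del1]; exact E.del1_unr hA (hB q hq) (mem_H1T_iff.mp hx q hq)

theorem SES.pr_H2T {b : cH2 (MonoidHom.id GQ) B} (hb : b ∈ H2T T B) :
    h2push (MonoidHom.id GQ) E.pr E.pr_eqv b ∈ H2T T C :=
  mem_H2T.mpr fun q hq => by rw [res2_h2push, mem_H2T.mp hb q hq, map_zero]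

theorem SES.i_H2T {a : cH2 (MonoidHom.id GQ) A} (ha : a ∈ H2T T A) :
    h2push (MonoidHom.id GQ) E.i E.i_eqv a ∈ H2T T B :=
  mem_H2T.mpr fun q hq => by rw [res2_h2push, mem_H2T.mp ha q hq, map_zero]

variable (hp2 : p ≠ 2) (hA : IsAdm (MonoidHom.id GQ) A) (hC : IsAdm (MonoidHom.id GQ) C)
  (hB : IsUnrOutside T B) (hpT : ∀ q : Nat.Primes, (q : ℕ) = p → q ∈ T)

include hp2 hA hB hpT in
/-- classes killed by the connecting map come from classes unramified outside `T` -/
theorem SES.exists_H1T_lift (hbig : IsBig T A) {x : cH1 (MonoidHom.id GQ) C} (hx : x ∈ H1T T C)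
    (h0 : E.del1 x = 0) :
    ∃ b ∈ H1T T B, h1push (MonoidHom.id GQ) E.pr E.pr_eqv b = x := by
  classical
  obtain ⟨b, rfl⟩ : x ∈ LinearMap.range (h1push (MonoidHom.id GQ) E.pr E.pr_eqv) :=
    E.ker_del1 ▸ LinearMap.mem_ker.mpr h0
  set U := (finite_ram1 E.adm b).toFinset \ T with hUdef
  have hU : ∀ q ∉ T, q ∉ U → res1 q B b ∈ unr1 q B := fun q hq hqU => by
    by_contra h
    exact hqU (by simp [hUdef, hq, h])
  have hz : ∀ q ∈ U, ∃ a : lH1 q A,
      res1 q B b - h1push (loc q) (E.atPrime q).i (E.atPrime q).i_eqv a ∈ unr1 q B := by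
    intro q hq
    have hqT : q ∉ T := (Finset.mem_sdiff.mp hq).2
    have h1 := mem_H1T_iff.mp hx q hqT
    rw [res1_h1push] at h1
    obtain ⟨b', hb', hbb⟩ := E.unr1_lift hA (hB q hqT) h1
    have h2 : res1 q B b - b' ∈
        LinearMap.range (h1push (loc q) (E.atPrime q).i (E.atPrime q).i_eqv) := by
      rw [(E.atPrime q).exact_h1, LinearMap.mem_ker, map_sub, hbb]
      exact sub_self _
    obtain ⟨a, ha⟩ := h2
    exact ⟨a, by rw [ha, sub_sub_cancel]; exact hb'⟩
  choose! z hz using hz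
  obtain ⟨a, ha, haU⟩ := exists_global_with_ramification hp2 hA T
    (fun q hq => E.isUnrAt_left (hB q hq)) hpT hbig U
    (Finset.disjoint_sdiff.mono le_rfl le_rfl) z
  refine ⟨b - h1push (MonoidHom.id GQ) E.i E.i_eqv a, mem_H1T_iff.mpr fun q hq => ?_, ?_⟩
  · rw [map_sub, res1_h1push]
    by_cases hqU : q ∈ U
    · have h3 := sub_mem (hz q hqU) (unr1_h1push E.i E.i_eqv q (haU q hqU))
      rw [map_sub] at h3
      convert h3 using 1
      exact (sub_sub_sub_cancel_right _ _ _).symm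
    · exact sub_mem (hU q hq hqU) (unr1_h1push _ _ q (res1_sub_unr ha hq hqU))
  · rw [map_sub, sub_eq_self]
    exact LinearMap.mem_ker.mp (E.exact_h1 ▸ LinearMap.mem_range_self _ a)

include hp2 hA hB hpT in
/-- classes of degree two killed in `B` come from classes unramified outside `T` -/
theorem SES.exists_H1T_del (hbig : IsBig T B) {c : cH2 (MonoidHom.id GQ) A} (hc : c ∈ H2T T A)
    (h0 : h2push (MonoidHom.id GQ) E.i E.i_eqv c = 0) : ∃ x ∈ H1T T C, E.del1 x = c := by
  classical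
  obtain ⟨x, rfl⟩ : c ∈ LinearMap.range E.del1 := E.range_del1 ▸ LinearMap.mem_ker.mpr h0
  set U := (finite_ram1 (E.adm_right) x).toFinset \ T with hUdef
  have hU : ∀ q ∉ T, q ∉ U → res1 q C x ∈ unr1 q C := fun q hq hqU => by
    by_contra h
    exact hqU (by simp [hUdef, hq, h])
  have hz : ∀ q ∈ U, ∃ b : lH1 q B,
      h1push (loc q) (E.atPrime q).pr (E.atPrime q).pr_eqv b = res1 q C x := by
    intro q hq
    have h1 : (E.atPrime q).del1 (res1 q C x) = 0 :=
      (E.res2_del1 q x).symm.trans (mem_H2T.mp hc q (Finset.mem_sdiff.mp hq).2)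
    exact LinearMap.mem_range.mp ((E.atPrime q).ker_del1 ▸ LinearMap.mem_ker.mpr h1)
  choose! z hz using hz
  obtain ⟨b, hb, hbU⟩ := exists_global_with_ramification hp2 E.adm T hB hpT hbig U
    (Finset.disjoint_sdiff.mono le_rfl le_rfl) z
  refine ⟨x - h1push (MonoidHom.id GQ) E.pr E.pr_eqv b, mem_H1T_iff.mpr fun q hq => ?_, ?_⟩
  · rw [map_sub, res1_h1push]
    by_cases hqU : q ∈ U
    · have h3 := neg_mem (unr1_h1push E.pr E.pr_eqv q (hbU q hqU))
      rw [map_sub, neg_sub] at h3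
      rw [← hz q hqU]
      exact h3
    · exact sub_mem (hU q hq hqU) (unr1_h1push _ _ q (res1_sub_unr hb hq hqU))
  · rw [map_sub, sub_eq_self]
    exact LinearMap.mem_ker.mp (E.ker_del1.symm ▸ LinearMap.mem_range_self _ b)

include hp2 hA hB hpT in
/-- right exactness in degree two -/
theorem SES.exists_H2T_lift (R : Recip p) {q₀ : Nat.Primes} (hq₀ : q₀ ∈ T)
    {c : cH2 (MonoidHom.id GQ) C} (hc : c ∈ H2T T C) :
    ∃ b ∈ H2T T B, h2push (MonoidHom.id GQ) E.pr E.pr_eqv b = c := by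
  classical
  obtain ⟨b, rfl⟩ := cH2_surjective hp2 E.adm E.adm_right E.pr E.pr_eqv E.surj c
  have hlift : ∀ q, q ∉ T → ∃ a : lH2 q A,
      h2push (loc q) (E.atPrime q).i (E.atPrime q).i_eqv a = res2 q B b := by
    intro q hq
    have h1 : h2push (loc q) (E.atPrime q).pr (E.atPrime q).pr_eqv (res2 q B b) = 0 :=
      (res2_h2push E.pr E.pr_eqv q b).symm.trans (mem_H2T.mp hc q hq)
    exact LinearMap.mem_range.mp ((E.atPrime q).exact_h2 ▸ LinearMap.mem_ker.mpr h1)
  set U := (finite_res2 E.adm b).toFinset \ T with hUdef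
  have hU : ∀ q ∈ U, q ∉ T := fun q hq => (Finset.mem_sdiff.mp hq).2
  choose! z hz using hlift
  let z' : ∀ q, lH2 q A := fun q => if q ∈ U then z q else 0
  let out : Module.Dual (ZMod p) (cH0 (dual' A)) :=
    ∑ q ∈ U, ((R.inv q).toLinearMap.comp ((pair02 q A).flip (z q))).comp
      (LinearMap.codRestrict (lH0 q (dual' A)) (cH0 (dual' A)).subtype fun n g => n.2 (loc q g))
  obtain ⟨t, ht⟩ := pairT_surjective R hA hq₀ (-out)
  let fam : ∀ q, lH2 q A := fun q => if h : q ∈ T then t ⟨q, h⟩ else z' q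
  have hsupp : ∀ q, q ∉ T ∪ U → fam q = 0 := fun q hq => by
    simp only [Finset.mem_union, not_or] at hq
    simp [fam, z', hq.1, hq.2]
  obtain ⟨a, ha⟩ := (exists_cH2_iff hp2 R hA fam ((T ∪ U).finite_toSet.subset fun q hq => by
      by_contra h; exact hq (hsupp q h))).mpr fun n => by
    rw [finsum_eq_sum_of_support_subset (s := T ∪ U),
      Finset.sum_union (Finset.disjoint_sdiff : Disjoint T U)]
    · have h1 : ∑ q ∈ T, R.inv q (pair02 q A ⟨n.1, fun g => n.2 (loc q g)⟩ (fam q)) =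
          pairT R T A t n := by
        rw [pairT_apply, ← Finset.sum_coe_sort T]
        exact Finset.sum_congr rfl fun q _ => by simp [fam]
      have h2 : ∑ q ∈ U, R.inv q (pair02 q A ⟨n.1, fun g => n.2 (loc q g)⟩ (fam q)) = out n := by
        simp only [out, LinearMap.coe_sum, Finset.sum_apply]
        refine Finset.sum_congr rfl fun q hq => ?_
        simp only [fam, z', dif_neg (hU q hq), if_pos hq]
        rfl
      rw [h1, h2, ht, LinearMap.neg_apply, neg_add_cancel]
    · intro q hq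
      by_contra h
      exact hq (by simp [hsupp q (fun h' => h (Finset.mem_coe.mpr h'))])
  refine ⟨b - h2push (MonoidHom.id GQ) E.i E.i_eqv a, mem_H2T.mpr fun q hq => ?_, ?_⟩
  · rw [map_sub, res2_h2push, ha q]
    by_cases hqU : q ∈ U
    · simp only [fam, z', dif_neg hq, if_pos hqU]
      exact sub_eq_zero.mpr (hz q hq).symm
    · simp only [fam, z', dif_neg hq, if_neg hqU, map_zero, sub_zero]
      by_contra h
      exact hqU (by simp [hUdef, hq, h])
  · rw [map_sub, sub_eq_self]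
    exact LinearMap.mem_ker.mp (E.exact_h2 ▸ LinearMap.mem_range_self _ a)

/-- invariants of complex conjugation surject -/
theorem SES.h0inf_surj (hp2 : p ≠ 2) (c : h0inf C) : ∃ b ∈ h0inf B, E.pr b = c.1 := by
  have h2 : (2 : ZMod p) ≠ 0 := fun h => hp2
    ((Nat.prime_dvd_prime_iff_eq (Fact.out : p.Prime) Nat.prime_two).mp
      ((ZMod.natCast_eq_zero_iff 2 p).mp (by exact_mod_cast h)))
  obtain ⟨b, hb⟩ := E.surj c.1
  set σ := B.ρ complexConjugation with hσ
  have hcc : E.pr (σ b) = c.1 := by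
    rw [hσ, E.pr_eqv, hb]
    exact c.2 ExtCitation.archimedeanGen
  refine ⟨(2 : ZMod p)⁻¹ • (b + σ b), fun g => ?_, ?_⟩
  · obtain ⟨k, hk⟩ := g.2
    have hfix : σ ((2 : ZMod p)⁻¹ • (b + σ b)) = (2 : ZMod p)⁻¹ • (b + σ b) := by
      rw [map_smul, map_add, hσ, ← Module.End.mul_apply, ← map_mul, complexConjugation_mul_self,
        map_one, Module.End.one_apply, add_comm]
    let S : Subgroup GQ :=
      { carrier := {h | B.ρ h ((2 : ZMod p)⁻¹ • (b + σ b)) = (2 : ZMod p)⁻¹ • (b + σ b)}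
        one_mem' := by simp
        mul_mem' := fun {x y} hx hy => by
          show B.ρ (x * y) _ = _
          rw [map_mul, Module.End.mul_apply]
          exact (congrArg (B.ρ x) hy).trans hx
        inv_mem' := fun {x} hx => by
          show B.ρ x⁻¹ _ = _
          conv_lhs => rw [← (show B.ρ x _ = _ from hx)]
          exact Representation.inv_self_apply _ _ _ }
    exact (Subgroup.zpowers_le.mpr (show complexConjugation ∈ S from hfix)) g.2
  · rw [map_smul, map_add, hb, hcc, ← two_smul (ZMod p) c.1, smul_smul, inv_mul_cancel₀ h2,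
      one_smul]

theorem finrank_of_exact {U V W : Type} [AddCommGroup U] [Module (ZMod p) U] [AddCommGroup V]
    [Module (ZMod p) V] [AddCommGroup W] [Module (ZMod p) W] [Module.Finite (ZMod p) V]
    {f : U →ₗ[ZMod p] V} {g : V →ₗ[ZMod p] W}
    (h : ∀ v, g v = 0 ↔ ∃ u, f u = v) :
    Module.finrank (ZMod p) V =
      Module.finrank (ZMod p) (LinearMap.range f) + Module.finrank (ZMod p) (LinearMap.range g) := by
  have h1 := LinearMap.finrank_range_add_finrank_ker g
  rw [show LinearMap.ker g = LinearMap.range f from Submodule.ext fun v => by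
    rw [LinearMap.mem_ker, LinearMap.mem_range]; exact h v] at h1
  omega

include hp2 hA hC hB hpT in
/-- exactness in the middle of degree two -/
theorem SES.exists_H2T_mid (hbC : IsBig T C) {c : cH2 (MonoidHom.id GQ) B} (hc : c ∈ H2T T B)
    (h0 : h2push (MonoidHom.id GQ) E.pr E.pr_eqv c = 0) :
    ∃ a ∈ H2T T A, h2push (MonoidHom.id GQ) E.i E.i_eqv a = c := by
  classical
  obtain ⟨a, ha⟩ : c ∈ LinearMap.range (h2push (MonoidHom.id GQ) E.i E.i_eqv) :=
    E.exact_h2.symm ▸ LinearMap.mem_ker.mpr h0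
  set U := (finite_res2 hA a).toFinset \ T with hUdef
  have hz : ∀ q ∈ U, ∃ x : lH1 q C, (E.atPrime q).del1 x = res2 q A a := by
    intro q hq
    have h2 : h2push (loc q) (E.atPrime q).i (E.atPrime q).i_eqv (res2 q A a) = 0 := by
      have h3 := mem_H2T.mp hc q (Finset.mem_sdiff.mp hq).2
      rwa [← ha, res2_h2push] at h3
    exact LinearMap.mem_range.mp ((E.atPrime q).range_del1 ▸ LinearMap.mem_ker.mpr h2)
  choose! z hz using hz
  obtain ⟨x, hx, hxU⟩ := exists_global_with_ramification hp2 hC T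
    (fun q hq => E.isUnrAt_right (hB q hq)) hpT hbC U (Finset.disjoint_sdiff.mono le_rfl le_rfl) z
  refine ⟨a - E.del1 x, mem_H2T.mpr fun q hq => ?_, ?_⟩
  · rw [map_sub, E.res2_del1]
    by_cases hqU : q ∈ U
    · have h4 := E.del1_unr hA (hB q hq) (hxU q hqU)
      rw [map_sub, hz q hqU] at h4
      rw [← neg_sub, h4, neg_zero]
    · rw [E.del1_unr hA (hB q hq) (res1_sub_unr hx hq hqU), sub_zero]
      by_contra h5
      exact hqU (by simp [hUdef, hq, h5])
  · show h2push (MonoidHom.id GQ) E.i E.i_eqv (a - E.del1 x) = c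
    rw [map_sub, ha, LinearMap.mem_ker.mp (E.range_del1 ▸ LinearMap.mem_range_self _ x :
      E.del1 x ∈ LinearMap.ker (h2push (MonoidHom.id GQ) E.i E.i_eqv)), sub_zero]

include E hp2 hA hC hB hpT in
set_option maxHeartbeats 800000 in
/-- additivity of the Euler characteristic -/
theorem SES.eulerE_add (R : Recip p) {q₀ : Nat.Primes} (hq₀ : q₀ ∈ T)
    (hbA : IsBig T A) (hbB : IsBig T B) (hbC : IsBig T C) : eulerE T B = eulerE T A + eulerE T C := by
  classical
  haveI := hA.finite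
  haveI := hC.finite
  haveI := E.adm.finite
  let i0 : cH0 A →ₗ[ZMod p] cH0 B :=
    E.i.restrict fun a ha g => by rw [← E.i_eqv, ha g]
  let p0 : cH0 B →ₗ[ZMod p] cH0 C :=
    E.pr.restrict fun b hb g => by rw [← E.pr_eqv, hb g]
  let d0 : cH0 C →ₗ[ZMod p] H1T T A := LinearMap.codRestrict _ E.del0 (E.del0_H1T hB)
  let i1 : H1T T A →ₗ[ZMod p] H1T T B :=
    (h1push (MonoidHom.id GQ) E.i E.i_eqv).restrict fun _ ha => E.i_H1T ha
  let p1 : H1T T B →ₗ[ZMod p] H1T T C :=
    (h1push (MonoidHom.id GQ) E.pr E.pr_eqv).restrict fun _ hb => E.pr_H1T hb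
  let d1 : H1T T C →ₗ[ZMod p] H2T T A :=
    E.del1.restrict fun _ hx => E.del1_H2T hA hB hx
  let i2 : H2T T A →ₗ[ZMod p] H2T T B :=
    (h2push (MonoidHom.id GQ) E.i E.i_eqv).restrict fun _ ha => E.i_H2T ha
  let p2 : H2T T B →ₗ[ZMod p] H2T T C :=
    (h2push (MonoidHom.id GQ) E.pr E.pr_eqv).restrict fun _ hb => E.pr_H2T hb
  let ii : h0inf A →ₗ[ZMod p] h0inf B :=
    E.i.restrict fun a ha g => (E.i_eqv _ a).symm.trans (congrArg E.i (ha g))
  let pi : h0inf B →ₗ[ZMod p] h0inf C :=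
    E.pr.restrict fun b hb g => (E.pr_eqv _ b).symm.trans (congrArg E.pr (hb g))
  haveI := finite_H1T hp2 hA T
  haveI := finite_H1T hp2 E.adm T
  haveI := finite_H1T hp2 hC T
  haveI := (finrank_H2T hp2 R hA hq₀).1
  haveI := (finrank_H2T hp2 R E.adm hq₀).1
  haveI := (finrank_H2T hp2 R hC hq₀).1
  have e0A := LinearMap.finrank_range_of_inj (f := i0) fun a b h =>
    Subtype.ext (E.inj (congrArg Subtype.val h :))
  have e0B := finrank_of_exact (f := i0) (g := p0) fun b => by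
    constructor
    · intro h
      obtain ⟨a, ha⟩ := (E.exact b.1).1 (congrArg Subtype.val h)
      exact ⟨⟨a, fun g => E.inj (by rw [E.i_eqv, ha, b.2 g])⟩, Subtype.ext ha⟩
    · rintro ⟨a, rfl⟩; exact Subtype.ext (E.pr_i a.1)
  have e0C := finrank_of_exact (f := p0) (g := d0) fun x => by
    rw [← Subtype.coe_inj]
    show E.del0 x = 0 ↔ _
    rw [E.ker_del0]
    exact ⟨fun ⟨b, hb, h⟩ => ⟨⟨b, hb⟩, Subtype.ext h⟩,
      fun ⟨b, h⟩ => ⟨b.1, b.2, congrArg Subtype.val h⟩⟩
  have e1A := finrank_of_exact (f := d0) (g := i1) fun x => by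
    rw [← Subtype.coe_inj]
    show h1push (MonoidHom.id GQ) E.i E.i_eqv x.1 = 0 ↔ _
    rw [← LinearMap.mem_ker, ← E.range_del0, LinearMap.mem_range]
    exact exists_congr fun y => ⟨fun h => Subtype.ext h, fun h => congrArg Subtype.val h⟩
  have e1B := finrank_of_exact (f := i1) (g := p1) fun x => by
    constructor
    · intro h
      have h' : x.1 ∈ LinearMap.range (h1push (MonoidHom.id GQ) E.i E.i_eqv) :=
        E.exact_h1.symm ▸ LinearMap.mem_ker.mpr (congrArg Subtype.val h)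
      obtain ⟨a, ha⟩ := h'
      refine ⟨⟨a, mem_H1T_iff.mpr fun q hq => E.unr1_reflect (hB q hq) ?_⟩, Subtype.ext ha⟩
      have h2 := mem_H1T_iff.mp x.2 q hq
      rw [← ha, res1_h1push] at h2
      exact h2
    · rintro ⟨a, rfl⟩
      refine Subtype.ext ?_
      show h1push (MonoidHom.id GQ) E.pr E.pr_eqv (h1push (MonoidHom.id GQ) E.i E.i_eqv a.1) = 0
      exact LinearMap.mem_ker.mp (E.exact_h1 ▸ LinearMap.mem_range_self _ a.1)
  have e1C := finrank_of_exact (f := p1) (g := d1) fun x => by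
    constructor
    · intro h
      obtain ⟨b, hb, hbx⟩ := E.exists_H1T_lift hp2 hA hB hpT hbA x.2 (congrArg Subtype.val h)
      exact ⟨⟨b, hb⟩, Subtype.ext hbx⟩
    · rintro ⟨b, rfl⟩
      refine Subtype.ext ?_
      show E.del1 (h1push (MonoidHom.id GQ) E.pr E.pr_eqv b.1) = 0
      exact LinearMap.mem_ker.mp (E.ker_del1.symm ▸ LinearMap.mem_range_self _ b.1)
  have e2A := finrank_of_exact (f := d1) (g := i2) fun c => by
    constructor
    · intro h
      obtain ⟨x, hx, hxc⟩ := E.exists_H1T_del hp2 hA hB hpT hbB c.2 (congrArg Subtype.val h)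
      exact ⟨⟨x, hx⟩, Subtype.ext hxc⟩
    · rintro ⟨x, rfl⟩
      refine Subtype.ext ?_
      show h2push (MonoidHom.id GQ) E.i E.i_eqv (E.del1 x.1) = 0
      exact LinearMap.mem_ker.mp (E.range_del1 ▸ LinearMap.mem_range_self _ x.1)
  have e2B := finrank_of_exact (f := i2) (g := p2) fun c => by
    constructor
    · intro h
      obtain ⟨a, ha, hac⟩ := E.exists_H2T_mid hp2 hA hC hB hpT hbC c.2 (congrArg Subtype.val h)
      exact ⟨⟨a, ha⟩, Subtype.ext hac⟩
    · rintro ⟨a, rfl⟩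
      refine Subtype.ext ?_
      show h2push (MonoidHom.id GQ) E.pr E.pr_eqv (h2push (MonoidHom.id GQ) E.i E.i_eqv a.1) = 0
      exact LinearMap.mem_ker.mp (E.exact_h2 ▸ LinearMap.mem_range_self _ a.1)
  have e2C := LinearMap.range_eq_top.mpr (show Function.Surjective p2 from fun c => by
    obtain ⟨b, hb, hbc⟩ := E.exists_H2T_lift hp2 hA hB hpT R hq₀ c.2
    exact ⟨⟨b, hb⟩, Subtype.ext hbc⟩)
  have eiA := LinearMap.finrank_range_of_inj (f := ii) fun a b h =>
    Subtype.ext (E.inj (congrArg Subtype.val h :))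
  have eiB := finrank_of_exact (f := ii) (g := pi) fun b => by
    constructor
    · intro h
      obtain ⟨a, ha⟩ := (E.exact b.1).1 (congrArg Subtype.val h)
      exact ⟨⟨a, fun g => E.inj ((E.i_eqv _ a).trans (by rw [ha]; exact b.2 g))⟩, Subtype.ext ha⟩
    · rintro ⟨a, rfl⟩; exact Subtype.ext (E.pr_i a.1)
  have eiC := LinearMap.range_eq_top.mpr (show Function.Surjective pi from fun c => by
    obtain ⟨b, hb, hbc⟩ := E.h0inf_surj hp2 c
    exact ⟨⟨b, hb⟩, Subtype.ext hbc⟩)
  have edim : Module.finrank (ZMod p) B = Module.finrank (ZMod p) A + Module.finrank (ZMod p) C := by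
    have h1 := LinearMap.finrank_range_add_finrank_ker E.pr
    rw [LinearMap.range_eq_top.mpr E.surj, finrank_top,
      (LinearMap.exact_iff.mp E.exact), LinearMap.finrank_range_of_inj E.inj] at h1
    omega
  rw [e2C, finrank_top] at e2B
  rw [eiC, finrank_top] at eiB
  simp only [eulerE]
  omega

end FLTAgent.PT

end
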