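import Fermat.Agent.PT.Euler.Exact
import Fermat.Agent.PT.Euler.Arch

/-!
Parcel F: the Greenberg–Wiles formula from the vanishing of the Euler characteristic.
-/

set_option autoImplicit false
set_option linter.style.haveILetI false

noncomputable section

open CategoryTheory groupCohomology

namespace FLTAgent.PT

variable {p : ℕ} [Fact p.Prime]

/-- the Selmer group of local conditions at `T`, unramified outside -/
def Sel {M : Rep.{0} (ZMod p) GQ} (T : Finset Nat.Primes)
    (L : ∀ q, Submodule (ZMod p) (lH1 q M)) : Submodule (ZMod p) (cH1 (MonoidHom.id GQ) M) :=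
  H1T T M ⊓ ⨅ q ∈ T, (L q).comap (res1 q M)

/-- the dual local condition -/
def Lperp {M : Rep.{0} (ZMod p) GQ} (hM : IsAdm (MonoidHom.id GQ) M)
    (L : ∀ q, Submodule (ZMod p) (lH1 q M)) (q : Nat.Primes) :
    Submodule (ZMod p) (lH1 q (dual' M)) :=
  ⨅ x : L q, LinearMap.ker (pair11 q hM x.1)

variable {M : Rep.{0} (ZMod p) GQ}

theorem mem_Sel {T : Finset Nat.Primes} {L : ∀ q, Submodule (ZMod p) (lH1 q M)}
    {x : cH1 (MonoidHom.id GQ) M} :
    x ∈ Sel T L ↔ x ∈ H1T T M ∧ ∀ q ∈ T, res1 q M x ∈ L q := by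
  simp [Sel]

theorem mem_Lperp {hM : IsAdm (MonoidHom.id GQ) M} {L : ∀ q, Submodule (ZMod p) (lH1 q M)}
    {q : Nat.Primes} {y : lH1 q (dual' M)} :
    y ∈ Lperp hM L q ↔ ∀ x ∈ L q, pair11 q hM x y = 0 := by
  simp [Lperp]

/-- linear algebra of a Selmer group -/
theorem finrank_comap {ι V : Type} [Fintype ι] {W : ι → Type} [∀ i, AddCommGroup (W i)]
    [∀ i, Module (ZMod p) (W i)] [AddCommGroup V] [Module (ZMod p) V] [Module.Finite (ZMod p) V]
    (f : V →ₗ[ZMod p] ∀ i, W i) (S : Submodule (ZMod p) (∀ i, W i)) :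
    Module.finrank (ZMod p) (S.comap f) =
      Module.finrank (ZMod p) (LinearMap.ker f) +
        Module.finrank (ZMod p) (LinearMap.range f ⊓ S : Submodule (ZMod p) (∀ i, W i)) := by
  let g : S.comap f →ₗ[ZMod p] ∀ i, W i := f.comp (S.comap f).subtype
  have h1 := LinearMap.finrank_range_add_finrank_ker g
  have h2 : LinearMap.range g = LinearMap.range f ⊓ S := by
    rw [LinearMap.range_comp, Submodule.range_subtype, Submodule.map_comap_eq]
  have hle : LinearMap.ker f ≤ S.comap f := fun v hv => by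
    rw [Submodule.mem_comap, LinearMap.mem_ker.mp hv]; exact zero_mem S
  have h3 : Module.finrank (ZMod p) (LinearMap.ker g) = Module.finrank (ZMod p) (LinearMap.ker f) := by
    rw [LinearMap.ker_comp]
    exact (Submodule.comapSubtypeEquivOfLe hle).finrank_eq
  rw [h2, h3] at h1
  omega

theorem finrank_pi_submodule {ι : Type} [Fintype ι] {W : ι → Type} [∀ i, AddCommGroup (W i)]
    [∀ i, Module (ZMod p) (W i)] [∀ i, Module.Finite (ZMod p) (W i)]
    (S : ∀ i, Submodule (ZMod p) (W i)) :
    Module.finrank (ZMod p) (Submodule.pi Set.univ S) =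
      ∑ i, Module.finrank (ZMod p) (S i) := by
  rw [← Module.finrank_pi_fintype (ZMod p)]
  exact LinearEquiv.finrank_eq
    { toFun := fun x i => ⟨x.1 i, x.2 i trivial⟩
      map_add' := fun _ _ => rfl
      map_smul' := fun _ _ => rfl
      invFun := fun x => ⟨fun i => (x i).1, fun i _ => (x i).2⟩
      left_inv := fun _ => rfl
      right_inv := fun _ => rfl }

theorem selmer_count {ι V V' : Type} [Fintype ι] {W W' : ι → Type} [∀ i, AddCommGroup (W i)]
    [∀ i, Module (ZMod p) (W i)] [∀ i, Module.Finite (ZMod p) (W i)]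
    [∀ i, AddCommGroup (W' i)] [∀ i, Module (ZMod p) (W' i)] [∀ i, Module.Finite (ZMod p) (W' i)]
    [AddCommGroup V] [Module (ZMod p) V] [Module.Finite (ZMod p) V]
    [AddCommGroup V'] [Module (ZMod p) V'] [Module.Finite (ZMod p) V']
    (f : V →ₗ[ZMod p] ∀ i, W i) (f' : V' →ₗ[ZMod p] ∀ i, W' i)
    (β : (∀ i, W i) →ₗ[ZMod p] Module.Dual (ZMod p) (∀ i, W' i)) (hβ : Function.Bijective β)
    (hiso : ∀ v v', β (f v) (f' v') = 0)
    (hex : ∀ w, (∀ v', β w (f' v') = 0) → w ∈ LinearMap.range f)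
    (L : ∀ i, Submodule (ZMod p) (W i)) :
    Module.finrank (ZMod p) ((Submodule.pi Set.univ L).comap f) + Module.finrank (ZMod p) V' =
      Module.finrank (ZMod p)
          ((((Submodule.pi Set.univ L).map β).dualCoannihilator).comap f') +
        Module.finrank (ZMod p) (LinearMap.ker f) + ∑ i, Module.finrank (ZMod p) (L i) := by
  set A := LinearMap.range f
  set B := LinearMap.range f'
  set PL := Submodule.pi Set.univ L
  set P : Submodule (ZMod p) (∀ i, W i) → Submodule (ZMod p) (∀ i, W' i) :=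
    fun S => (S.map β).dualCoannihilator
  have hdim : Module.finrank (ZMod p) (∀ i, W i) = Module.finrank (ZMod p) (∀ i, W' i) := by
    rw [← Subspace.dual_finrank_eq (V := ∀ i, W' i)]
    exact (LinearEquiv.ofBijective β hβ).finrank_eq
  have hP : ∀ S : Submodule (ZMod p) (∀ i, W i), Module.finrank (ZMod p) S + Module.finrank (ZMod p) (P S) =
      Module.finrank (ZMod p) (∀ i, W' i) := fun S => by
    rw [(Submodule.equivMapOfInjective β hβ.1 S).finrank_eq]
    exact Subspace.finrank_add_finrank_dualCoannihilator_eq _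
  -- `A` is the annihilator of `B`
  have hA : A.map β = B.dualAnnihilator := by
    apply le_antisymm
    · rintro _ ⟨_, ⟨v, rfl⟩, rfl⟩
      rw [Submodule.mem_dualAnnihilator]
      rintro _ ⟨v', rfl⟩
      exact hiso v v'
    · intro φ hφ
      obtain ⟨w, rfl⟩ := hβ.2 φ
      rw [Submodule.mem_dualAnnihilator] at hφ
      exact ⟨w, hex w fun v' => hφ _ ⟨v', rfl⟩, rfl⟩
  have hB : P A = B := by
    show (A.map β).dualCoannihilator = B
    rw [hA, Subspace.dualAnnihilator_dualCoannihilator_eq]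
  have hsup : P (A ⊔ PL) = B ⊓ P PL := by
    conv_rhs => rw [← hB]
    show ((A ⊔ PL).map β).dualCoannihilator = _
    rw [Submodule.map_sup, Submodule.dualCoannihilator_sup_eq]
  have e1 := finrank_comap f PL
  have e2 := finrank_comap f' (P PL)
  rw [← hsup] at e2
  have e3 := Submodule.finrank_sup_add_finrank_inf_eq A PL
  have e4 := hP (A ⊔ PL)
  have e5 := hP A
  rw [hB] at e5
  have e6 := LinearMap.finrank_range_add_finrank_ker f'
  have e7 := finrank_pi_submodule L
  dsimp only [A, B, P, PL] at *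
  omega

theorem selmer_count_pairing {ι V V' : Type} [Fintype ι] {W W' : ι → Type}
    [∀ i, AddCommGroup (W i)] [∀ i, Module (ZMod p) (W i)] [∀ i, Module.Finite (ZMod p) (W i)]
    [∀ i, AddCommGroup (W' i)] [∀ i, Module (ZMod p) (W' i)] [∀ i, Module.Finite (ZMod p) (W' i)]
    [AddCommGroup V] [Module (ZMod p) V] [Module.Finite (ZMod p) V]
    [AddCommGroup V'] [Module (ZMod p) V'] [Module.Finite (ZMod p) V']
    (f : ∀ i, V →ₗ[ZMod p] W i) (f' : ∀ i, V' →ₗ[ZMod p] W' i)
    (π : ∀ i, W i →ₗ[ZMod p] Module.Dual (ZMod p) (W' i)) (hπ : ∀ i, Function.Bijective (π i))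
    (hiso : ∀ v v', ∑ i, π i (f i v) (f' i v') = 0)
    (hex : ∀ w : ∀ i, W i, (∀ v', ∑ i, π i (w i) (f' i v') = 0) → ∃ v, ∀ i, f i v = w i)
    (L : ∀ i, Submodule (ZMod p) (W i)) :
    Module.finrank (ZMod p) ((⨅ i, (L i).comap (f i) : Submodule (ZMod p) V)) +
        Module.finrank (ZMod p) V' =
      Module.finrank (ZMod p)
          ((⨅ i, ⨅ x : L i, LinearMap.ker ((π i x.1).comp (f' i)) : Submodule (ZMod p) V')) +
        Module.finrank (ZMod p) ((⨅ i, LinearMap.ker (f i) : Submodule (ZMod p) V)) +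
        ∑ i, Module.finrank (ZMod p) (L i) := by
  classical
  let β : (∀ i, W i) →ₗ[ZMod p] Module.Dual (ZMod p) (∀ i, W' i) :=
    ∑ i, (LinearMap.lcomp (ZMod p) (ZMod p) (LinearMap.proj i)).comp
      ((π i).comp (LinearMap.proj i))
  have hβ : ∀ w w', β w w' = ∑ i, π i (w i) (w' i) := fun w w' => by
    simp only [β, LinearMap.coe_sum, Finset.sum_apply]
    rfl
  have hsingle : ∀ w i b, β w (Pi.single i b) = π i (w i) b := fun w i b => by
    rw [hβ, Finset.sum_eq_single i (fun r _ hr => by rw [Pi.single_eq_of_ne hr, map_zero])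
      (fun h => absurd (Finset.mem_univ _) h), Pi.single_eq_same]
  have hbij : Function.Bijective β := by
    refine ⟨(injective_iff_map_eq_zero β).mpr fun w hw => funext fun i => (hπ i).1 ?_, fun φ => ?_⟩
    · show π i (w i) = π i 0
      rw [map_zero]
      refine LinearMap.ext fun b => ?_
      rw [← hsingle, hw]
      simp
    · choose a ha using fun i => (hπ i).2 (φ.comp (LinearMap.single (ZMod p) W' i))
      refine ⟨a, LinearMap.pi_ext fun i b => ?_⟩
      rw [hsingle, ha]
      rfl
  have main := selmer_count (LinearMap.pi f) (LinearMap.pi f') β hbij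
    (fun v v' => by rw [hβ]; exact hiso v v')
    (fun w hw => by
      obtain ⟨v, hv⟩ := hex w fun v' => by
        have := hw v'
        rwa [hβ] at this
      exact ⟨v, funext hv⟩) L
  have h1 : (Submodule.pi Set.univ L).comap (LinearMap.pi f) = ⨅ i, (L i).comap (f i) := by
    ext v; simp [Submodule.mem_pi, Submodule.mem_iInf]
  have h2 : (((Submodule.pi Set.univ L).map β).dualCoannihilator).comap (LinearMap.pi f') =
      ⨅ i, ⨅ x : L i, LinearMap.ker ((π i x.1).comp (f' i)) := by
    ext v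
    simp only [Submodule.mem_comap, Submodule.mem_dualCoannihilator, Submodule.mem_iInf,
      LinearMap.mem_ker, LinearMap.comp_apply]
    constructor
    · intro h i x
      have := h _ ⟨Pi.single i x.1, fun r _ => by
        rcases eq_or_ne r i with rfl | hr
        · rw [Pi.single_eq_same]; exact x.2
        · rw [Pi.single_eq_of_ne hr]; exact zero_mem _, rfl⟩
      rw [hβ, Finset.sum_eq_single i (fun r _ hr => by rw [Pi.single_eq_of_ne hr]; simp)
        (fun h => absurd (Finset.mem_univ _) h), Pi.single_eq_same] at this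
      exact this
    · rintro h _ ⟨w, hw, rfl⟩
      rw [hβ]
      exact Finset.sum_eq_zero fun i _ => h i ⟨w i, hw i trivial⟩
  rw [h1, h2, LinearMap.ker_pi] at main
  exact main

theorem finrank_lH2_dual (hM : IsAdm (MonoidHom.id GQ) M) (q : Nat.Primes) (R : Recip p) :
    Module.finrank (ZMod p) (lH2 q (dual' M)) = Module.finrank (ZMod p) (lH0 q M) := by
  haveI := (isAdm_dual (isAdm_dual hM)).finite
  have h := (LinearEquiv.ofBijective _ (pair02_bijective q (isAdm_dual hM)).2).finrank_eq
  rw [h, (LinearEquiv.congrRight (R.inv q)).finrank_eq]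
  exact (Subspace.dual_finrank_eq).trans (finrank_lH0_bidual hM q)

set_option maxHeartbeats 1600000 in
set_option synthInstance.maxHeartbeats 200000 in
/-- the formula for a large set -/
theorem gw_big (hp2 : p ≠ 2) (R : Recip p) (hM : IsAdm (MonoidHom.id GQ) M) (T : Finset Nat.Primes)
    (hT : IsUnrOutside T M) (hpT : ∀ q : Nat.Primes, (q : ℕ) = p → q ∈ T)
    (hker : ∀ x : cH1 (MonoidHom.id GQ) M, x ∈ H1T T M → (∀ q ∈ T, res1 q M x = 0) → x ∈ sha1g M)
    {q₀ : Nat.Primes} (hq₀ : q₀ ∈ T) (he : eulerE T (dual' M) = 0)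
    (L : ∀ q, Submodule (ZMod p) (lH1 q M)) :
    Module.finrank (ZMod p) (Sel T L) + Module.finrank (ZMod p) (cH0 (dual' M)) +
        ∑ q ∈ T, Module.finrank (ZMod p) (lH0 q M) + Module.finrank (ZMod p) (h0inf M) =
      Module.finrank (ZMod p) (Sel T (Lperp hM L)) + Module.finrank (ZMod p) (cH0 M) +
        ∑ q ∈ T, Module.finrank (ZMod p) (L q) := by
  classical
  have hM' := isAdm_dual hM
  haveI := finite_H1T hp2 hM T
  haveI := finite_H1T hp2 hM' T
  haveI : ∀ q : T, Module.Finite (ZMod p) (lH1 q.1 M) := fun q => finite_lH1 q.1 hM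
  haveI : ∀ q : T, Module.Finite (ZMod p) (lH1 q.1 (dual' M)) := fun q => finite_lH1 q.1 hM'
  letI : ∀ q : T, AddCommGroup (lH1 q.1 M) := fun _ => inferInstance
  letI : ∀ q : T, Module (ZMod p) (lH1 q.1 M) := fun _ => inferInstance
  letI : ∀ q : T, AddCommGroup (lH1 q.1 (dual' M)) := fun _ => inferInstance
  letI : ∀ q : T, Module (ZMod p) (lH1 q.1 (dual' M)) := fun _ => inferInstance
  have main := selmer_count_pairing (V := H1T T M) (V' := H1T T (dual' M))
    (W := fun q : T => lH1 q.1 M) (W' := fun q : T => lH1 q.1 (dual' M))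
    (fun q => (res1 q.1 M).comp (H1T T M).subtype)
    (fun q => (res1 q.1 (dual' M)).comp (H1T T (dual' M)).subtype)
    (fun q => (LinearMap.llcomp (ZMod p) _ _ _ (R.inv q.1).toLinearMap).comp (pair11 q.1 hM))
    (fun q => ((LinearEquiv.ofBijective _ (pair11_bijective q.1 hM).1).trans
      (LinearEquiv.congrRight (R.inv q.1))).bijective)
    (fun v v' => (Finset.sum_coe_sort T (fun q => R.inv q (pair11 q hM (res1 q M v.1)
      (res1 q (dual' M) v'.1)))).trans (sum_pair11_eq_zero R hM T hT hpT v v'))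
    (fun w hw => by
      let z : ∀ q, lH1 q M := fun q => if h : q ∈ T then w ⟨q, h⟩ else 0
      obtain ⟨x, hx⟩ := exists_global_of_orthogonal hp2 R hM T hT hpT z fun y => by
        rw [← hw y, ← Finset.sum_coe_sort T]
        exact Finset.sum_congr rfl fun q _ => by simp only [z, dif_pos q.2]; rfl
      refine ⟨x, fun q => ?_⟩
      show res1 q.1 M x.1 = w q
      rw [hx q.1 q.2]
      simp [z])
    (fun q => L q.1)
  have hS : (⨅ q : T, (L q.1).comap ((res1 q.1 M).comp (H1T T M).subtype)) =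
      (Sel T L).comap (H1T T M).subtype :=
    Submodule.ext fun x => by simp [mem_Sel, x.2]
  have hS' : (⨅ q : T, ⨅ x : L q.1, LinearMap.ker
      (((LinearMap.llcomp (ZMod p) _ _ _ (R.inv q.1).toLinearMap).comp (pair11 q.1 hM) x.1).comp
        ((res1 q.1 (dual' M)).comp (H1T T (dual' M)).subtype))) =
      (Sel T (Lperp hM L)).comap (H1T T (dual' M)).subtype :=
    Submodule.ext fun y => by simp [mem_Sel, mem_Lperp, y.2]
  have hle : sha1g M ≤ H1T T M := fun x hx => mem_H1T_iff.mpr fun q _ => by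
    simp only [sha1g, Submodule.mem_iInf, LinearMap.mem_ker] at hx
    rw [hx q]
    exact zero_mem _
  have hK : (⨅ q : T, LinearMap.ker ((res1 q.1 M).comp (H1T T M).subtype)) =
      (sha1g M).comap (H1T T M).subtype := Submodule.ext fun x => by
    simp only [Submodule.mem_iInf, LinearMap.mem_ker, LinearMap.comp_apply, Submodule.subtype_apply,
      Submodule.mem_comap, sha1g]
    refine ⟨fun h q => ?_, fun h q => h q.1⟩
    have h3 := hker x.1 x.2 fun q hq => h ⟨q, hq⟩
    simp only [sha1g, Submodule.mem_iInf, LinearMap.mem_ker] at h3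
    exact h3 q
  rw [hS, hS', hK, Finset.sum_coe_sort T (fun q => Module.finrank (ZMod p) (L q)),
    (Submodule.comapSubtypeEquivOfLe hle).finrank_eq,
    (Submodule.comapSubtypeEquivOfLe (show Sel T L ≤ H1T T M from inf_le_left)).finrank_eq,
    (Submodule.comapSubtypeEquivOfLe
      (show Sel T (Lperp hM L) ≤ H1T T (dual' M) from inf_le_left)).finrank_eq] at main
  obtain ⟨-, h2⟩ := finrank_H2T hp2 R hM' hq₀
  rw [(finrank_sha1g_eq_sha2g hp2 hM).2.symm, Finset.sum_congr rfl fun q _ => finrank_lH2_dual hM q R,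
    finrank_cH0_bidual hM] at h2
  have hinf := finrank_h0inf_dual hp2 hM
  have hdim : Module.finrank (ZMod p) (dual' M) = Module.finrank (ZMod p) M := by
    haveI := hM.finite
    exact Subspace.dual_finrank_eq
  have he' : (Module.finrank (ZMod p) (cH0 (dual' M)) : ℤ) -
      Module.finrank (ZMod p) (H1T T (dual' M)) + Module.finrank (ZMod p) (H2T T (dual' M)) +
      Module.finrank (ZMod p) M - Module.finrank (ZMod p) (h0inf (dual' M)) = 0 := by
    rw [← hdim]; exact he
  omega

theorem IsUnrAt.dual {q : Nat.Primes} (hu : IsUnrAt q M)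
    (hu' : IsUnrAt q (mu p)) : IsUnrAt q (dual' M) := fun g hg => by
  have h1 : (ExtCitation.cycloChar p (loc q g) : ZMod p) = 1 := by
    simpa [Representation.twist_apply] using LinearMap.congr_fun (hu' g hg) 1
  refine LinearMap.ext fun f => LinearMap.ext fun m => ?_
  rw [dual'_apply, h1, one_mul, ← map_inv (loc q), hu _ (inv_mem hg)]
  rfl

set_option maxHeartbeats 800000 in
/-- Greenberg–Wiles from the vanishing of the Euler characteristic -/
theorem gw_of_euler (hp2 : p ≠ 2)
    (heul : ∀ M : Rep.{0} (ZMod p) GQ, IsAdm (MonoidHom.id GQ) M →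
      ∃ T₀ : Finset Nat.Primes, ∀ T, T₀ ⊆ T → eulerE T M = 0)
    (hM : IsAdm (MonoidHom.id GQ) M) (T : Finset Nat.Primes) (hT : IsUnrOutside T M)
    (hpT : ∀ q : Nat.Primes, (q : ℕ) = p → q ∈ T) (L : ∀ q, Submodule (ZMod p) (lH1 q M)) :
    Module.finrank (ZMod p) (Sel T L) + Module.finrank (ZMod p) (cH0 (dual' M)) +
        ∑ q ∈ T, Module.finrank (ZMod p) (lH0 q M) + Module.finrank (ZMod p) (h0inf M) =
      Module.finrank (ZMod p) (Sel T (Lperp hM L)) + Module.finrank (ZMod p) (cH0 M) +
        ∑ q ∈ T, Module.finrank (ZMod p) (L q) := by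
  classical
  obtain ⟨R⟩ := exists_recip (p := p) hp2
  obtain ⟨T₀, hT₀⟩ := heul _ (isAdm_dual hM)
  obtain ⟨T₁, -, -, hT₁⟩ := exists_big_set hp2 hM
  set q₀ : Nat.Primes := ⟨p, Fact.out⟩
  set T' := T ∪ (T₀ ∪ T₁) with hT'
  set L' : ∀ q, Submodule (ZMod p) (lH1 q M) := fun q => if q ∈ T then L q else unr1 q M with hL'
  have hsub : T ⊆ T' := Finset.subset_union_left
  have main := gw_big hp2 R hM T' (fun q hq => hT q fun h => hq (hsub h))
    (fun q hq => hsub (hpT q hq))
    (fun x hx h => hT₁ T' (Finset.subset_union_right.trans Finset.subset_union_right) x hx h)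
    (hsub (hpT q₀ rfl)) (hT₀ T' (Finset.subset_union_left.trans Finset.subset_union_right)) L'
  have hperp : ∀ q ∈ T, Lperp hM L' q = Lperp hM L q := fun q hq => by
    refine Submodule.ext fun y => ?_
    rw [mem_Lperp, mem_Lperp]
    simp only [hL', if_pos hq]
  have hperp' : ∀ q ∈ T', q ∉ T → Lperp hM L' q = unr1 q (dual' M) := fun q _ hq => by
    refine Submodule.ext fun y => ?_
    rw [mem_Lperp]
    simp only [hL', if_neg hq]
    exact (unr1_orthogonal' q (fun h => hq (hpT q h)) hM (hT q hq) y).symm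
  have key : ∀ {N : Rep.{0} (ZMod p) GQ} (K K' : ∀ q, Submodule (ZMod p) (lH1 q N)),
      (∀ q ∈ T, K' q = K q) → (∀ q ∈ T', q ∉ T → K' q = unr1 q N) → Sel T' K' = Sel T K := by
    intro N K K' h1 h2
    ext x
    simp only [mem_Sel, mem_H1T_iff]
    constructor
    · rintro ⟨ha, hb⟩
      refine ⟨fun q hq => ?_, fun q hq => h1 q hq ▸ hb q (hsub hq)⟩
      by_cases hq' : q ∈ T'
      · exact h2 q hq' hq ▸ hb q hq'
      · exact ha q hq'
    · rintro ⟨ha, hb⟩
      refine ⟨fun q hq => ha q fun h => hq (hsub h), fun q hq => ?_⟩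
      by_cases hq' : q ∈ T
      · rw [h1 q hq']; exact hb q hq'
      · rw [h2 q hq hq']; exact ha q hq'
  rw [key L L' (fun q hq => if_pos hq) (fun q _ hq => if_neg hq),
    key (Lperp hM L) (Lperp hM L') hperp hperp',
    ← Finset.sum_sdiff hsub, ← Finset.sum_sdiff hsub] at main
  have h1 : ∑ q ∈ T, Module.finrank (ZMod p) (L' q) = ∑ q ∈ T, Module.finrank (ZMod p) (L q) :=
    Finset.sum_congr rfl fun q hq => by rw [show L' q = L q from if_pos hq]
  have h2 : ∑ q ∈ T' \ T, Module.finrank (ZMod p) (L' q) =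
      ∑ q ∈ T' \ T, Module.finrank (ZMod p) (lH0 q M) :=
    Finset.sum_congr rfl fun q hq => by
      rw [show L' q = unr1 q M from if_neg (Finset.mem_sdiff.mp hq).2]
      exact finrank_unr1 q hM
  rw [h1, h2] at main
  omega

end FLTAgent.PT

end
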