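import Fermat.Agent.PT.Euler.Exact

/-!
Parcel F: the Euler characteristic for all large `T` as one additive invariant.
-/

set_option autoImplicit false
set_option linter.style.haveILetI false

noncomputable section

open CategoryTheory groupCohomology Filter

namespace FLTAgent.PT

variable {p : ℕ} [Fact p.Prime]

/-- functions of `T` up to eventual equality -/
abbrev TGerm : Type := Filter.Germ (atTop : Filter (Finset Nat.Primes)) ℤ

theorem tGerm_nsmul_eq_zero {n : ℕ} (hn : n ≠ 0) {x : TGerm} (h : n • x = 0) : x = 0 := by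
  induction x using Filter.Germ.inductionOn with
  | h f =>
    refine Filter.Germ.coe_eq.mpr ((Filter.Germ.coe_eq.mp h).mono fun T hT => ?_)
    simpa [hn] using hT

/-- the Euler characteristic defect for large `T` -/
def eulerG (M : Rep.{0} (ZMod p) GQ) : TGerm := ((fun T => eulerE T M : Finset Nat.Primes → ℤ) : TGerm)

theorem eulerG_eq_zero_iff {M : Rep.{0} (ZMod p) GQ} :
    eulerG M = 0 ↔ ∃ T₀ : Finset Nat.Primes, ∀ T, T₀ ⊆ T → eulerE T M = 0 :=
  Filter.Germ.coe_eq.trans Filter.eventually_atTop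

theorem eulerG_add (hp2 : p ≠ 2) (A B C : Rep.{0} (ZMod p) GQ) (E : SES (MonoidHom.id GQ) A B C)
    (hA : IsAdm (MonoidHom.id GQ) A) (hC : IsAdm (MonoidHom.id GQ) C) :
    eulerG B = eulerG A + eulerG C := by
  classical
  obtain ⟨R⟩ := exists_recip (p := p) hp2
  obtain ⟨T₁, -, -, hT₁⟩ := exists_big_set hp2 (isAdm_dual hA)
  obtain ⟨T₂, -, -, hT₂⟩ := exists_big_set hp2 (isAdm_dual E.adm)
  obtain ⟨T₃, -, -, hT₃⟩ := exists_big_set hp2 (isAdm_dual hC)
  set q₀ : Nat.Primes := ⟨p, Fact.out⟩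
  refine Filter.Germ.coe_eq.mpr (Filter.eventually_atTop.mpr
    ⟨T₁ ∪ T₂ ∪ T₃ ∪ {q₀} ∪ (finite_not_unr E.adm).toFinset, fun T hT => ?_⟩)
  have h : ∀ x, x ∈ T₁ ∪ T₂ ∪ T₃ ∪ {q₀} ∪ (finite_not_unr E.adm).toFinset → x ∈ T := hT
  simp only [Finset.mem_union, Finset.mem_singleton, Set.Finite.mem_toFinset, Set.mem_setOf_eq] at h
  refine E.eulerE_add hp2 hA hC (fun q hq => ?_) (fun q hq => ?_) R (h q₀ (by simp))
    (hT₁ T fun x hx => h x (by simp [hx])) (hT₂ T fun x hx => h x (by simp [hx]))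
    (hT₃ T fun x hx => h x (by simp [hx]))
  · by_contra hc
    exact hq (h q (Or.inr hc))
  · rw [show q = q₀ from Subtype.ext hq]
    exact h q₀ (by simp)

end FLTAgent.PT

end
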