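import Mathlib

/-!
Parcel F: finite sets with an action of a finite group and the same numbers of fixed points have
isomorphic rational permutation modules.
-/

set_option autoImplicit false
set_option linter.style.haveILetI false

noncomputable section

namespace FLTAgent.PT.Perm

variable {Δ : Type} [Group Δ]

/-- the permutation representation on functions -/
def permRep (R : Type) [CommRing R] (X : Type) [MulAction Δ X] : Representation R Δ (X → R) where
  toFun g := LinearMap.funLeft R R fun x => g⁻¹ • x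
  map_one' := LinearMap.ext fun f => funext fun x => by simp
  map_mul' g h := LinearMap.ext fun f => funext fun x => by simp [mul_smul]

theorem permRep_apply {R : Type} [CommRing R] {X : Type} [MulAction Δ X] (g : Δ) (f : X → R)
    (x : X) : permRep R X g f x = f (g⁻¹ • x) := rfl

theorem character_permRep (X : Type) [MulAction Δ X] [Finite X] (g : Δ) :
    (permRep ℚ X).character g = Nat.card {x : X // g • x = x} := by
  classical
  haveI := Fintype.ofFinite X
  rw [Representation.character, LinearMap.trace_eq_matrix_trace ℚ (Pi.basisFun ℚ X), Matrix.trace,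
    Nat.card_eq_fintype_card, Fintype.card_subtype, Finset.card_filter, Nat.cast_sum]
  refine Finset.sum_congr rfl fun x _ => ?_
  rw [Matrix.diag_apply, LinearMap.toMatrix_apply, Pi.basisFun_apply, Pi.basisFun_repr,
    permRep_apply, Pi.single_apply, inv_smul_eq_iff, Nat.cast_ite, Nat.cast_one, Nat.cast_zero]
  simp only [eq_comm]

section Linear

variable [Finite Δ] {V W : Type} [AddCommGroup V] [Module ℚ V] [AddCommGroup W] [Module ℚ W]
  [FiniteDimensional ℚ V] [FiniteDimensional ℚ W]
  {ρ : Representation ℚ Δ V} {σ : Representation ℚ Δ W}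

/-- average of the conjugates of a linear map -/
def avg (ρ : Representation ℚ Δ V) (σ : Representation ℚ Δ W) (f : V →ₗ[ℚ] W) : V →ₗ[ℚ] W :=
  letI := Fintype.ofFinite Δ
  (Fintype.card Δ : ℚ)⁻¹ • ∑ g : Δ, σ g ∘ₗ f ∘ₗ ρ g⁻¹

theorem avg_eqv (f : V →ₗ[ℚ] W) (h : Δ) (v : V) : avg ρ σ f (ρ h v) = σ h (avg ρ σ f v) := by
  letI := Fintype.ofFinite Δ
  simp only [avg, LinearMap.smul_apply, LinearMap.coe_sum, Finset.sum_apply, map_smul, map_sum]
  congr 1
  refine (Fintype.sum_equiv (Equiv.mulLeft h) _ _ fun g => ?_).symm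
  simp only [LinearMap.comp_apply, Equiv.coe_mulLeft, mul_inv_rev, map_mul, Module.End.mul_apply]
  rw [← Module.End.mul_apply (ρ h⁻¹) (ρ h), ← map_mul, inv_mul_cancel, map_one,
    Module.End.one_apply]

theorem avg_apply_eq (f : V →ₗ[ℚ] W) (v : V) (w : W)
    (h : ∀ g : Δ, σ g (f (ρ g⁻¹ v)) = w) : avg ρ σ f v = w := by
  letI := Fintype.ofFinite Δ
  simp only [avg, LinearMap.smul_apply, LinearMap.coe_sum, Finset.sum_apply, LinearMap.comp_apply, h]
  rw [Finset.sum_const, Finset.card_univ, ← Nat.cast_smul_eq_nsmul ℚ, smul_smul,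
    inv_mul_cancel₀ (Nat.cast_ne_zero.mpr Fintype.card_ne_zero), one_smul]

theorem trace_split {f : Module.End ℚ V} {S : Submodule ℚ V} (h : ∀ v ∈ S, f v ∈ S) :
    LinearMap.trace ℚ V f =
      LinearMap.trace ℚ S (f.restrict h) + LinearMap.trace ℚ (V ⧸ S) (S.mapQ S f h) := by
  obtain ⟨Q, hQ⟩ := S.exists_isCompl
  have hid : f = f ∘ₗ (S.subtype ∘ₗ S.projectionOnto Q hQ) +
      f ∘ₗ (Q.subtype ∘ₗ Q.projectionOnto S hQ.symm) := LinearMap.ext fun v => by
    simp only [LinearMap.add_apply, LinearMap.comp_apply, ← map_add, Submodule.subtype_apply]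
    congr 1
    exact (Submodule.projection_add_projection_eq_self hQ v).symm
  conv_lhs => rw [hid]
  rw [map_add]
  congr 1
  · rw [← LinearMap.comp_assoc, LinearMap.trace_comp_comm']
    congr 1
    refine LinearMap.ext fun v => ?_
    show S.projectionOnto Q hQ (f (v : V)) = (f.restrict h) v
    exact Submodule.projectionOnto_apply_left hQ ⟨f v, h v v.2⟩
  · rw [← LinearMap.comp_assoc, LinearMap.trace_comp_comm']
    rw [← LinearMap.trace_conj' (Q.projectionOnto S hQ.symm ∘ₗ f ∘ₗ Q.subtype)
      (S.quotientEquivOfIsCompl Q hQ).symm]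
    congr 1
    refine Submodule.linearMap_qext _ (LinearMap.ext fun v => ?_)
    simp only [LinearMap.comp_apply, LinearEquiv.conj_apply_apply, LinearEquiv.symm_symm,
      Submodule.mkQ_apply, Submodule.mapQ_apply, Submodule.quotientEquivOfIsCompl_symm_apply,
      Submodule.subtype_apply]
    rw [Submodule.quotientEquivOfIsCompl_apply_mk, Submodule.Quotient.eq]
    have h1 := Submodule.sub_projection_mem (p := Q) hQ.symm v
    have h2 := Submodule.sub_projection_mem (p := Q) hQ.symm
      (f (Q.projectionOnto S hQ.symm v : V))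
    have := add_mem (h _ h1) h2
    rw [map_sub] at this
    convert neg_mem this using 1
    simp only [Submodule.projection_apply]
    abel

/-- representations with the same character are isomorphic -/
theorem exists_injective (h : ∀ g, ρ.character g = σ.character g) :
    ∃ A : V →ₗ[ℚ] W, (∀ g v, A (ρ g v) = σ g (A v)) ∧ Function.Injective A := by
  classical
  letI := Fintype.ofFinite Δ
  haveI : Invertible (Nat.card Δ : ℚ) := invertibleOfNonzero (Nat.cast_ne_zero.mpr Nat.card_pos.ne')
  -- an equivariant map with the smallest kernel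
  obtain ⟨A, hA, hmin⟩ : ∃ A : V →ₗ[ℚ] W, (∀ g v, A (ρ g v) = σ g (A v)) ∧
      ∀ B : V →ₗ[ℚ] W, (∀ g v, B (ρ g v) = σ g (B v)) →
        Module.finrank ℚ (LinearMap.ker A) ≤ Module.finrank ℚ (LinearMap.ker B) := by
    have hne : ∃ n, ∃ A : V →ₗ[ℚ] W, (∀ g v, A (ρ g v) = σ g (A v)) ∧
        Module.finrank ℚ (LinearMap.ker A) = n := ⟨_, 0, fun g v => by simp, rfl⟩
    obtain ⟨A, hA, hn⟩ := Nat.find_spec hne
    exact ⟨A, hA, fun B hB => hn ▸ Nat.find_min' hne ⟨B, hB, rfl⟩⟩
  refine ⟨A, hA, ?_⟩
  rw [← LinearMap.ker_eq_bot]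
  by_contra hK
  set K := LinearMap.ker A with hKdef
  set I := LinearMap.range A with hIdef
  have hKs : ∀ g, ∀ v ∈ K, ρ g v ∈ K := fun g v hv => by
    rw [LinearMap.mem_ker, hA, LinearMap.mem_ker.mp hv, map_zero]
  have hIs : ∀ g, ∀ w ∈ I, σ g w ∈ I := by
    rintro g _ ⟨v, rfl⟩
    exact ⟨ρ g v, hA g v⟩
  let ρK : Representation ℚ Δ K :=
    { toFun := fun g => (ρ g).restrict (hKs g)
      map_one' := LinearMap.ext fun v => Subtype.ext (by simp)
      map_mul' := fun g g' => LinearMap.ext fun v => Subtype.ext (by simp) }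
  let σC : Representation ℚ Δ (W ⧸ I) :=
    { toFun := fun g => I.mapQ I (σ g) (hIs g)
      map_one' := Submodule.linearMap_qext _ (LinearMap.ext fun v => by simp)
      map_mul' := fun g g' => Submodule.linearMap_qext _ (LinearMap.ext fun v => by simp) }
  have hchar : ∀ g, σC.character g = ρK.character g := by
    intro g
    have h1 := trace_split (hKs g)
    have h2 := trace_split (hIs g)
    let e := A.quotKerEquivRange
    have he : LinearMap.trace ℚ I ((σ g).restrict (hIs g)) =
        LinearMap.trace ℚ (V ⧸ K) (K.mapQ K (ρ g) (hKs g)) := by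
      rw [← LinearMap.trace_conj' (K.mapQ K (ρ g) (hKs g)) e]
      congr 1
      refine LinearMap.ext fun w => ?_
      obtain ⟨w, rfl⟩ := e.surjective w
      obtain ⟨v, rfl⟩ := Submodule.mkQ_surjective _ w
      rw [LinearEquiv.conj_apply_apply, e.symm_apply_apply]
      exact Subtype.ext (hA g v).symm
    have h3 := h g
    simp only [Representation.character] at h3 ⊢
    change LinearMap.trace ℚ (W ⧸ I) (I.mapQ I (σ g) (hIs g)) =
      LinearMap.trace ℚ K ((ρ g).restrict (hKs g))
    linarith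
  have hdim : (Module.finrank ℚ (Representation.IntertwiningMap ρK σC) : ℚ) =
      Module.finrank ℚ (Representation.IntertwiningMap ρK ρK) := by
    rw [← Representation.card_inv_mul_sum_char_mul_char_eq_finrank,
      ← Representation.card_inv_mul_sum_char_mul_char_eq_finrank]
    simp only [hchar]
  obtain ⟨B, hB⟩ : ∃ B : Representation.IntertwiningMap ρK σC, B ≠ 0 := by
    by_contra hc
    push Not at hc
    haveI : Subsingleton (Representation.IntertwiningMap ρK σC) := ⟨fun a b => by rw [hc a, hc b]⟩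
    rw [Module.finrank_zero_of_subsingleton, Nat.cast_zero, eq_comm, Nat.cast_eq_zero] at hdim
    obtain ⟨k, hk, hk0⟩ := Submodule.exists_mem_ne_zero_of_ne_bot hK
    have h0 : (1 : Representation.IntertwiningMap ρK ρK) = 0 := by
      haveI := Module.finrank_zero_iff.mp hdim
      exact Subsingleton.elim _ _
    exact hk0 (congrArg Subtype.val (congrArg (fun t : Representation.IntertwiningMap ρK ρK => t ⟨k, hk⟩) h0) :)
  -- equivariant projection and section
  obtain ⟨π₀, hπ₀⟩ := K.subtype.exists_leftInverse_of_injective K.ker_subtype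
  obtain ⟨s₀, hs₀⟩ := I.mkQ.exists_rightInverse_of_surjective I.range_mkQ
  set π := avg ρ ρK π₀
  set s := avg σC σ s₀
  have hπ : ∀ k : K, π k = k := fun k => avg_apply_eq _ _ _ fun g => by
    rw [show ρ g⁻¹ (k : V) = ((ρK g⁻¹ k : K) : V) from rfl,
      show π₀ ((ρK g⁻¹ k : K) : V) = ρK g⁻¹ k from LinearMap.congr_fun hπ₀ (ρK g⁻¹ k),
      ← Module.End.mul_apply, ← map_mul, mul_inv_cancel, map_one, Module.End.one_apply]
  have hs : ∀ c, I.mkQ (s c) = c := fun c => by
    have h1 : I.mkQ ∘ₗ s = LinearMap.id := LinearMap.ext fun c => by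
      simp only [s, avg, LinearMap.comp_apply, LinearMap.smul_apply, LinearMap.coe_sum,
        Finset.sum_apply, map_smul, map_sum]
      have : ∀ g : Δ, I.mkQ (σ g (s₀ (σC g⁻¹ c))) = c := fun g => by
        rw [show I.mkQ (σ g (s₀ (σC g⁻¹ c))) = σC g (I.mkQ (s₀ (σC g⁻¹ c))) from rfl,
          show I.mkQ (s₀ (σC g⁻¹ c)) = σC g⁻¹ c from LinearMap.congr_fun hs₀ _,
          ← Module.End.mul_apply, ← map_mul, mul_inv_cancel, map_one, Module.End.one_apply]
      simp only [this, Finset.sum_const, Finset.card_univ, LinearMap.id_apply]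
      rw [← Nat.cast_smul_eq_nsmul ℚ, smul_smul,
        inv_mul_cancel₀ (Nat.cast_ne_zero.mpr Fintype.card_ne_zero), one_smul]
    exact LinearMap.congr_fun h1 c
  let A' : V →ₗ[ℚ] W := A + s ∘ₗ B.toLinearMap ∘ₗ π
  have hA' : ∀ g v, A' (ρ g v) = σ g (A' v) := fun g v => by
    show A (ρ g v) + s (B (π (ρ g v))) = σ g (A v + s (B (π v)))
    rw [map_add, hA, avg_eqv, show B (ρK g (π v)) = σC g (B (π v)) from Representation.IntertwiningMap.isIntertwining ρK σC B g _,
      avg_eqv]
  have hlt : LinearMap.ker A' < K := by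
    have hle : ∀ v ∈ LinearMap.ker A', v ∈ K ∧ B (π v) = 0 := fun v hv => by
      have h1 : A v + s (B (π v)) = 0 := hv
      have h2 := congrArg I.mkQ h1
      rw [map_add, map_zero, hs, show I.mkQ (A v) = 0 from
        (Submodule.Quotient.mk_eq_zero I).mpr ⟨v, rfl⟩, zero_add] at h2
      exact ⟨LinearMap.mem_ker.mpr (by rwa [h2, map_zero, add_zero] at h1), h2⟩
    refine lt_of_le_of_ne (fun v hv => (hle v hv).1) fun heq => hB ?_
    refine DFunLike.ext _ _ fun k => ?_
    have := (hle k (heq.symm ▸ k.2)).2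
    rwa [hπ] at this
  exact absurd (hmin A' hA') (not_le.mpr (Submodule.finrank_lt_finrank_of_lt hlt))

end Linear

/-- an integral equivariant map that is invertible up to an integer -/
theorem exists_int_maps [Finite Δ] {X Y : Type} [MulAction Δ X] [MulAction Δ Y] [Finite X]
    [Finite Y]
    (h : ∀ g : Δ, Nat.card {x : X // g • x = x} = Nat.card {y : Y // g • y = y}) :
    ∃ (A : (X → ℤ) →ₗ[ℤ] (Y → ℤ)) (B : (Y → ℤ) →ₗ[ℤ] (X → ℤ)) (d : ℤ), d ≠ 0 ∧
      (∀ (g : Δ) (f : X → ℤ), A (permRep ℤ X g f) = permRep ℤ Y g (A f)) ∧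
      (∀ w, A (B w) = d • w) ∧ ∀ z, B (A z) = d • z := by
  classical
  haveI := Fintype.ofFinite X
  haveI := Fintype.ofFinite Y
  obtain ⟨A, hA, hinj⟩ := exists_injective (ρ := permRep (Δ := Δ) ℚ X) (σ := permRep (Δ := Δ) ℚ Y) fun g => by
    rw [character_permRep, character_permRep, h g]
  have hcard : Module.finrank ℚ (X → ℚ) = Module.finrank ℚ (Y → ℚ) := by
    rw [Module.finrank_fintype_fun_eq_card, Module.finrank_fintype_fun_eq_card]
    have h1 := h 1
    rw [Nat.card_congr (Equiv.subtypeUnivEquiv fun x => one_smul Δ x),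
      Nat.card_congr (Equiv.subtypeUnivEquiv fun y => one_smul Δ y)] at h1
    rwa [Nat.card_eq_fintype_card, Nat.card_eq_fintype_card] at h1
  let e := LinearEquiv.ofBijective A
    ⟨hinj, (LinearMap.injective_iff_surjective_of_finrank_eq_finrank hcard).mp hinj⟩
  have clear : ∀ {I J : Type} [Fintype I] [Fintype J] (T : (I → ℚ) →ₗ[ℚ] (J → ℚ)),
      ∃ (n : ℤ) (S : (I → ℤ) →ₗ[ℤ] (J → ℤ)), n ≠ 0 ∧
        ∀ f j, ((S f j : ℤ) : ℚ) = n * T (fun i => (f i : ℚ)) j := by
    intro I J _ _ T
    obtain ⟨⟨n, hn⟩, hn'⟩ := IsLocalization.exist_integer_multiples (nonZeroDivisors ℤ)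
      (Finset.univ : Finset (J × I)) fun ji => T (Pi.single ji.2 (1 : ℚ)) ji.1
    choose m hm using fun ji => hn' ji (Finset.mem_univ _)
    refine ⟨n, LinearMap.pi fun j => ∑ i, m (j, i) • LinearMap.proj i, nonZeroDivisors.ne_zero hn,
      fun f j => ?_⟩
    have hf : (fun i => (f i : ℚ)) = ∑ i, (f i : ℚ) • Pi.single i (1 : ℚ) := by
      funext i
      simp [Finset.sum_apply, Pi.single_apply]
    rw [hf, map_sum, Finset.sum_apply, Finset.mul_sum]
    simp only [LinearMap.pi_apply, LinearMap.coe_sum, Finset.sum_apply, LinearMap.smul_apply,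
      LinearMap.proj_apply, smul_eq_mul, Int.cast_sum, Int.cast_mul, map_smul, Pi.smul_apply]
    refine Finset.sum_congr rfl fun i _ => ?_
    have := hm (j, i)
    simp only [algebraMap_int_eq, eq_intCast, zsmul_eq_mul] at this
    rw [this]
    ring
  obtain ⟨n, S, hn, hS⟩ := clear A
  obtain ⟨m, S', hm, hS'⟩ := clear e.symm.toLinearMap
  have cast_inj : ∀ {I : Type} {a b : I → ℤ}, (fun i => (a i : ℚ)) = (fun i => (b i : ℚ)) → a = b :=
    fun hab => funext fun i => Int.cast_injective (congrFun hab i)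
  refine ⟨S, S', n * m, mul_ne_zero hn hm, fun g f => cast_inj (funext fun y => ?_),
    fun w => cast_inj (funext fun y => ?_), fun z => cast_inj (funext fun x => ?_)⟩
  · rw [hS, permRep_apply, hS]
    exact congrArg ((n : ℚ) * ·) (congrFun (hA g fun i => (f i : ℚ)) y)
  · rw [hS, show (fun i => ((S' w i : ℤ) : ℚ)) = (m : ℚ) • e.symm (fun i => (w i : ℚ)) from
      funext fun i => hS' w i, map_smul, show A (e.symm _) = _ from e.apply_symm_apply _]
    simp [mul_assoc]
  · rw [hS', show (fun i => ((S z i : ℤ) : ℚ)) = (n : ℚ) • A (fun i => (z i : ℚ)) from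
      funext fun i => hS z i, map_smul]
    rw [show e.symm.toLinearMap (A fun i => (z i : ℚ)) = fun i => (z i : ℚ) from
      e.symm_apply_apply _]
    simp [mul_assoc, mul_comm, mul_left_comm]


end FLTAgent.PT.Perm

end
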