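import Fermat.Agent.PT.Euler.Additive
import Fermat.Agent.PT.Euler.PermChar

/-!
Parcel F: sets with the same numbers of fixed points give the same additive invariants of the
permutation modules tensored with a module.
-/

set_option autoImplicit false
set_option linter.style.haveILetI false

noncomputable section

open CategoryTheory groupCohomology
open scoped TensorProduct

namespace FLTAgent.PT

open Perm

variable {p : ℕ} [Fact p.Prime] {Δ : Type} [Group Δ] (π : GQ →* Δ) (M : Rep.{0} (ZMod p) GQ)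

/-- a module of the finite group tensored with `M` -/
abbrev tens {V : Type} [AddCommGroup V] [Module (ZMod p) V] (σ : Representation (ZMod p) Δ V) :
    Rep.{0} (ZMod p) GQ :=
  Rep.of (Representation.tprod (σ.comp π) M.ρ)

variable {π M}

theorem tens_apply {V : Type} [AddCommGroup V] [Module (ZMod p) V] (σ : Representation (ZMod p) Δ V)
    (g : GQ) : (tens π M σ).ρ g = TensorProduct.map (σ (π g)) (M.ρ g) := rfl

theorem isAdm_tens (hπ : ∃ F : IntermediateField ℚ (AlgebraicClosure ℚ), FiniteDimensional ℚ F ∧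
      ∀ g ∈ F.fixingSubgroup, π g = 1) (hM : IsAdm (MonoidHom.id GQ) M) {V : Type} [AddCommGroup V]
    [Module (ZMod p) V] [Module.Finite (ZMod p) V] (σ : Representation (ZMod p) Δ V) :
    IsAdm (MonoidHom.id GQ) (tens π M σ) := by
  obtain ⟨F, hF, hπ⟩ := hπ
  obtain ⟨F', hF', hρ⟩ := hM.level
  haveI := hM.finite
  refine ⟨inferInstanceAs (Module.Finite (ZMod p) (V ⊗[ZMod p] M)), F ⊔ F', inferInstance,
    fun g hg => ?_⟩
  rw [tens_apply, hπ g (IntermediateField.fixingSubgroup_antitone le_sup_left hg), map_one,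
    hρ g (IntermediateField.fixingSubgroup_antitone le_sup_right hg)]
  exact TensorProduct.map_one

variable {Γ : Type} [AddCommGroup Γ] {Φ : Rep.{0} (ZMod p) GQ → Γ}

theorem tens_exact (hΦ : IsAdditive Φ)
    (hπ : ∃ F : IntermediateField ℚ (AlgebraicClosure ℚ), FiniteDimensional ℚ F ∧
      ∀ g ∈ F.fixingSubgroup, π g = 1) (hM : IsAdm (MonoidHom.id GQ) M)
    {A B C : Type} [AddCommGroup A] [Module (ZMod p) A] [AddCommGroup B] [Module (ZMod p) B]
    [Module.Finite (ZMod p) B] [AddCommGroup C] [Module (ZMod p) C]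
    (a : Representation (ZMod p) Δ A) (b : Representation (ZMod p) Δ B)
    (c : Representation (ZMod p) Δ C) (i : A →ₗ[ZMod p] B) (pr : B →ₗ[ZMod p] C)
    (hi : ∀ g x, i (a g x) = b g (i x)) (hpr : ∀ g x, pr (b g x) = c g (pr x))
    (hinj : Function.Injective i) (hs : Function.Surjective pr) (hex : Function.Exact i pr) :
    Φ (tens π M b) = Φ (tens π M a) + Φ (tens π M c) := by
  refine hΦ.of_surjective (isAdm_tens hπ hM b) (i.rTensor M) (pr.rTensor M) (fun g x => ?_)
    (fun g x => ?_) (Module.Flat.rTensor_preserves_injective_linearMap i hinj)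
    (LinearMap.rTensor_surjective M hs) (rTensor_exact M hex hs)
  · show i.rTensor M (TensorProduct.map (a (π g)) (M.ρ g) x) =
      TensorProduct.map (b (π g)) (M.ρ g) (i.rTensor M x)
    induction x using TensorProduct.induction_on with
    | zero => simp
    | tmul v m => simp [hi]
    | add x y hx hy => simp only [map_add, hx, hy]
  · show pr.rTensor M (TensorProduct.map (b (π g)) (M.ρ g) x) =
      TensorProduct.map (c (π g)) (M.ρ g) (pr.rTensor M x)
    induction x using TensorProduct.induction_on with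
    | zero => simp
    | tmul v m => simp [hpr]
    | add x y hx hy => simp only [map_add, hx, hy]

/-- a stable subspace as a representation -/
def subRep {V : Type} [AddCommGroup V] [Module (ZMod p) V] (σ : Representation (ZMod p) Δ V)
    (S : Submodule (ZMod p) V) (hS : ∀ g, ∀ v ∈ S, σ g v ∈ S) : Representation (ZMod p) Δ S where
  toFun g := (σ g).restrict (hS g)
  map_one' := LinearMap.ext fun v => Subtype.ext (by simp)
  map_mul' g g' := LinearMap.ext fun v => Subtype.ext (by simp)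

theorem tens_subsingleton (hΦ : IsAdditive Φ)
    (hπ : ∃ F : IntermediateField ℚ (AlgebraicClosure ℚ), FiniteDimensional ℚ F ∧
      ∀ g ∈ F.fixingSubgroup, π g = 1) (hM : IsAdm (MonoidHom.id GQ) M)
    {V : Type} [AddCommGroup V] [Module (ZMod p) V] [Module.Finite (ZMod p) V] [Subsingleton V]
    (σ : Representation (ZMod p) Δ V) : Φ (tens π M σ) = 0 :=
  hΦ.subsingleton (isAdm_tens hπ hM σ) (inferInstanceAs (Subsingleton (V ⊗[ZMod p] M)))

theorem tens_top (hΦ : IsAdditive Φ)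
    (hπ : ∃ F : IntermediateField ℚ (AlgebraicClosure ℚ), FiniteDimensional ℚ F ∧
      ∀ g ∈ F.fixingSubgroup, π g = 1) (hM : IsAdm (MonoidHom.id GQ) M)
    {V : Type} [AddCommGroup V] [Module (ZMod p) V] [Module.Finite (ZMod p) V]
    (σ : Representation (ZMod p) Δ V) (S : Submodule (ZMod p) V) (hS : ∀ g, ∀ v ∈ S, σ g v ∈ S)
    (h : S = ⊤) : Φ (tens π M (subRep σ S hS)) = Φ (tens π M σ) := by
  let Z : Submodule (ZMod p) V := ⊥
  have hZ : ∀ g, ∀ v ∈ Z, σ g v ∈ Z := fun g v hv => by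
    rw [(Submodule.mem_bot _).mp hv, map_zero]; exact zero_mem _
  have h0 := tens_subsingleton hΦ hπ hM (subRep σ Z hZ)
  have := tens_exact hΦ hπ hM (subRep σ S hS) σ (subRep σ Z hZ) S.subtype 0 (fun _ _ => rfl)
    (fun _ _ => (map_zero _).symm) Subtype.val_injective
    (fun z => ⟨0, Subsingleton.elim _ _⟩)
    (fun v => ⟨fun _ => ⟨⟨v, h ▸ trivial⟩, rfl⟩, fun _ => rfl⟩)
  rw [this, h0, add_zero]

/-- equal numbers of fixed points give equal invariants -/
theorem tens_perm_eq [Finite Δ] (hΦ : IsAdditive Φ)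
    (hπ : ∃ F : IntermediateField ℚ (AlgebraicClosure ℚ), FiniteDimensional ℚ F ∧
      ∀ g ∈ F.fixingSubgroup, π g = 1) (hM : IsAdm (MonoidHom.id GQ) M)
    {X Y : Type} [MulAction Δ X] [MulAction Δ Y] [Finite X] [Finite Y]
    (h : ∀ g : Δ, Nat.card {x : X // g • x = x} = Nat.card {y : Y // g • y = y}) :
    Φ (tens π M (permRep (ZMod p) X)) = Φ (tens π M (permRep (ZMod p) Y)) := by
  classical
  have hp : p.Prime := Fact.out
  obtain ⟨A, B, d, hd, hA, hAB, hBA⟩ := exists_int_maps h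
  -- reduction
  let red : ∀ (I : Type), (I → ℤ) →+ (I → ZMod p) := fun I =>
    (Int.castAddHom (ZMod p)).compLeft I
  have hred : ∀ {I : Type} [MulAction Δ I] (g : Δ) (z : I → ℤ),
      red I (permRep ℤ I g z) = permRep (ZMod p) I g (red I z) := fun g z => rfl
  have hsurj : ∀ {I : Type} (x : I → ZMod p), ∃ z, red I z = x := fun x =>
    ⟨fun i => (x i).val, funext fun i => by simp [red]⟩
  have hker : ∀ {I : Type} (z : I → ℤ), red I z = 0 → ∃ z', z = (p : ℤ) • z' := fun z hz => by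
    choose z' hz' using fun i => (ZMod.intCast_zmod_eq_zero_iff_dvd (z i) p).mp (congrFun hz i)
    exact ⟨z', funext hz'⟩
  have hscal : ∀ {I : Type} (c : ZMod p) (z : I → ℤ), red I ((c.val : ℤ) • z) = c • red I z :=
    fun c z => funext fun i => by
      show ((((c.val : ℤ) • z) i : ℤ) : ZMod p) = c * (z i : ZMod p)
      rw [Pi.smul_apply, smul_eq_mul, Int.cast_mul, Int.cast_natCast, ZMod.natCast_zmod_val]
  let G : ℕ → Submodule (ZMod p) ((X → ZMod p) × (Y → ZMod p)) := fun i =>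
    { carrier := {u | ∃ z w, A z = (p : ℤ) ^ i • w ∧ red X z = u.1 ∧ red Y w = u.2}
      add_mem' := by
        rintro _ _ ⟨z, w, h1, h2, h3⟩ ⟨z', w', h1', h2', h3'⟩
        exact ⟨z + z', w + w', by rw [map_add, h1, h1', smul_add],
          by rw [map_add, h2, h2']; rfl, by rw [map_add, h3, h3']; rfl⟩
      zero_mem' := ⟨0, 0, by simp, by simp, by simp⟩
      smul_mem' := by
        rintro c _ ⟨z, w, h1, h2, h3⟩
        refine ⟨(c.val : ℤ) • z, (c.val : ℤ) • w, ?_, by rw [hscal, h2]; rfl, by rw [hscal, h3]; rfl⟩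
        rw [map_smul, h1, smul_comm] }
  let ρP : Representation (ZMod p) Δ ((X → ZMod p) × (Y → ZMod p)) :=
    { toFun := fun g => (permRep (ZMod p) X g).prodMap (permRep (ZMod p) Y g)
      map_one' := LinearMap.ext fun u => by simp
      map_mul' := fun g g' => LinearMap.ext fun u => by simp }
  have hG : ∀ i (g : Δ), ∀ u ∈ G i, ρP g u ∈ G i := by
    rintro i g _ ⟨z, w, h1, h2, h3⟩
    exact ⟨permRep ℤ X g z, permRep ℤ Y g w, by rw [hA, h1, map_smul], by rw [hred, h2]; rfl,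
      by rw [hred, h3]; rfl⟩
  let U : ℕ → Submodule (ZMod p) (X → ZMod p) := fun i => (G i).map (LinearMap.fst _ _ _)
  let W : ℕ → Submodule (ZMod p) (Y → ZMod p) := fun i => (G i).map (LinearMap.snd _ _ _)
  let W' : ℕ → Submodule (ZMod p) (Y → ZMod p) := fun i => match i with
    | 0 => ⊥
    | j + 1 => W j
  have hU : ∀ i (g : Δ), ∀ x ∈ U i, permRep (ZMod p) X g x ∈ U i := by
    rintro i g _ ⟨u, hu, rfl⟩; exact ⟨_, hG i g u hu, rfl⟩
  have hW : ∀ i (g : Δ), ∀ x ∈ W i, permRep (ZMod p) Y g x ∈ W i := by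
    rintro i g _ ⟨u, hu, rfl⟩; exact ⟨_, hG i g u hu, rfl⟩
  have hW' : ∀ i (g : Δ), ∀ x ∈ W' i, permRep (ZMod p) Y g x ∈ W' i := by
    rintro (_ | i) g x hx
    · rw [(Submodule.mem_bot _).mp hx, map_zero]; exact zero_mem _
    · exact hW i g x hx
  have hmemW' : ∀ i y, y ∈ W' i ↔ ((0, y) : (X → ZMod p) × (Y → ZMod p)) ∈ G i := by
    rintro (_ | i) y
    · constructor
      · intro hy
        rw [(Submodule.mem_bot _).mp hy]; exact zero_mem _
      · rintro ⟨z, w, h1, h2, h3⟩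
        obtain ⟨z', rfl⟩ := hker z h2
        rw [pow_zero, one_smul, map_smul] at h1
        rw [Submodule.mem_bot, show y = red Y w from h3.symm, ← h1]
        exact funext fun _ => by simp [red]
    · constructor
      · rintro ⟨⟨x, y'⟩, ⟨z, w, h1, h2, h3⟩, rfl⟩
        refine ⟨(p : ℤ) • z, w, by rw [map_smul, h1, smul_smul, ← pow_succ'], ?_, h3⟩
        exact funext fun _ => by simp [red]
      · rintro ⟨z, w, h1, h2, h3⟩
        obtain ⟨z', rfl⟩ := hker z h2
        rw [map_smul, pow_succ', ← smul_smul] at h1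
        exact ⟨(red X z', y), ⟨z', w,
          smul_right_injective _ (Int.natCast_ne_zero.mpr hp.ne_zero) h1, rfl, h3⟩, rfl⟩
  have hmemU : ∀ i x, x ∈ U (i + 1) ↔ ((x, 0) : (X → ZMod p) × (Y → ZMod p)) ∈ G i := by
    intro i x
    constructor
    · rintro ⟨⟨x', y⟩, ⟨z, w, h1, h2, h3⟩, rfl⟩
      refine ⟨z, (p : ℤ) • w, by rw [h1, smul_smul, ← pow_succ], h2, ?_⟩
      exact funext fun _ => by simp [red]
    · rintro ⟨z, w, h1, h2, h3⟩
      obtain ⟨w', rfl⟩ := hker w h3
      exact ⟨(x, red Y w'), ⟨z, w', by rw [h1, smul_smul, ← pow_succ], h2, rfl⟩, rfl⟩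
  let ψU : ℕ → Γ := fun i => Φ (tens π M (subRep _ (U i) (hU i)))
  let ψW : ℕ → Γ := fun i => Φ (tens π M (subRep _ (W' i) (hW' i)))
  have step : ∀ i, ψU i + ψW i = ψU (i + 1) + ψW (i + 1) := by
    intro i
    have e1 := tens_exact hΦ hπ hM (subRep _ (W' i) (hW' i)) (subRep _ (G i) (hG i))
      (subRep _ (U i) (hU i))
      (((LinearMap.inr _ _ _).comp (W' i).subtype).codRestrict (G i) fun y => (hmemW' i y.1).mp y.2)
      (((LinearMap.fst _ _ _).comp (G i).subtype).codRestrict (U i) fun u => ⟨u.1, u.2, rfl⟩)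
      (fun g y => Subtype.ext (Prod.ext (map_zero (permRep (ZMod p) X g)).symm rfl)) (fun g u => rfl)
      (fun a b hab => Subtype.ext (congrArg Prod.snd (congrArg Subtype.val hab) :))
      (fun x => by obtain ⟨_, u, hu, rfl⟩ := x; exact ⟨⟨u, hu⟩, rfl⟩)
      (fun u => ⟨fun hu => ⟨⟨u.1.2, (hmemW' i _).mpr (by
          have h0 : u.1.1 = 0 := congrArg Subtype.val hu
          rw [← h0]; exact u.2)⟩, Subtype.ext (Prod.ext (congrArg Subtype.val hu :).symm rfl)⟩,
        by rintro ⟨y, rfl⟩; rfl⟩)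
    have e2 := tens_exact hΦ hπ hM (subRep _ (U (i + 1)) (hU (i + 1))) (subRep _ (G i) (hG i))
      (subRep _ (W' (i + 1)) (hW' (i + 1)))
      (((LinearMap.inl _ _ _).comp (U (i + 1)).subtype).codRestrict (G i)
        fun y => (hmemU i y.1).mp y.2)
      (((LinearMap.snd _ _ _).comp (G i).subtype).codRestrict (W' (i + 1))
        fun u => ⟨u.1, u.2, rfl⟩)
      (fun g y => Subtype.ext (Prod.ext rfl (map_zero (permRep (ZMod p) Y g)).symm)) (fun g u => rfl)
      (fun a b hab => Subtype.ext (congrArg Prod.fst (congrArg Subtype.val hab) :))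
      (fun x => by obtain ⟨_, u, hu, rfl⟩ := x; exact ⟨⟨u, hu⟩, rfl⟩)
      (fun u => ⟨fun hu => ⟨⟨u.1.1, (hmemU i _).mpr (by
          have h0 : u.1.2 = 0 := congrArg Subtype.val hu
          rw [← h0]; exact u.2)⟩, Subtype.ext (Prod.ext rfl (congrArg Subtype.val hu :).symm)⟩,
        by rintro ⟨y, rfl⟩; rfl⟩)
    show Φ _ + Φ _ = Φ _ + Φ _
    rw [← e2, e1, add_comm]
  have hconst : ∀ i, ψU i + ψW i = ψU 0 + ψW 0 := fun i => by
    induction i with
    | zero => rfl
    | succ i ih => rw [← step, ih]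
  -- the ends
  obtain ⟨v, u, hu, hdu⟩ : ∃ (v : ℕ) (u : ℤ), ¬ (p : ℤ) ∣ u ∧ d = (p : ℤ) ^ v * u := by
    obtain ⟨m, hm, hnd⟩ := (Int.finiteMultiplicity_iff.mpr ⟨by simpa using hp.ne_one, hd⟩ :
      FiniteMultiplicity (p : ℤ) d).exists_eq_pow_mul_and_not_dvd
    exact ⟨_, m, hnd, hm⟩
  have hu0 : (u : ZMod p) ≠ 0 := fun h0 => hu ((ZMod.intCast_zmod_eq_zero_iff_dvd u p).mp h0)
  have hU0 : U 0 = ⊤ := eq_top_iff.mpr fun x _ => by
    obtain ⟨z, hz⟩ := hsurj x
    exact ⟨(x, red Y (A z)), ⟨z, A z, by rw [pow_zero, one_smul], hz, rfl⟩, rfl⟩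
  have hWv : W' (v + 1) = ⊤ := eq_top_iff.mpr fun y _ => by
    obtain ⟨w, hw⟩ := hsurj ((u : ZMod p)⁻¹ • y)
    refine ⟨(red X (B w), y), ⟨B w, u • w, ?_, rfl, ?_⟩, rfl⟩
    · rw [hAB, hdu, smul_smul]
    · show red Y (u • w) = y
      rw [map_zsmul, hw, ← Int.cast_smul_eq_zsmul (ZMod p), smul_smul, mul_inv_cancel₀ hu0, one_smul]
  have hUv : U (v + 1) = ⊥ := eq_bot_iff.mpr fun x hx => by
    obtain ⟨⟨x', y⟩, ⟨z, w, h1, h2, h3⟩, rfl⟩ := hx
    rw [Submodule.mem_bot]
    have h4 : (p : ℤ) ^ v • (u • z) = (p : ℤ) ^ v • ((p : ℤ) • B w) := by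
      rw [smul_smul, ← hdu, ← hBA, h1, map_smul, smul_smul, pow_succ]
    have h5 := congrArg (red X) (smul_right_injective _
      (pow_ne_zero v (Int.natCast_ne_zero.mpr hp.ne_zero)) h4)
    rw [map_zsmul, map_zsmul, h2, ← Int.cast_smul_eq_zsmul (ZMod p),
      ← Int.cast_smul_eq_zsmul (ZMod p) (p : ℤ), Int.cast_natCast, ZMod.natCast_self, zero_smul] at h5
    exact (smul_eq_zero.mp h5).resolve_left hu0
  have e3 : ψU 0 = Φ (tens π M (permRep (ZMod p) X)) := tens_top hΦ hπ hM _ _ _ hU0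
  have e4 : ψW (v + 1) = Φ (tens π M (permRep (ZMod p) Y)) := tens_top hΦ hπ hM _ _ _ hWv
  have e5 : ψW 0 = 0 := by
    haveI : Subsingleton (W' 0) := inferInstanceAs (Subsingleton (⊥ : Submodule (ZMod p) (Y → ZMod p)))
    exact tens_subsingleton hΦ hπ hM _
  have e6 : ψU (v + 1) = 0 := by
    haveI : Subsingleton (U (v + 1)) := Submodule.subsingleton_iff_eq_bot.mpr hUv
    exact tens_subsingleton hΦ hπ hM _
  have := hconst (v + 1)
  rw [e3, e4, e5, e6, zero_add, add_zero] at this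
  exact this.symm

end FLTAgent.PT

end
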