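import Fermat.Agent.PT.Euler.Translation
import Fermat.Agent.PT.Euler.Artin

/-!
Parcel F: the global Euler characteristic, by Artin induction from the cyclic subgroups.
-/

set_option autoImplicit false
set_option linter.style.haveILetI false

noncomputable section

open CategoryTheory Polynomial TensorProduct

namespace FLTAgent.PT

variable {p : ℕ} [Fact p.Prime]

section Cyclic

variable {Δ : Type} [Group Δ] [Finite Δ] {π : GQ →* Δ} {M : Rep.{0} (ZMod p) GQ}

/-- tensoring the functions on the cosets of a cyclic subgroup gives twisted functions -/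
theorem tens_cosets_eq {Γ : Type} [AddCommGroup Γ] {Φ : Rep.{0} (ZMod p) GQ → Γ}
    (hΦ : IsAdditive Φ)
    (hπ : ∃ F : IntermediateField ℚ (AlgebraicClosure ℚ), FiniteDimensional ℚ F ∧
      ∀ g ∈ F.fixingSubgroup, π g = 1)
    [Module.Finite (ZMod p) M] (ρ : Representation (ZMod p) Δ M) (hρ : ∀ g, ρ (π g) = M.ρ g)
    (c : Δ) :
    Φ (tens π M (Perm.permRep (ZMod p) (Δ ⧸ Subgroup.zpowers c))) =
      Φ (infl π (twistedRep ρ c ⊤)) := by
  classical
  haveI := Fintype.ofFinite (Δ ⧸ Subgroup.zpowers c)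
  let L₀ : (Δ ⧸ Subgroup.zpowers c → ZMod p) →ₗ[ZMod p] M →ₗ[ZMod p] twisted ρ c ⊤ :=
    LinearMap.mk₂ (ZMod p)
      (fun f m => ⟨fun x => f (x : Δ ⧸ Subgroup.zpowers c) • ρ x⁻¹ m, fun _ => Submodule.mem_top,
        fun x u hu => by
          show f ((x * u : Δ) : Δ ⧸ Subgroup.zpowers c) • ρ (x * u)⁻¹ m = _
          rw [QuotientGroup.mk_mul_of_mem x hu, mul_inv_rev, map_mul, map_smul]
          rfl⟩)
      (fun f f' m => Subtype.ext (funext fun x => add_smul _ _ _))
      (fun a f m => Subtype.ext (funext fun x => smul_assoc a (f _) _))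
      (fun f m m' => Subtype.ext (funext fun x => by simp [smul_add]))
      (fun a f m => Subtype.ext (funext fun x => by simp [smul_comm a (f _)]))
  let L : (Δ ⧸ Subgroup.zpowers c → ZMod p) ⊗[ZMod p] M →ₗ[ZMod p] twisted ρ c ⊤ :=
    TensorProduct.lift L₀
  have hsurj : Function.Surjective L := by
    intro h
    refine ⟨∑ y : Δ ⧸ Subgroup.zpowers c, (Pi.single y 1) ⊗ₜ[ZMod p] ρ y.out (h.1 y.out), ?_⟩
    refine Subtype.ext (funext fun x => ?_)
    rw [map_sum, AddSubmonoidClass.coe_finsetSum, Finset.sum_apply]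
    rw [Finset.sum_eq_single (x : Δ ⧸ Subgroup.zpowers c)]
    · show (Pi.single (x : Δ ⧸ Subgroup.zpowers c) (1 : ZMod p) :
          Δ ⧸ Subgroup.zpowers c → ZMod p) x • ρ x⁻¹ (ρ _ _) = h.1 x
      obtain ⟨⟨u, hu⟩, hxu⟩ := QuotientGroup.mk_out_eq_mul (Subgroup.zpowers c) x
      rw [Pi.single_eq_same, one_smul, hxu, ← Module.End.mul_apply, ← map_mul, inv_mul_cancel_left,
        h.2.2 x u hu, ← Module.End.mul_apply, ← map_mul, mul_inv_cancel, map_one,
        Module.End.one_apply]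
    · intro y _ hy
      show (Pi.single y (1 : ZMod p) : Δ ⧸ Subgroup.zpowers c → ZMod p) x • _ = 0
      rw [Pi.single_eq_of_ne (Ne.symm hy), zero_smul]
    · exact fun hx => absurd (Finset.mem_univ _) hx
  have hdim : Module.finrank (ZMod p) ((Δ ⧸ Subgroup.zpowers c → ZMod p) ⊗[ZMod p] M) =
      Module.finrank (ZMod p) (twisted ρ c ⊤) := by
    rw [(twistedEquiv ρ c fun w _ => Submodule.mem_top).finrank_eq, Module.finrank_tensorProduct,
      Module.finrank_fintype_fun_eq_card, Module.finrank_pi_fintype, Finset.sum_const,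
      Finset.card_univ, smul_eq_mul, finrank_top]
  refine hΦ.congr (LinearEquiv.ofBijective L
    ⟨(LinearMap.injective_iff_surjective_of_finrank_eq_finrank hdim).mpr hsurj, hsurj⟩)
    (fun g t => ?_) (isAdm_infl hπ _)
  show L (TensorProduct.map (Perm.permRep (ZMod p) (Δ ⧸ Subgroup.zpowers c) (π g)) (M.ρ g) t) =
    twistedRep ρ c ⊤ (π g) (L t)
  induction t using TensorProduct.induction_on with
  | zero => simp
  | add x y hx hy => simp only [map_add, hx, hy]
  | tmul f m =>
    refine Subtype.ext (funext fun x => ?_)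
    rw [twistedRep_apply]
    show f ((π g)⁻¹ • (x : Δ ⧸ Subgroup.zpowers c)) • ρ x⁻¹ (M.ρ g m) =
      f (((π g)⁻¹ * x : Δ) : Δ ⧸ Subgroup.zpowers c) • ρ ((π g)⁻¹ * x)⁻¹ m
    rw [mul_inv_rev, inv_inv, map_mul, Module.End.mul_apply, hρ]
    rfl

end Cyclic

/-- the Euler characteristic defect vanishes for large `T` -/
theorem eulerG_eq_zero (hp2 : p ≠ 2) {M : Rep.{0} (ZMod p) GQ} (hM : IsAdm (MonoidHom.id GQ) M) :
    eulerG M = 0 := by
  classical
  haveI := hM.finite
  obtain ⟨F₁, hF₁, hρ₁⟩ := hM.level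
  obtain ⟨F₂, hF₂, hρ₂⟩ := (isAdm_mu p).level
  obtain ⟨F, hF, hle, hn⟩ := exists_normal_level (F₁ ⊔ F₂)
  set N : Subgroup GQ := F.fixingSubgroup with hNdef
  haveI := hn
  have hN : IsOpenSub (MonoidHom.id GQ) N := ⟨F, hF, fun g hg => hg⟩
  haveI : Finite (GQ ⧸ N) := hN.finite_quotient
  have hωN : N ≤ (ExtCitation.cycloChar p).ker := fun g hg => by
    refine MonoidHom.mem_ker.mpr (Units.ext ?_)
    simpa [Representation.twist_apply] using LinearMap.congr_fun
      (hρ₂ g (IntermediateField.fixingSubgroup_antitone le_sup_right (hle hg))) 1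
  have hρN : N ≤ M.ρ.ker := fun g hg =>
    MonoidHom.mem_ker.mpr (hρ₁ g (IntermediateField.fixingSubgroup_antitone le_sup_left (hle hg)))
  set π : GQ →* GQ ⧸ N := QuotientGroup.mk' N with hπdef
  let χ : (GQ ⧸ N) →* (ZMod p)ˣ := QuotientGroup.lift N (ExtCitation.cycloChar p) hωN
  let ρ : Representation (ZMod p) (GQ ⧸ N) M := QuotientGroup.lift N M.ρ hρN
  have hπ : ∃ F : IntermediateField ℚ (AlgebraicClosure ℚ), FiniteDimensional ℚ F ∧
      ∀ g ∈ F.fixingSubgroup, π g = 1 :=
    ⟨F, hF, fun g hg => (QuotientGroup.eq_one_iff g).mpr hg⟩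
  have hΦ : IsAdditive (eulerG (p := p)) := eulerG_add hp2
  let ψ : ∀ X : Type, MulAction (GQ ⧸ N) X → TGerm := fun X iX =>
    eulerG (tens π M (@Perm.permRep (GQ ⧸ N) _ (ZMod p) _ X iX))
  have hcount : ∀ (X Y : Type) (iX : MulAction (GQ ⧸ N) X) (iY : MulAction (GQ ⧸ N) Y),
      Finite X → Finite Y → (∀ g, @Artin.fixCount (GQ ⧸ N) _ X iX g =
        @Artin.fixCount (GQ ⧸ N) _ Y iY g) → ψ X iX = ψ Y iY := fun X Y iX iY fX fY h =>
    tens_perm_eq hΦ hπ hM fun g => by simpa [Artin.fixCount] using h g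
  have hsum : ∀ (X Y : Type) (iX : MulAction (GQ ⧸ N) X) (iY : MulAction (GQ ⧸ N) Y),
      Finite X → Finite Y → ψ (X ⊕ Y) inferInstance = ψ X iX + ψ Y iY := by
    intro X Y iX iY fX fY
    let i : (X → ZMod p) →ₗ[ZMod p] (X ⊕ Y → ZMod p) :=
      { toFun := fun f => Sum.elim f 0
        map_add' := fun f f' => funext fun z => by cases z <;> simp
        map_smul' := fun a f => funext fun z => by cases z <;> simp }
    exact tens_exact hΦ hπ hM (Perm.permRep (ZMod p) X) (Perm.permRep (ZMod p) (X ⊕ Y))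
      (Perm.permRep (ZMod p) Y) i (LinearMap.funLeft (ZMod p) (ZMod p) Sum.inr)
      (fun g f => funext fun z => by cases z <;> rfl) (fun g f => rfl)
      (fun f f' h => funext fun x => congrFun h (Sum.inl x))
      (fun f => ⟨Sum.elim 0 f, rfl⟩)
      (fun f => ⟨fun h => ⟨f ∘ Sum.inl, funext fun z => by
          cases z with
          | inl x => rfl
          | inr y => exact (congrFun h y).symm⟩,
        by rintro ⟨u, rfl⟩; rfl⟩)
  have htor : ∀ (k : ℕ) (x : TGerm), k ≠ 0 → k • x = 0 → x = 0 := fun k x hk h =>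
    tGerm_nsmul_eq_zero hk h
  have hcyc : ∀ c : GQ ⧸ N, ψ ((GQ ⧸ N) ⧸ Subgroup.zpowers c) inferInstance = 0 := by
    intro c
    show eulerG (tens π M _) = 0
    rw [tens_cosets_eq hΦ hπ ρ (fun g => rfl) c]
    obtain ⟨c₀, rfl⟩ := QuotientGroup.mk_surjective c
    exact infl_twisted_zero hΦ hπ htor χ _
      (fun P h hcop hPh => eulerG_eigen hp2 hN χ (fun g => rfl) c₀ P h hcop hPh) ρ _ ⊤
      (fun w _ => Submodule.mem_top) le_rfl
  have h1 := Artin.pts_one_eq_zero ψ hsum hcount hcyc htor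
  haveI : Unique (Artin.Pts (GQ ⧸ N) 1) := inferInstanceAs (Unique (Fin 1))
  rw [← h1]
  refine (hΦ.congr (A := tens π M (Perm.permRep (ZMod p) (Artin.Pts (GQ ⧸ N) 1)))
    ((TensorProduct.congr (LinearEquiv.funUnique (Artin.Pts (GQ ⧸ N) 1) (ZMod p) (ZMod p))
      (LinearEquiv.refl (ZMod p) M)).trans (TensorProduct.lid (ZMod p) M)) (fun g t => ?_) hM).symm
  rw [tens_apply]
  induction t using TensorProduct.induction_on with
  | zero => simp
  | add x y hx hy => simp only [map_add, hx, hy]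
  | tmul f m =>
    simp only [TensorProduct.map_tmul, LinearEquiv.trans_apply, TensorProduct.congr_tmul,
      LinearEquiv.refl_apply, TensorProduct.lid_tmul, map_smul]
    rfl

end FLTAgent.PT

end
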