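import Fermat.Agent.PT.Euler.Arch
import Fermat.Agent.PT.Euler.GW
import Fermat.Agent.PT.Euler.Germ
import Fermat.Agent.PT.Euler.Cyclic
import Fermat.Agent.PT.Euler.Charpoly

/-!
Parcel F: the Euler characteristic vanishes on the pieces of a permutation module cut out by a
right translation.
-/

set_option autoImplicit false
set_option linter.style.haveILetI false

noncomputable section

open CategoryTheory groupCohomology Polynomial

namespace FLTAgent.PT

section Linear

variable {F : Type} [Field F]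

theorem aeval_restrict_apply {W : Type} [AddCommGroup W] [Module F W] (T : Module.End F W)
    {S : Submodule F W} (h : ∀ x ∈ S, T x ∈ S) (q : F[X]) (x : S) :
    ((aeval (T.restrict h) q x : S) : W) = aeval T q x.1 := by
  induction q using Polynomial.induction_on' with
  | add a b ha hb => simp [ha, hb]
  | monomial i a =>
    simp only [aeval_monomial, ← Algebra.smul_def, LinearMap.smul_apply, Submodule.coe_smul]
    congr 1
    induction i generalizing x with
    | zero => rfl
    | succ i ih =>
      rw [pow_succ, pow_succ, Module.End.mul_apply, Module.End.mul_apply, ih]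
      rfl

theorem aeval_dualMap {W : Type} [AddCommGroup W] [Module F W] (T : Module.End F W) (q : F[X]) :
    aeval (LinearMap.dualMap T : Module.End F (Module.Dual F W)) q = LinearMap.dualMap (aeval T q) := by
  refine LinearMap.ext fun f => LinearMap.ext fun x => ?_
  induction q using Polynomial.induction_on' with
  | add a b ha hb => simp [ha, hb]
  | monomial i a =>
    simp only [aeval_monomial, ← Algebra.smul_def, LinearMap.smul_apply, LinearMap.dualMap_apply,
      map_smul]
    congr 1
    induction i generalizing x with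
    | zero => rfl
    | succ i ih =>
      rw [pow_succ' (LinearMap.dualMap T : Module.End F (Module.Dual F W)), Module.End.mul_apply,
        LinearMap.dualMap_apply, ih, pow_succ, Module.End.mul_apply]

/-- transport of a restriction along an equivalence -/
theorem charpoly_restrict_congr {A B : Type} [AddCommGroup A] [Module F A] [Module.Finite F A]
    [AddCommGroup B] [Module F B] [Module.Finite F B] {S : Submodule F A} {U : Submodule F B}
    (e : A ≃ₗ[F] B) (hSU : ∀ x, e x ∈ U ↔ x ∈ S) {s : Module.End F A} {t : Module.End F B}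
    (hs : ∀ x ∈ S, s x ∈ S) (ht : ∀ y ∈ U, t y ∈ U) (h : ∀ x ∈ S, e (s x) = t (e x)) :
    LinearMap.charpoly (s.restrict hs) = LinearMap.charpoly (t.restrict ht) := by
  let e' : S ≃ₗ[F] U := e.ofSubmodules S U (by
    ext y
    obtain ⟨x, rfl⟩ := e.surjective y
    rw [hSU]
    exact ⟨fun ⟨z, hz, he⟩ => e.injective he ▸ hz, fun hx => ⟨x, hx, rfl⟩⟩)
  rw [← LinearEquiv.charpoly_conj e' (s.restrict hs)]
  congr 1
  refine LinearMap.ext fun y => ?_
  obtain ⟨x, rfl⟩ := e'.surjective y
  rw [LinearEquiv.conj_apply_apply, LinearEquiv.symm_apply_apply]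
  exact Subtype.ext (h x.1 x.2)

/-- a permutation and its inverse on functions constant along a relation -/
theorem charpoly_funLeft_symm_restrict {Q : Type} [Finite Q] (R : Q → Q → Prop)
    {S : Submodule F (Q → F)} (hS : ∀ φ, φ ∈ S ↔ ∀ x y, R x y → φ x = φ y) (e : Q ≃ Q)
    (h : ∀ φ ∈ S, LinearMap.funLeft F F e φ ∈ S)
    (h' : ∀ φ ∈ S, LinearMap.funLeft F F e.symm φ ∈ S) :
    LinearMap.charpoly ((LinearMap.funLeft F F e.symm).restrict h') =
      LinearMap.charpoly ((LinearMap.funLeft F F e).restrict h) := by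
  let r : Setoid Q :=
    { r := fun x y => ∀ φ ∈ S, φ x = φ y
      iseqv := ⟨fun _ _ _ => rfl, fun hxy φ hφ => (hxy φ hφ).symm,
        fun hxy hyz φ hφ => (hxy φ hφ).trans (hyz φ hφ)⟩ }
  let ε : Quotient r ≃ Quotient r :=
    { toFun := Quotient.map e fun x y hxy φ hφ => hxy _ (h φ hφ)
      invFun := Quotient.map e.symm fun x y hxy φ hφ => hxy _ (h' φ hφ)
      left_inv := fun z => Quotient.inductionOn z fun x => congrArg (Quotient.mk r) (e.symm_apply_apply x)
      right_inv := fun z => Quotient.inductionOn z fun x => congrArg (Quotient.mk r) (e.apply_symm_apply x) }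
  let Θ : (Quotient r → F) ≃ₗ[F] S :=
    { toFun := fun f => ⟨fun x => f (Quotient.mk r x), (hS _).mpr fun x y hxy =>
        congrArg f (Quotient.sound fun φ hφ => (hS φ).mp hφ x y hxy)⟩
      map_add' := fun _ _ => rfl
      map_smul' := fun _ _ => rfl
      invFun := fun φ => Quotient.lift φ.1 fun x y hxy => hxy φ.1 φ.2
      left_inv := fun f => funext fun z => Quotient.inductionOn z fun _ => rfl
      right_inv := fun φ => rfl }
  have key : ∀ (σ : Q ≃ Q) (τ : Quotient r ≃ Quotient r) (hσ : ∀ φ ∈ S, LinearMap.funLeft F F σ φ ∈ S),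
      (∀ x, τ (Quotient.mk r x) = Quotient.mk r (σ x)) →
        LinearMap.charpoly ((LinearMap.funLeft F F σ).restrict hσ) =
          LinearMap.charpoly (LinearMap.funLeft F F τ) := by
    intro σ τ hσ hστ
    rw [← LinearEquiv.charpoly_conj Θ (LinearMap.funLeft F F τ)]
    congr 1
    refine LinearMap.ext fun φ => ?_
    obtain ⟨f, rfl⟩ := Θ.surjective φ
    rw [LinearEquiv.conj_apply_apply, LinearEquiv.symm_apply_apply]
    exact Subtype.ext (funext fun x => (congrArg f (hστ x)).symm)
  rw [key e.symm ε.symm h' fun x => rfl, key e ε h fun x => rfl, charpoly_funLeft_symm]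

/-- invariants of a summand cut out by a polynomial -/
theorem finrank_invariants_summand {G V W : Type} [Group G] [AddCommGroup V] [Module F V]
    [AddCommGroup W] [Module F W] [Module.Finite F W] (σ : Representation F G V)
    (τ : Representation F G W) (T : Module.End F W) (hT : ∀ x ∈ τ.invariants, T x ∈ τ.invariants)
    {P h u v : F[X]} (huv : u * h + v * P = 1) (hPh : aeval T (P * h) = 0)
    (a : V →ₗ[F] W) (ha : ∀ g x, a (σ g x) = τ g (a x)) (b : W →ₗ[F] V)
    (hb : ∀ g y, b (τ g y) = σ g (b y)) (hba : ∀ x, b (a x) = x)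
    (hab : ∀ y, a (b y) = aeval T (u * h) y) :
    Module.finrank F σ.invariants = rootCount P (LinearMap.charpoly (T.restrict hT)) := by
  refine finrank_summand (T.restrict hT) huv
    (LinearMap.ext fun x => Subtype.ext (by rw [aeval_restrict_apply, hPh]; rfl))
    (a.restrict fun x hx g => (ha g x).symm.trans (congrArg a (hx g)))
    (b.restrict fun y hy g => (hb g y).symm.trans (congrArg b (hy g)))
    (fun x => Subtype.ext (hba x.1)) (fun y => Subtype.ext ?_)
  rw [aeval_restrict_apply]
  exact hab y.1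

end Linear

variable {p : ℕ} [Fact p.Prime]

section Push

variable {A B : Rep.{0} (ZMod p) GQ} (f : A →ₗ[ZMod p] B) (hf : ∀ g a, f (A.ρ g a) = B.ρ g (f a))

theorem h1push_mem_H1T {T : Finset Nat.Primes} {x : cH1 (MonoidHom.id GQ) A} (hx : x ∈ H1T T A) :
    h1push (MonoidHom.id GQ) f hf x ∈ H1T T B := by
  rw [mem_H1T_iff] at hx ⊢
  intro q hq
  rw [res1_h1push]
  exact unr1_h1push f hf q (hx q hq)

/-- equivariance passes to polynomials -/
theorem aeval_eqv {V : Rep.{0} (ZMod p) GQ} (R : Module.End (ZMod p) V)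
    (hR : ∀ g a, R (V.ρ g a) = V.ρ g (R a)) (q : (ZMod p)[X]) (g : GQ) (a : V) :
    aeval R q (V.ρ g a) = V.ρ g (aeval R q a) :=
  DFunLike.congr_fun (Algebra.commute_of_mem_adjoin_singleton_of_commute (R := ZMod p)
    (aeval_mem_adjoin_singleton (ZMod p) R)
    (LinearMap.ext fun x => (hR g x).symm : Commute (V.ρ g) R)).eq.symm a

end Push

/-- the relations between classes induced by polynomials -/
theorem aeval_h1push {V : Rep.{0} (ZMod p) GQ} (R : V →ₗ[ZMod p] V)
    (hR : ∀ g a, R (V.ρ g a) = V.ρ g (R a)) (q : (ZMod p)[X])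
    (x : cH1 (MonoidHom.id GQ) V) :
    aeval (h1push (MonoidHom.id GQ) R hR : Module.End (ZMod p) (cH1 (MonoidHom.id GQ) V)) q x =
      h1push (MonoidHom.id GQ) (aeval R q : Module.End (ZMod p) V) (aeval_eqv R hR q) x := by
  induction q using Polynomial.induction_on' with
  | add a b ha hb =>
    rw [map_add, LinearMap.add_apply, ha, hb]
    obtain ⟨z, rfl⟩ := Submodule.mkQ_surjective _ x
    show h1mk _ _ _ + h1mk _ _ _ = h1mk _ _ _
    rw [← map_add]
    congr 1
    exact Subtype.ext (funext fun g => by simp)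
  | monomial i a =>
    have key : ∀ x, ((h1push (MonoidHom.id GQ) R hR : Module.End (ZMod p) _) ^ i) x =
        h1push (MonoidHom.id GQ) ((R : Module.End (ZMod p) V) ^ i) (fun g v => by
          have := aeval_eqv R hR (X ^ i) g v
          rwa [map_pow, aeval_X] at this) x := by
      induction i with
      | zero =>
        intro x
        obtain ⟨z, rfl⟩ := Submodule.mkQ_surjective _ x
        rfl
      | succ i ih =>
        intro x
        rw [pow_succ', Module.End.mul_apply, ih]
        obtain ⟨z, rfl⟩ := Submodule.mkQ_surjective _ x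
        show h1mk _ _ _ = h1mk _ _ _
        congr 1
        exact Subtype.ext (funext fun g => (DFunLike.congr_fun (pow_succ' (R : Module.End (ZMod p) V) i) (z.1 g)).symm)
    rw [aeval_monomial, ← Algebra.smul_def, LinearMap.smul_apply, key]
    obtain ⟨z, rfl⟩ := Submodule.mkQ_surjective _ x
    show a • h1mk _ _ _ = h1mk _ _ _
    rw [← map_smul]
    congr 1
    exact Subtype.ext (funext fun g => by simp [aeval_monomial, ← Algebra.smul_def])

/-- the rank of the classes of a summand -/
theorem finrank_H1T_summand {V W : Rep.{0} (ZMod p) GQ} (T : Finset Nat.Primes)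
    [Module.Finite (ZMod p) (H1T T W)] (R : W →ₗ[ZMod p] W)
    (hR : ∀ g y, R (W.ρ g y) = W.ρ g (R y)) {P h u v : (ZMod p)[X]} (huv : u * h + v * P = 1)
    (hPh : aeval (R : Module.End (ZMod p) W) (P * h) = 0)
    (a : V →ₗ[ZMod p] W) (ha : ∀ g x, a (V.ρ g x) = W.ρ g (a x))
    (b : W →ₗ[ZMod p] V) (hb : ∀ g y, b (W.ρ g y) = V.ρ g (b y)) (hba : ∀ x, b (a x) = x)
    (hab : ∀ y, a (b y) = aeval (R : Module.End (ZMod p) W) (u * h) y) :
    Module.finrank (ZMod p) (H1T T V) =
      rootCount P (LinearMap.charpoly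
        ((h1push (MonoidHom.id GQ) R hR).restrict fun x hx => h1push_mem_H1T (T := T) R hR hx)) := by
  refine finrank_summand _ huv (LinearMap.ext fun x => Subtype.ext ?_)
    ((h1push (MonoidHom.id GQ) a ha).restrict fun x hx => h1push_mem_H1T (T := T) a ha hx)
    ((h1push (MonoidHom.id GQ) b hb).restrict fun x hx => h1push_mem_H1T (T := T) b hb hx)
    (fun x => Subtype.ext ?_) (fun y => Subtype.ext ?_)
  · rw [aeval_restrict_apply, aeval_h1push]
    obtain ⟨z, hz⟩ := Submodule.mkQ_surjective _ x.1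
    rw [← hz]
    show h1mk _ _ _ = _
    refine (congrArg (h1mk (MonoidHom.id GQ) W) (Subtype.ext (funext fun g => ?_))).trans (map_zero _)
    show aeval (R : Module.End (ZMod p) W) (P * h) _ = 0
    rw [hPh]
    rfl
  · show h1push _ b hb (h1push _ a ha x.1) = x.1
    obtain ⟨z, hz⟩ := Submodule.mkQ_surjective _ x.1
    rw [← hz]
    show h1mk _ _ _ = h1mk _ _ _
    exact congrArg _ (Subtype.ext (funext fun g => hba _))
  · rw [aeval_restrict_apply, aeval_h1push]
    show h1push _ a ha (h1push _ b hb y.1) = _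
    obtain ⟨z, hz⟩ := Submodule.mkQ_surjective _ y.1
    rw [← hz]
    show h1mk _ _ _ = h1mk _ _ _
    exact congrArg _ (Subtype.ext (funext fun g => hab _))

/-- invariants are preserved by equivariant maps -/
theorem invariants_stable {G : Type} [Group G] (l : G →* GQ) {V : Rep.{0} (ZMod p) GQ}
    (R : V →ₗ[ZMod p] V) (hR : ∀ g a, R (V.ρ g a) = V.ρ g (R a)) :
    ∀ x ∈ cH0 (Rep.res l V), R x ∈ cH0 (Rep.res l V) := fun x hx g =>
  ((hR (l g) x).symm).trans (congrArg R (hx g))

/-- the right translation on the functions on the cosets with values in `𝔽_p` -/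
abbrev indEquiv (N : Subgroup GQ) [N.Normal] (c : GQ) : GQ ⧸ N ≃ GQ ⧸ N :=
  Equiv.mulRight (c : GQ ⧸ N)

theorem sum_mul_indRight (N : Subgroup GQ) [N.Normal] [Fintype (GQ ⧸ N)] (c : GQ)
    (φ f : GQ ⧸ N → ZMod p) :
    ∑ x, φ x * f (x * (c : GQ ⧸ N)) = ∑ x, φ ((indEquiv N c).symm x) * f x :=
  Fintype.sum_equiv (indEquiv N c) _ _ fun x => by rw [Equiv.symm_apply_apply]; rfl

/-- the invariants of the dual of a summand of a permutation module -/
theorem finrank_dual_invariants {G : Type} [Group G] (l : G →* GQ) {N : Subgroup GQ} [N.Normal]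
    [Finite (GQ ⧸ N)] (c : GQ) {V : Rep.{0} (ZMod p) GQ} {P h u v : (ZMod p)[X]}
    (huv : u * h + v * P = 1)
    (hPh : aeval (indRight N (mu p) c : Module.End (ZMod p) (ind N (mu p))) (P * h) = 0)
    (a : V →ₗ[ZMod p] ind N (mu p)) (ha : ∀ g x, a (V.ρ g x) = (ind N (mu p)).ρ g (a x))
    (b : ind N (mu p) →ₗ[ZMod p] V) (hb : ∀ g y, b ((ind N (mu p)).ρ g y) = V.ρ g (b y))
    (hba : ∀ x, b (a x) = x)
    (hab : ∀ y, a (b y) = aeval (indRight N (mu p) c : Module.End (ZMod p) (ind N (mu p))) (u * h) y) :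
    Module.finrank (ZMod p) (cH0 (Rep.res l (dual' V))) =
      rootCount P (LinearMap.charpoly ((indRight N (one p) c).restrict
        (invariants_stable l (indRight N (one p) c) fun g f => indRight_eqv N (one p) c g f))) := by
  classical
  letI := Fintype.ofFinite (GQ ⧸ N)
  haveI : Module.Finite (ZMod p) (dual' (ind N (mu p))) :=
    inferInstanceAs (Module.Finite (ZMod p) (Module.Dual (ZMod p) (GQ ⧸ N → ZMod p)))
  set R := indRight N (mu p) c with hR
  let Rd : dual' (ind N (mu p)) →ₗ[ZMod p] dual' (ind N (mu p)) := LinearMap.dualMap R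
  have hRd : ∀ g f, Rd ((dual' (ind N (mu p))).ρ g f) = (dual' (ind N (mu p))).ρ g (Rd f) := by
    intro g f
    refine LinearMap.ext fun m => ?_
    show ((dual' (ind N (mu p))).ρ g f) (R m) = ((dual' (ind N (mu p))).ρ g (Rd f)) m
    rw [dual'_apply, dual'_apply]
    show _ = _ * f (R ((ind N (mu p)).ρ g⁻¹ m))
    rw [hR, indRight_eqv]
  rw [finrank_invariants_summand (F := ZMod p) (Rep.res l (dual' V)).ρ
    (Rep.res l (dual' (ind N (mu p)))).ρ Rd (invariants_stable l Rd hRd) huv
    (by
      refine LinearMap.ext fun f => ?_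
      show aeval (LinearMap.dualMap R : Module.End (ZMod p) (Module.Dual (ZMod p) _)) (P * h) f = 0
      rw [aeval_dualMap, hPh]
      exact LinearMap.ext fun m => map_zero f)
    (LinearMap.dualMap b) (fun g f => LinearMap.ext fun m => by
      show (dual' V).ρ (l g) f (b m) = (dual' (ind N (mu p))).ρ (l g) (LinearMap.dualMap b f) m
      rw [dual'_apply, dual'_apply]
      show _ * f _ = _ * f (b _)
      rw [hb])
    (LinearMap.dualMap a) (fun g f => LinearMap.ext fun m => by
      show (dual' (ind N (mu p))).ρ (l g) f (a m) = (dual' V).ρ (l g) (LinearMap.dualMap a f) m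
      rw [dual'_apply, dual'_apply]
      show _ * f _ = _ * f (a _)
      rw [ha])
    (fun f => LinearMap.ext fun m => congrArg f (hba m))
    (fun f => LinearMap.ext fun m => by
      show f (a (b m)) = aeval (LinearMap.dualMap R : Module.End (ZMod p) (Module.Dual (ZMod p) _)) (u * h) f m
      rw [aeval_dualMap, hab]
      rfl)]
  congr 1
  -- the dual of the twisted functions
  let Θ : ind N (one p) ≃ₗ[ZMod p] dual' (ind N (mu p)) :=
    LinearEquiv.ofBijective
      (LinearMap.mk₂ (ZMod p) (fun φ f : GQ ⧸ N → ZMod p => ∑ x, φ x * f x)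
        (fun φ φ' f => by simp [add_mul, Finset.sum_add_distrib])
        (fun t φ f => by simp [Finset.mul_sum, mul_assoc])
        (fun φ f f' => by simp [mul_add, Finset.sum_add_distrib])
        (fun t φ f => by simp [Finset.mul_sum, mul_left_comm]))
      ⟨(injective_iff_map_eq_zero _).mpr fun φ hφ => funext fun x => by
          have := LinearMap.congr_fun hφ (Pi.single x 1 : GQ ⧸ N → ZMod p)
          simpa [Pi.single_apply] using this,
        fun L => ⟨fun x => L (Pi.single x 1 : GQ ⧸ N → ZMod p), LinearMap.ext fun f => by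
          conv_rhs => rw [pi_eq_sum_univ' (f : GQ ⧸ N → ZMod p), map_sum]
          exact Finset.sum_congr rfl fun x _ => by rw [map_smul, smul_eq_mul, mul_comm]⟩⟩
  have hΘ : ∀ g φ, Θ ((ind N (one p)).ρ g φ) = (dual' (ind N (mu p))).ρ g (Θ φ) := by
    intro g φ
    refine LinearMap.ext fun f => ?_
    rw [dual'_apply]
    show ∑ x, φ (g⁻¹ • x) * f x =
      (ExtCitation.cycloChar p g : ZMod p) * ∑ x, φ x * ((ind N (mu p)).ρ g⁻¹ f x)
    rw [Finset.mul_sum]
    refine Fintype.sum_equiv (MulAction.toPerm g⁻¹) _ _ fun x => ?_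
    show φ (g⁻¹ • x) * f x = (ExtCitation.cycloChar p g : ZMod p) *
      (φ (g⁻¹ • x) * ((ExtCitation.cycloChar p g⁻¹ : ZMod p) * f ((g⁻¹)⁻¹ • g⁻¹ • x)))
    rw [inv_inv, smul_inv_smul, map_inv]
    have hu : (ExtCitation.cycloChar p g : ZMod p) * ((ExtCitation.cycloChar p g)⁻¹ : (ZMod p)ˣ) = 1 :=
      Units.mul_inv _
    linear_combination -(φ (g⁻¹ • x) * f x) * hu
  have hstab : ∀ φ ∈ cH0 (Rep.res l (ind N (one p))),
      LinearMap.funLeft (ZMod p) (ZMod p) (indEquiv N c).symm φ ∈ cH0 (Rep.res l (ind N (one p))) :=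
    fun φ hφ => invariants_stable l (indRight N (one p) c⁻¹)
      (fun g f => indRight_eqv N (one p) c⁻¹ g f) φ hφ
  rw [← charpoly_restrict_congr (S := cH0 (Rep.res l (ind N (one p))))
    (U := cH0 (Rep.res l (dual' (ind N (mu p))))) Θ
    (fun φ => by
      show (∀ g, (dual' (ind N (mu p))).ρ (l g) (Θ φ) = Θ φ) ↔ ∀ g, (ind N (one p)).ρ (l g) φ = φ
      simp only [← hΘ, Θ.injective.eq_iff])
    hstab (invariants_stable l Rd hRd)
    (fun φ _ => LinearMap.ext fun f => (sum_mul_indRight N c φ f).symm)]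
  refine charpoly_funLeft_symm_restrict (F := ZMod p)
    (fun x y : GQ ⧸ N => ∃ g, (l g)⁻¹ • x = y) (S := cH0 (Rep.res l (ind N (one p))))
    (fun φ => ?_) (indEquiv N c) _ hstab
  constructor
  · rintro hφ x y ⟨g, rfl⟩
    exact (congrFun (hφ g) x).symm
  · intro hφ g
    exact funext fun x => (hφ x _ ⟨g, rfl⟩).symm

/-- the constants -/
theorem charpoly_indRight_const {N : Subgroup GQ} [N.Normal] [Finite (GQ ⧸ N)] (c : GQ) :
    LinearMap.charpoly ((indRight N (one p) c).restrict
      (invariants_stable (MonoidHom.id GQ) (indRight N (one p) c)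
        fun g f => indRight_eqv N (one p) c g f)) = X - 1 := by
  have hconst : ∀ φ ∈ cH0 (Rep.res (MonoidHom.id GQ) (ind N (one p))), ∀ x : GQ ⧸ N, φ x = φ (1 : GQ) := by
    intro φ hφ x
    induction x using QuotientGroup.induction_on with
    | H a =>
      have h1 := congrFun (hφ a) (a : GQ ⧸ N)
      change φ ((a⁻¹ * a : GQ) : GQ ⧸ N) = φ a at h1
      rw [inv_mul_cancel] at h1
      exact h1.symm
  have hid : (indRight N (one p) c).restrict (invariants_stable (MonoidHom.id GQ)
      (indRight N (one p) c) fun g f => indRight_eqv N (one p) c g f) = 1 := by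
    refine LinearMap.ext fun φ => Subtype.ext (funext fun x => ?_)
    show φ.1 (x * (c : GQ ⧸ N)) = φ.1 x
    rw [hconst φ.1 φ.2 x, hconst φ.1 φ.2]
  let e : cH0 (Rep.res (MonoidHom.id GQ) (ind N (one p))) ≃ₗ[ZMod p] ZMod p :=
    { toFun := fun φ => φ.1 (1 : GQ)
      map_add' := fun _ _ => rfl
      map_smul' := fun _ _ => rfl
      invFun := fun t => ⟨fun _ => t, fun g => rfl⟩
      left_inv := fun φ => Subtype.ext (funext fun x => (hconst φ.1 φ.2 x).symm)
      right_inv := fun t => rfl }
  rw [hid, LinearMap.charpoly_one, e.finrank_eq, Module.finrank_self, pow_one]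

set_option maxHeartbeats 800000 in
/-- the Euler characteristic of a piece of a translation -/
theorem eulerG_summand (hp2 : p ≠ 2) {N : Subgroup GQ} [N.Normal]
    (hN : IsOpenSub (MonoidHom.id GQ) N) (hω : ∀ g ∈ N, ExtCitation.cycloChar p g = 1) (c : GQ)
    {V : Rep.{0} (ZMod p) GQ} (hV : IsAdm (MonoidHom.id GQ) V) {P h u v : (ZMod p)[X]}
    (huv : u * h + v * P = 1)
    (hPh : aeval (indRight N (mu p) c : Module.End (ZMod p) (ind N (mu p))) (P * h) = 0)
    (a : V →ₗ[ZMod p] ind N (mu p)) (ha : ∀ g x, a (V.ρ g x) = (ind N (mu p)).ρ g (a x))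
    (b : ind N (mu p) →ₗ[ZMod p] V) (hb : ∀ g y, b ((ind N (mu p)).ρ g y) = V.ρ g (b y))
    (hba : ∀ x, b (a x) = x)
    (hab : ∀ y, a (b y) = aeval (indRight N (mu p) c : Module.End (ZMod p) (ind N (mu p))) (u * h) y) :
    eulerG V = 0 := by
  classical
  haveI : Finite (GQ ⧸ N) := hN.finite_quotient
  haveI hWfin : Module.Finite (ZMod p) (ind N (mu p)) := (isAdm_ind hN (isAdm_mu p)).finite
  obtain ⟨R⟩ := exists_recip (p := p) hp2
  obtain ⟨T₀, hT₀⟩ := charpoly_H1T_perm hp2 hN hω
  set q₀ : Nat.Primes := ⟨p, Fact.out⟩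
  rw [eulerG_eq_zero_iff]
  refine ⟨T₀ ∪ {q₀}, fun T hT => ?_⟩
  have hq₀ : q₀ ∈ T := hT (Finset.mem_union_right _ (Finset.mem_singleton_self _))
  haveI hfin : Module.Finite (ZMod p) (H1T T (ind N (mu p))) := finite_H1T_perm hp2 hN hω T
  have hR := fun g f => indRight_eqv N (mu p) c g f
  have hR' := fun g f => indRight_eqv N (one p) c g f
  -- the global relation
  have hrel := congrArg (rootCount P) (hT₀ T (fun x hx => hT (Finset.mem_union_left _ hx)) c hfin
    (fun x hx => h1push_mem_H1T (T := T) _ _ hx)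
    (invariants_stable (MonoidHom.id GQ) (indRight N (mu p) c) hR)
    (fun q => invariants_stable (loc q) (indRight N (one p) c) hR')
    (invariants_stable ExtCitation.archimedeanLoc (indRight N (one p) c) hR'))
  rw [rootCount_mul _ (LinearMap.charpoly_monic _).ne_zero (X_sub_C_ne_zero (1 : ZMod p) |> fun h => by
      rwa [C_1] at h),
    rootCount_mul _ (mul_ne_zero (LinearMap.charpoly_monic _).ne_zero
      (monic_prod_of_monic _ _ fun q _ => LinearMap.charpoly_monic _).ne_zero)
      (LinearMap.charpoly_monic _).ne_zero,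
    rootCount_mul _ (LinearMap.charpoly_monic _).ne_zero
      (monic_prod_of_monic _ _ fun q _ => LinearMap.charpoly_monic _).ne_zero,
    rootCount_prod _ _ _ fun q _ => LinearMap.charpoly_monic _] at hrel
  -- the ranks
  have hA : Module.finrank (ZMod p) (cH0 V) = rootCount P (LinearMap.charpoly
      ((indRight N (mu p) c).restrict (invariants_stable (MonoidHom.id GQ) (indRight N (mu p) c) hR))) :=
    finrank_invariants_summand (F := ZMod p) V.ρ (ind N (mu p)).ρ (indRight N (mu p) c) _ huv hPh
      a ha b hb hba hab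
  have hB := finrank_H1T_summand (V := V) (W := ind N (mu p)) T (indRight N (mu p) c) hR huv hPh
    a ha b hb hba hab
  have hD : Module.finrank (ZMod p) (cH0 (dual' V)) = rootCount P (X - 1 : (ZMod p)[X]) := by
    rw [← charpoly_indRight_const (p := p) (N := N) c]
    exact finrank_dual_invariants (MonoidHom.id GQ) c huv hPh a ha b hb hba hab
  have hq : ∀ q, Module.finrank (ZMod p) (lH2 q V) = rootCount P (LinearMap.charpoly
      ((indRight N (one p) c).restrict (invariants_stable (loc q) (indRight N (one p) c) hR'))) := by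
    intro q
    haveI := (isAdm_dual hV).finite
    rw [← finrank_dual_invariants (loc q) c huv hPh a ha b hb hba hab,
      (LinearEquiv.ofBijective _ (pair02_bijective q hV).2).finrank_eq,
      (LinearEquiv.congrRight (R.inv q)).finrank_eq]
    exact Subspace.dual_finrank_eq
  have hI : Module.finrank (ZMod p) (h0inf (dual' V)) = rootCount P (LinearMap.charpoly
      ((indRight N (one p) c).restrict
        (invariants_stable ExtCitation.archimedeanLoc (indRight N (one p) c) hR'))) :=
    finrank_dual_invariants ExtCitation.archimedeanLoc c huv hPh a ha b hb hba hab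
  -- no locally trivial classes
  have hsha : Module.finrank (ZMod p) (sha2g V) = 0 := by
    have h0 : sha2g V = ⊥ := by
      refine (Submodule.eq_bot_iff _).mpr fun x hx => ?_
      have h1 := h2push_mem_sha2g a ha hx
      rw [sha2g_perm hp2 hN hω, Submodule.mem_bot] at h1
      have h2 := h2push_push (MonoidHom.id GQ) a ha b hb LinearMap.id (fun _ _ => rfl) hba x
      rw [h1, map_zero, h2push_id] at h2
      exact h2.symm
    rw [h0, finrank_bot]
  obtain ⟨-, h2⟩ := finrank_H2T hp2 R hV hq₀
  rw [hsha, hD, Finset.sum_congr rfl fun q _ => hq q] at h2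
  have harch := finrank_h0inf_dual hp2 hV
  rw [hI] at harch
  rw [eulerE, hA, hB]
  simp only [indRightH1] at hrel
  omega

/-- the eigenspaces of the translations on `Δ = Gal(F/ℚ)` -/
theorem eulerG_eigen (hp2 : p ≠ 2) {N : Subgroup GQ} [N.Normal]
    (hN : IsOpenSub (MonoidHom.id GQ) N) (χ : (GQ ⧸ N) →* (ZMod p)ˣ)
    (hχ : ∀ g : GQ, χ (g : GQ ⧸ N) = ExtCitation.cycloChar p g) (c : GQ) (P h : (ZMod p)[X])
    (hcop : IsCoprime P h) (hPh : P * h = X ^ orderOf (c : GQ ⧸ N) - 1) :
    eulerG (infl (QuotientGroup.mk' N) (eigenRep χ (c : GQ ⧸ N) P)) = 0 := by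
  haveI : Finite (GQ ⧸ N) := hN.finite_quotient
  obtain ⟨v, u, huv⟩ := hcop
  have hω : ∀ g ∈ N, ExtCitation.cycloChar p g = 1 := fun g hg => by
    rw [← hχ, (QuotientGroup.eq_one_iff g).mpr hg, map_one]
  have hact : ∀ g : GQ, ∀ f : GQ ⧸ N → ZMod p,
      chiRep χ (g : GQ ⧸ N) f = (ind N (mu p)).ρ g f := fun g f => funext fun x => by
    rw [chiRep_apply, hχ]
    induction x using QuotientGroup.induction_on with
    | H a => rfl
  have hzero : aeval (indRight N (mu p) c : Module.End (ZMod p) (ind N (mu p))) (P * h) = 0 := by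
    show aeval (rtrans (p := p) (c : GQ ⧸ N)) (P * h) = 0
    rw [hPh, map_sub, map_pow, aeval_X, map_one, sub_eq_zero]
    refine LinearMap.ext fun f => funext fun x => ?_
    rw [rtrans_pow, pow_orderOf_eq_one, mul_one]
    rfl
  obtain ⟨F, hF, hFN⟩ := hN
  refine eulerG_summand hp2 ⟨F, hF, hFN⟩ hω c
    (isAdm_infl ⟨F, hF, fun g hg => (QuotientGroup.eq_one_iff g).mpr (hFN hg)⟩ _)
    (by rw [add_comm]; exact huv) hzero (eigen (p := p) (c : GQ ⧸ N) P).subtype
    (fun g x => hact g x.1)
    ((aeval (rtrans (p := p) (c : GQ ⧸ N)) (u * h)).codRestrict _ fun f => ?_) (fun g f => ?_)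
    (fun x => Subtype.ext ?_) (fun f => rfl)
  · rw [eigen, LinearMap.mem_ker, ← Module.End.mul_apply, ← map_mul,
      show P * (u * h) = u * (P * h) by ring, map_mul]
    rw [show aeval (rtrans (p := p) (c : GQ ⧸ N)) (P * h) = 0 from hzero, mul_zero]
    rfl
  · refine Subtype.ext ?_
    show aeval (rtrans (p := p) (c : GQ ⧸ N)) (u * h) ((ind N (mu p)).ρ g f) =
      chiRep χ (g : GQ ⧸ N) (aeval (rtrans (p := p) (c : GQ ⧸ N)) (u * h) f)
    rw [← hact]
    exact (DFunLike.congr_fun (aeval_comm χ (c : GQ ⧸ N) (g : GQ ⧸ N) (u * h)) f).symm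
  · show aeval (rtrans (p := p) (c : GQ ⧸ N)) (u * h) x.1 = x.1
    rw [show u * h = 1 - v * P by linear_combination huv, map_sub, map_one, map_mul,
      LinearMap.sub_apply, Module.End.one_apply, Module.End.mul_apply, LinearMap.mem_ker.mp x.2,
      map_zero, sub_zero]

end FLTAgent.PT

end
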